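import Fermat.Agent.GalCoh.GlobalLevels

/-!
# The class field theoretic inputs of Galois cohomology, as propositions

Nothing is assumed here: `CFTInputs p` is a structure of statements, proved (`CFT.cftInputs`) from the
cyclic class field theory of `Fermat.Agent.CFT`, and taken as a hypothesis by the duality
theorems of `Fermat.Agent.GalCoh`.

Places of `ℚ` are `Unit ⊕ Nat.Primes`.  For an open subgroup `H` of the Galois group (the field
`K` fixed by `H`) a place of `K` is given by a place `v` of `ℚ` and a `g`, the local group being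
`{x | g x g⁻¹ ∈ H}` inside the local group at `v`.  `(v, g)` and `(v, g')` define the same place
iff `g' ∈ H g D_v`.
-/

set_option autoImplicit false

noncomputable section

namespace Fermat.Agent.GalCoh

open ExtCitation

local notation "Γ" => (AlgebraicClosure ℚ ≃ₐ[ℚ] AlgebraicClosure ℚ)

/-- The places of `ℚ`. -/
abbrev Place : Type := Unit ⊕ Nat.Primes

/-- The local Galois groups. -/
def placeGroup : Place → Type
  | Sum.inl _ => ↥archimedeanDecomposition
  | Sum.inr q => primeLocalGaloisGroup q

instance : ∀ v : Place, Group (placeGroup v)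
  | Sum.inl _ => inferInstanceAs (Group ↥archimedeanDecomposition)
  | Sum.inr q => inferInstanceAs (Group (primeLocalGaloisGroup q))

/-- The maps from the local Galois groups to the global one. -/
def placeLoc : ∀ v : Place, placeGroup v →* Γ
  | Sum.inl _ => archimedeanLoc
  | Sum.inr q => primeLocalToGlobal q

/-- The index of a member of a finite set of places, as a place. -/
def toPlace {S : Finset Nat.Primes} : extArithIndex S → Place
  | Sum.inl u => Sum.inl u
  | Sum.inr q => Sum.inr q.1

/-- A place of `ℚ` lies in `S ∪ {∞}`. -/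
def InPlaces (S : Finset Nat.Primes) : Place → Prop
  | Sum.inl _ => True
  | Sum.inr q => q ∈ S

variable (p : ℕ) [Fact p.Prime]

/-- `μ_p` as a representation. -/
def muRep : Representation (ZMod p) Γ (ZMod p) :=
  (Representation.trivial (ZMod p) Γ (ZMod p)).twist (cycloChar p)

theorem muRep_apply (σ : Γ) (x : ZMod p) : muRep p σ x = (cycloChar p σ : ZMod p) * x := by
  simp [muRep, Representation.twist_apply_apply]

variable (H : Subgroup Γ) (v : Place) (g : Γ)

/-- The conjugated local map. -/
def conjLoc : placeGroup v →* Γ := (MulAut.conj g).toMonoidHom.comp (placeLoc v)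

/-- The local group at the place `(v, g)` of the field fixed by `H`. -/
def decompIn : Subgroup (placeGroup v) := H.comap (conjLoc v g)

/-- The map from the local group at `(v, g)` to `H`. -/
def decompToH : ↥(decompIn H v g) →* ↥H :=
  ((conjLoc v g).comp (decompIn H v g).subtype).codRestrict H fun x => x.2

/-- Open levels of `H`. -/
abbrev levelsOn : Levels ↥H := fullLevels.comap H.subtype

/-- `S`-levels of `H`. -/
abbrev levelsSOn (S : Finset Nat.Primes) : Levels ↥H := (levelsS S).comap H.subtype

/-- `μ_p` on `H`. -/
abbrev muOn : Representation (ZMod p) ↥H (ZMod p) := (muRep p).comp H.subtype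

/-- Restriction to the place `(v, g)`. -/
def placeMor :
    Mor (levelsOn H) ((levelsOn H).comap (decompToH H v g)) (muOn p H)
      ((muOn p H).comp (decompToH H v g)) :=
  Mor.res _ _ _ _ ((levelsOn H).compat_comap _)

/-- From `S`-levels to all open levels. -/
def forgetMor (S : Finset Nat.Primes) : Mor (levelsSOn H S) (levelsOn H) (muOn p H) (muOn p H) where
  f := MonoidHom.id _
  φ := LinearMap.id
  comm _ _ := rfl
  compat := fun _ ⟨V, ⟨F, hF, hFV⟩, hVU⟩ => ⟨V, ⟨F, hF.1, hFV⟩, hVU⟩

/-- `(v, g)` is not a complex place, nor a real place with `p` odd. -/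
def IsRelevantPlace : Prop :=
  match v with
  | Sum.inl _ => p = 2 ∧ g * complexConjugation * g⁻¹ ∈ H
  | Sum.inr _ => True

/-- `(v', g')` is the same place of the field fixed by `H` as `(v, g)`. -/
def SamePlace (v' : Place) (g' : Γ) : Prop :=
  v = v' ∧ ∃ x ∈ H, ∃ d : placeGroup v', g' = x * g * placeLoc v' d

/-- Reciprocity over `ℚ`: invariants at every place whose sum vanishes on classes unramified
outside `S`. -/
def Reciprocity : Prop :=
  ∃ inv : ∀ v : Place,
      H2 (localLevels (placeLoc v)) ((muRep p).comp (placeLoc v)) →ₗ[ZMod p] ZMod p,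
    (∀ v, Function.Injective (inv v)) ∧
    ∀ (S : Finset Nat.Primes), pPrime p ∈ S → ∀ z : H2 (levelsS S) (muRep p),
      ∑ u : extArithIndex S,
        inv (toPlace u)
          ((Mor.res (levelsS S) (localLevels (placeLoc (toPlace u))) (muRep p)
            (placeLoc (toPlace u))
            ((compat_levelsS S).comp (fullLevels.compat_comap _))).map₂ z) = 0

/-- Hasse–Brauer–Noether at `p`: a class that vanishes at every place vanishes. -/
def HasseInjective : Prop :=
  ∀ H : Subgroup Γ, fullLevels.mem H → ∀ z : H2 (levelsOn H) (muOn p H),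
    (∀ v g, (placeMor p H v g).map₂ z = 0) → z = 0

/-- Local `H²(μ_p)` has dimension at most one. -/
def LocalH2Cyclic : Prop :=
  ∀ H : Subgroup Γ, fullLevels.mem H → ∀ v g,
    ∀ x y : H2 ((levelsOn H).comap (decompToH H v g)) ((muOn p H).comp (decompToH H v g)),
      x ≠ 0 → ∃ a : ZMod p, y = a • x

/-- Classes supported at a split finite place and one further place: nonzero at the split place
when the further place is finite, nonzero at the real place in the other case. -/
def TwoPlaceClasses : Prop :=
  ∀ N : Subgroup Γ, fullLevels.mem N → N.Normal → (∀ σ ∈ N, cycloChar p σ = 1) →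
    complexConjugation ∉ N → ∀ q : Nat.Primes, (∀ d, placeLoc (Sum.inr q) d ∈ N) → ∀ g₀ : Γ,
      (∀ (q' : Nat.Primes) (g : Γ), ¬ SamePlace N (Sum.inr q) g₀ (Sum.inr q') g →
        ∃ z : H2 (levelsOn N) (muOn p N),
          (placeMor p N (Sum.inr q) g₀).map₂ z ≠ 0 ∧
            ∀ v'' g'', ¬ SamePlace N (Sum.inr q) g₀ v'' g'' →
              ¬ SamePlace N (Sum.inr q') g v'' g'' → (placeMor p N v'' g'').map₂ z = 0) ∧
      (p = 2 → ∀ H : Subgroup Γ, N ≤ H → ∀ (u : Unit) (g : Γ),
        g * complexConjugation * g⁻¹ ∈ H →
        ∃ z : H2 (levelsOn H) (muOn p H),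
          (placeMor p H (Sum.inl u) g).map₂ z ≠ 0 ∧
            ∀ v'' g'', ¬ SamePlace H (Sum.inl u) g v'' g'' →
              ¬ SamePlace H (Sum.inr q) g₀ v'' g'' → (placeMor p H v'' g'').map₂ z = 0)

/-- Descent of classes to a large finite set of places. -/
def DescentS : Prop :=
  ∀ H : Subgroup Γ, fullLevels.mem H → ∃ S₀ : Finset Nat.Primes, ∀ S, S₀ ⊆ S →
    Function.Injective (forgetMor p H S).map₂ ∧
    ∀ z : H2 (levelsOn H) (muOn p H),
      (∀ v g, ¬ InPlaces S v → (placeMor p H v g).map₂ z = 0) →
        z ∈ LinearMap.range (forgetMor p H S).map₂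

/-- All the class field theoretic inputs at `p`. -/
structure CFTInputs : Prop where
  reciprocity : Reciprocity p
  hasseInjective : HasseInjective p
  localH2Cyclic : LocalH2Cyclic p
  twoPlaceClasses : TwoPlaceClasses p
  descentS : DescentS p

end Fermat.Agent.GalCoh
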