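import Fermat.Agent.GalCoh.Cochain
import Mathlib.LinearAlgebra.FiniteDimensional.Lemmas
import Mathlib.LinearAlgebra.Basis.VectorSpace

/-!
# The long exact cohomology sequence in degrees zero, one and two
-/

set_option autoImplicit false

noncomputable section

namespace Fermat.Agent.GalCoh

open Representation (IntertwiningMap)

variable {k : Type} [Field k] {G : Type} [Group G]
  {A B C : Type} [AddCommGroup A] [Module k A] [AddCommGroup B] [Module k B]
  [AddCommGroup C] [Module k C]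

/-- A short exact sequence of representations with a linear splitting. -/
structure Ses (α : Representation k G A) (β : Representation k G B) (γ : Representation k G C) where
  i : IntertwiningMap α β
  j : IntertwiningMap β γ
  s : C →ₗ[k] B
  r : B →ₗ[k] A
  js : ∀ c, j (s c) = c
  ri : ∀ a, r (i a) = a
  ji : ∀ a, j (i a) = 0
  split : ∀ b, i (r b) + s (j b) = b

variable {α : Representation k G A} {β : Representation k G B} {γ : Representation k G C}

/-- Every short exact sequence of representations over a field splits linearly. -/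
theorem exists_ses (i : IntertwiningMap α β) (j : IntertwiningMap β γ) (hi : Function.Injective i)
    (hj : Function.Surjective j) (hex : ∀ b, j b = 0 ↔ ∃ a, i a = b) :
    ∃ S : Ses α β γ, S.i = i ∧ S.j = j := by
  obtain ⟨s, hs⟩ := j.toLinearMap.exists_rightInverse_of_surjective
    (LinearMap.range_eq_top.mpr hj)
  have hs' : ∀ c, j (s c) = c := fun c => LinearMap.congr_fun hs c
  let p : B →ₗ[k] B := LinearMap.id - s ∘ₗ j.toLinearMap
  have hp : ∀ b, ∃ a, i a = p b := fun b => (hex _).mp (by simp [p, map_sub, hs'])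
  obtain ⟨q, hq⟩ := i.toLinearMap.exists_leftInverse_of_injective (LinearMap.ker_eq_bot.mpr hi)
  have hq' : ∀ a, q (i a) = a := fun a => LinearMap.congr_fun hq a
  refine ⟨⟨i, j, s, q ∘ₗ p, hs', fun a => ?_, fun a => (hex _).mpr ⟨a, rfl⟩, fun b => ?_⟩, rfl, rfl⟩
  · simp [p, (hex (i a)).mpr ⟨a, rfl⟩, hq']
  · obtain ⟨a, ha⟩ := hp b
    have : i ((q ∘ₗ p) b) = p b := by rw [LinearMap.comp_apply, ← ha, hq']
    rw [this]
    simp [p]

namespace Ses

variable (S : Ses α β γ) {L : Levels G}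

theorem i_injective : Function.Injective S.i :=
  Function.LeftInverse.injective S.ri

theorem j_surjective : Function.Surjective S.j :=
  Function.RightInverse.surjective S.js

theorem i_r_of_j_eq_zero {b : B} (hb : S.j b = 0) : S.i (S.r b) = b := by
  simpa [hb] using S.split b

theorem j_eq_zero_iff {b : B} : S.j b = 0 ↔ ∃ a, S.i a = b :=
  ⟨fun h => ⟨S.r b, S.i_r_of_j_eq_zero h⟩, fun ⟨a, ha⟩ => ha ▸ S.ji a⟩

variable (L)

/-- The morphism `i`. -/
abbrev mi : Mor L L α β := Mor.ofMap L S.i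

/-- The morphism `j`. -/
abbrev mj : Mor L L β γ := Mor.ofMap L S.j

@[simp] theorem mi_φ (a : A) : (S.mi L).φ a = S.i a := rfl

@[simp] theorem mj_φ (b : B) : (S.mj L).φ b = S.j b := rfl

@[simp] theorem mi_cochain₁ (x : G → A) (g : G) : (S.mi L).cochain₁ x g = S.i (x g) := rfl

@[simp] theorem mj_cochain₁ (x : G → B) (g : G) : (S.mj L).cochain₁ x g = S.j (x g) := rfl

@[simp] theorem mi_cochain₂ (x : G × G → A) (p : G × G) : (S.mi L).cochain₂ x p = S.i (x p) := rfl

@[simp] theorem mj_cochain₂ (x : G × G → B) (p : G × G) : (S.mj L).cochain₂ x p = S.j (x p) := rfl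

variable {L}

theorem d1_i (x : G → A) (p : G × G) : d1 β (fun g => S.i (x g)) p = S.i (d1 α x p) := by
  obtain ⟨g, h⟩ := p
  simp [S.i.isIntertwining]

theorem d1_j (x : G → B) (p : G × G) : d1 γ (fun g => S.j (x g)) p = S.j (d1 β x p) := by
  obtain ⟨g, h⟩ := p
  simp [S.j.isIntertwining]

theorem r_mem_Z1 {c : G → B} (hc : c ∈ Z1 L β) (hj : ∀ g, S.j (c g) = 0) :
    (fun g => S.r (c g)) ∈ Z1 L α := by
  rw [mem_Z1_iff] at hc ⊢
  refine ⟨fun g h => S.i_injective ?_, hc.2.comp S.r⟩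
  rw [map_add, S.i.isIntertwining, S.i_r_of_j_eq_zero (hj _), S.i_r_of_j_eq_zero (hj _),
    S.i_r_of_j_eq_zero (hj _)]
  exact hc.1 g h

theorem r_mem_Z2 {c : G × G → B} (hc : c ∈ Z2 L β) (hj : ∀ p, S.j (c p) = 0) :
    (fun p => S.r (c p)) ∈ Z2 L α := by
  rw [mem_Z2_iff] at hc ⊢
  refine ⟨fun g h l => S.i_injective ?_, hc.2.comp S.r⟩
  rw [map_add, map_add, S.i.isIntertwining, S.i_r_of_j_eq_zero (hj _), S.i_r_of_j_eq_zero (hj _),
    S.i_r_of_j_eq_zero (hj _), S.i_r_of_j_eq_zero (hj _)]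
  exact hc.1 g h l

theorem d0_lift_mem (hβ : IsCtsRep L β) (c : H0 γ) :
    (fun g => S.r (d0 β (S.s c) g)) ∈ Z1 L α :=
  S.r_mem_Z1 (d0_mem_Z1 hβ _) fun g => by
    simp [S.j.isIntertwining, S.js, c.2 g]

/-- The connecting map in degree zero. -/
def δ₀ (hβ : IsCtsRep L β) : H0 γ →ₗ[k] H1 L α where
  toFun c := H1mk L α ⟨_, S.d0_lift_mem hβ c⟩
  map_add' c c' := by
    rw [← map_add]
    refine congrArg _ (Subtype.ext (funext fun g => ?_))
    simp
    abel
  map_smul' a c := by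
    rw [← map_smul]
    refine congrArg _ (Subtype.ext (funext fun g => ?_))
    simp [smul_sub]

theorem d1_lift_mem (hβ : IsCtsRep L β) (c : ↥(Z1 L γ)) :
    (fun p => S.r (d1 β (fun g => S.s ((c : G → C) g)) p)) ∈ Z2 L α :=
  S.r_mem_Z2 ⟨d2_d1 β _, d1_mem_C2 hβ ((mem_Z1_iff.mp c.2).2.comp S.s)⟩ fun p => by
    rw [← S.d1_j]
    simp only [S.js]
    exact congrFun c.2.1 p

/-- The connecting map on one-cocycles. -/
def δ₁Cocycle (hβ : IsCtsRep L β) : ↥(Z1 L γ) →ₗ[k] H2 L α where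
  toFun c := H2mk L α ⟨_, S.d1_lift_mem hβ c⟩
  map_add' c c' := by
    rw [← map_add]
    refine congrArg _ (Subtype.ext (funext fun p => ?_))
    obtain ⟨g, h⟩ := p
    simp
    abel
  map_smul' a c := by
    rw [← map_smul]
    refine congrArg _ (Subtype.ext (funext fun p => ?_))
    obtain ⟨g, h⟩ := p
    simp [smul_sub, smul_add]

theorem δ₁Cocycle_apply (hβ : IsCtsRep L β) (c : ↥(Z1 L γ)) :
    S.δ₁Cocycle hβ c = H2mk L α ⟨_, S.d1_lift_mem hβ c⟩ := rfl

/-- The connecting map in degree one. -/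
def δ₁ (hβ : IsCtsRep L β) : H1 L γ →ₗ[k] H2 L α :=
  Submodule.liftQ _ (S.δ₁Cocycle hβ) fun c hc => by
    obtain ⟨v, hv⟩ := mem_B1_iff.mp (Submodule.mem_comap.mp hc)
    rw [LinearMap.mem_ker, δ₁Cocycle_apply, H2mk_eq_zero_iff, mem_B2_iff]
    have hcts : L.IsCts₁ (fun g => S.r (S.s ((c : G → C) g) - d0 β (S.s v) g)) :=
      (((mem_Z1_iff.mp c.2).2.comp S.s).map₂ (d0_mem_C1 hβ (S.s v)) (· - ·)).comp S.r
    refine ⟨_, hcts, funext fun p => S.i_injective ?_⟩
    have h1 : ∀ g, S.i (S.r (S.s ((c : G → C) g) - d0 β (S.s v) g)) =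
        S.s ((c : G → C) g) - d0 β (S.s v) g := fun g => S.i_r_of_j_eq_zero (by
      simp [map_sub, S.js, S.j.isIntertwining, show (c : G → C) g = γ g v - v from hv g])
    rw [← S.d1_i]
    simp only [h1]
    rw [S.i_r_of_j_eq_zero]
    · have h2 := congrFun (d1_d0 β (S.s v)) p
      have h3 : (fun g => S.s ((c : G → C) g) - d0 β (S.s v) g) =
          (fun g => S.s ((c : G → C) g)) - d0 β (S.s v) := rfl
      rw [h3, map_sub, Pi.sub_apply, h2, Pi.zero_apply, sub_zero]
    · rw [← S.d1_j]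
      simp only [S.js]
      exact congrFun c.2.1 p

theorem δ₁_mk (hβ : IsCtsRep L β) (c : ↥(Z1 L γ)) :
    S.δ₁ hβ (H1mk L γ c) = H2mk L α ⟨_, S.d1_lift_mem hβ c⟩ := rfl

theorem δ₀_apply (hβ : IsCtsRep L β) (c : H0 γ) :
    S.δ₀ hβ c = H1mk L α ⟨_, S.d0_lift_mem hβ c⟩ := rfl

/-! ### Exactness -/

variable (L) in
theorem map₀_injective : Function.Injective (S.mi L).map₀ :=
  fun _ _ h => Subtype.ext (S.i_injective (congrArg Subtype.val h :))

variable (L) in
theorem ker_map₀ : LinearMap.ker (S.mj L).map₀ = LinearMap.range (S.mi L).map₀ := by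
  ext b
  simp only [LinearMap.mem_ker, LinearMap.mem_range, Subtype.ext_iff, Mor.coe_map₀, mi_φ, mj_φ,
    ZeroMemClass.coe_zero]
  refine ⟨fun h => ?_, fun ⟨a, ha⟩ => ha ▸ S.ji _⟩
  refine ⟨⟨S.r b, fun g => S.i_injective ?_⟩, S.i_r_of_j_eq_zero h⟩
  simp [S.i.isIntertwining, S.i_r_of_j_eq_zero h, b.2 g]

theorem ker_δ₀ (hβ : IsCtsRep L β) :
    LinearMap.ker (S.δ₀ hβ) = LinearMap.range (S.mj L).map₀ := by
  ext c
  simp only [LinearMap.mem_ker, LinearMap.mem_range, δ₀_apply, H1mk_eq_zero_iff, mem_B1_iff]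
  constructor
  · rintro ⟨v, hv⟩
    refine ⟨⟨S.s c - S.i v, fun g => ?_⟩, Subtype.ext (by simp [S.js, S.ji])⟩
    have h := congrArg S.i (hv g)
    rw [S.i_r_of_j_eq_zero (by simp [S.j.isIntertwining, S.js, c.2 g])] at h
    simp only [d0_apply, map_sub, S.i.isIntertwining] at h
    rw [map_sub, sub_eq_sub_iff_sub_eq_sub]
    exact h
  · rintro ⟨b, rfl⟩
    refine ⟨S.r (S.s (S.j b) - b), fun g => S.i_injective ?_⟩
    have hb : S.i (S.r (S.s (S.j b) - b)) = S.s (S.j b) - b :=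
      S.i_r_of_j_eq_zero (by simp [S.js])
    have hd : S.i (S.r (d0 β (S.s ((S.mj L).map₀ b)) g)) = d0 β (S.s ((S.mj L).map₀ b)) g :=
      S.i_r_of_j_eq_zero (by simp [S.j.isIntertwining, S.js, ← S.j.isIntertwining, b.2 g])
    rw [hd, map_sub, S.i.isIntertwining, hb]
    simp [b.2 g]

theorem ker_map₁_i (hβ : IsCtsRep L β) :
    LinearMap.ker (S.mi L).map₁ = LinearMap.range (S.δ₀ hβ) := by
  ext x
  obtain ⟨a, rfl⟩ := H1mk_surjective x
  simp only [LinearMap.mem_ker, LinearMap.mem_range, Mor.map₁_mk, δ₀_apply, H1mk_eq_zero_iff]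
  constructor
  · rw [mem_B1_iff]
    rintro ⟨b, hb⟩
    simp only [mi_cochain₁] at hb
    refine ⟨⟨S.j b, fun g => ?_⟩, ?_⟩
    · rw [← S.j.isIntertwining, ← sub_eq_zero, ← map_sub, ← hb g, S.ji]
    · rw [H1mk_eq_iff, mem_B1_iff]
      refine ⟨S.r (S.s (S.j b) - b), fun g => S.i_injective ?_⟩
      have hd : S.i (S.r (d0 β (S.s (S.j b)) g)) = d0 β (S.s (S.j b)) g :=
        S.i_r_of_j_eq_zero (by
          simp only [d0_apply, map_sub, S.j.isIntertwining, S.js]
          rw [← S.j.isIntertwining, ← map_sub, ← hb g, S.ji])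
      have hb' : S.i (S.r (S.s (S.j b) - b)) = S.s (S.j b) - b :=
        S.i_r_of_j_eq_zero (by simp [S.js])
      simp only [Pi.sub_apply]
      rw [map_sub, map_sub, S.i.isIntertwining, hd, hb, hb']
      simp
      abel
  · rintro ⟨c, hc⟩
    rw [H1mk_eq_iff, mem_B1_iff] at hc
    obtain ⟨v, hv⟩ := hc
    rw [mem_B1_iff]
    refine ⟨S.s c - S.i v, fun g => ?_⟩
    have h := congrArg S.i (hv g)
    simp only [Pi.sub_apply, map_sub, S.i.isIntertwining] at h
    have hd : S.i (S.r (d0 β (S.s c) g)) = d0 β (S.s c) g :=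
      S.i_r_of_j_eq_zero (by simp [S.j.isIntertwining, S.js, c.2 g])
    rw [hd] at h
    simp only [mi_cochain₁, map_sub]
    simp only [d0_apply] at h
    rw [← sub_eq_zero] at h ⊢
    rw [← neg_eq_zero] at h
    rw [← h]
    abel

theorem ker_map₁_j (hβ : IsCtsRep L β) :
    LinearMap.ker (S.mj L).map₁ = LinearMap.range (S.mi L).map₁ := by
  ext x
  obtain ⟨b, rfl⟩ := H1mk_surjective x
  simp only [LinearMap.mem_ker, LinearMap.mem_range, Mor.map₁_mk, H1mk_eq_zero_iff, mem_B1_iff]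
  constructor
  · rintro ⟨c, hc⟩
    simp only [mj_cochain₁] at hc
    have hmem : (b : G → B) - d0 β (S.s c) ∈ Z1 L β :=
      sub_mem b.2 (d0_mem_Z1 hβ _)
    have hj : ∀ g, S.j (((b : G → B) - d0 β (S.s c)) g) = 0 := fun g => by
      simp [hc g, S.j.isIntertwining, S.js]
    refine ⟨H1mk L α ⟨_, S.r_mem_Z1 hmem hj⟩, ?_⟩
    rw [Mor.map₁_mk, H1mk_eq_iff, mem_B1_iff]
    refine ⟨-(S.s c), fun g => ?_⟩
    change S.i (S.r (((b : G → B) - d0 β (S.s c)) g)) - (b : G → B) g = _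
    rw [S.i_r_of_j_eq_zero (hj g)]
    simp
    abel
  · rintro ⟨a, ha⟩
    obtain ⟨a, rfl⟩ := H1mk_surjective a
    rw [Mor.map₁_mk, H1mk_eq_iff, mem_B1_iff] at ha
    obtain ⟨v, hv⟩ := ha
    refine ⟨-(S.j v), fun g => ?_⟩
    have h := congrArg S.j (hv g)
    simp only [Pi.sub_apply, map_sub, mi_cochain₁, S.ji, zero_sub, S.j.isIntertwining] at h
    simp only [mj_cochain₁, map_neg]
    rw [← neg_inj, h]
    abel

theorem ker_δ₁ (hβ : IsCtsRep L β) :
    LinearMap.ker (S.δ₁ hβ) = LinearMap.range (S.mj L).map₁ := by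
  ext x
  obtain ⟨c, rfl⟩ := H1mk_surjective x
  simp only [LinearMap.mem_ker, LinearMap.mem_range, δ₁_mk, H2mk_eq_zero_iff, mem_B2_iff]
  constructor
  · rintro ⟨y, hy, he⟩
    have hb : (fun g => S.s ((c : G → C) g) - S.i (y g)) ∈ Z1 L β := by
      refine ⟨LinearMap.mem_ker.mpr (funext fun p => ?_),
        ((mem_Z1_iff.mp c.2).2.comp S.s).map₂ (hy.comp S.i) (· - ·)⟩
      have h := congrArg S.i (congrFun he p)
      rw [← S.d1_i, S.i_r_of_j_eq_zero] at h
      · have h3 : (fun g => S.s ((c : G → C) g) - S.i (y g)) =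
            (fun g => S.s ((c : G → C) g)) - fun g => S.i (y g) := rfl
        rw [h3, map_sub, Pi.sub_apply, h, sub_self, Pi.zero_apply]
      · rw [← S.d1_j]
        simp only [S.js]
        exact congrFun c.2.1 p
    refine ⟨H1mk L β ⟨_, hb⟩, ?_⟩
    rw [Mor.map₁_mk]
    exact congrArg _ (Subtype.ext (funext fun g => by
      change S.j (S.s ((c : G → C) g) - S.i (y g)) = _
      simp [S.js, S.ji]))
  · rintro ⟨b, hb⟩
    obtain ⟨b, rfl⟩ := H1mk_surjective b
    rw [Mor.map₁_mk, H1mk_eq_iff, mem_B1_iff] at hb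
    obtain ⟨v, hv⟩ := hb
    simp only [Pi.sub_apply, mj_cochain₁] at hv
    refine ⟨fun g => S.r (S.s ((c : G → C) g) - (b : G → B) g + d0 β (S.s v) g),
      ((((mem_Z1_iff.mp c.2).2.comp S.s).map₂ (mem_Z1_iff.mp b.2).2 (· - ·)).map₂
        (d0_mem_C1 hβ (S.s v)) (· + ·)).comp S.r, funext fun p => S.i_injective ?_⟩
    have h1 : ∀ g, S.i (S.r (S.s ((c : G → C) g) - (b : G → B) g + d0 β (S.s v) g)) =
        S.s ((c : G → C) g) - (b : G → B) g + d0 β (S.s v) g := fun g =>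
      S.i_r_of_j_eq_zero (by
        simp only [map_add, map_sub, S.js, d0_apply, S.j.isIntertwining]
        rw [← hv g]
        abel)
    rw [← S.d1_i]
    simp only [h1]
    rw [S.i_r_of_j_eq_zero]
    · have h3 : (fun g => S.s ((c : G → C) g) - (b : G → B) g + d0 β (S.s v) g) =
          (fun g => S.s ((c : G → C) g)) - (b : G → B) + d0 β (S.s v) := rfl
      rw [h3, map_add, map_sub, d1_d0, LinearMap.mem_ker.mp b.2.1, sub_zero, add_zero]
    · rw [← S.d1_j]
      simp only [S.js]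
      exact congrFun c.2.1 p

theorem ker_map₂_i (hβ : IsCtsRep L β) :
    LinearMap.ker (S.mi L).map₂ = LinearMap.range (S.δ₁ hβ) := by
  ext x
  obtain ⟨a, rfl⟩ := H2mk_surjective x
  simp only [LinearMap.mem_ker, LinearMap.mem_range, Mor.map₂_mk, H2mk_eq_zero_iff, mem_B2_iff]
  constructor
  · rintro ⟨y, hy, he⟩
    have hc : (fun g => S.j (y g)) ∈ Z1 L γ := by
      refine ⟨LinearMap.mem_ker.mpr (funext fun p => ?_), hy.comp S.j⟩
      rw [S.d1_j, congrFun he p]
      exact S.ji _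
    refine ⟨H1mk L γ ⟨_, hc⟩, ?_⟩
    rw [δ₁_mk, H2mk_eq_iff, mem_B2_iff]
    refine ⟨fun g => S.r (S.s (S.j (y g)) - y g),
      (((hy.comp S.j).comp S.s).map₂ hy (· - ·)).comp S.r, funext fun p => S.i_injective ?_⟩
    have h1 : ∀ g, S.i (S.r (S.s (S.j (y g)) - y g)) = S.s (S.j (y g)) - y g :=
      fun g => S.i_r_of_j_eq_zero (by simp [S.js])
    rw [← S.d1_i]
    simp only [h1]
    rw [Pi.sub_apply, map_sub, S.i_r_of_j_eq_zero]
    · have h3 : (fun g => S.s (S.j (y g)) - y g) = (fun g => S.s (S.j (y g))) - y := rfl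
      rw [h3, map_sub, Pi.sub_apply, congrFun he p]
      rfl
    · rw [← S.d1_j]
      simp only [S.js]
      exact congrFun hc.1 p
  · rintro ⟨c, hc⟩
    obtain ⟨c, rfl⟩ := H1mk_surjective c
    rw [δ₁_mk, H2mk_eq_iff, mem_B2_iff] at hc
    obtain ⟨y, hy, he⟩ := hc
    refine ⟨fun g => S.s ((c : G → C) g) - S.i (y g),
      ((mem_Z1_iff.mp c.2).2.comp S.s).map₂ (hy.comp S.i) (· - ·), funext fun p => ?_⟩
    have h := congrArg S.i (congrFun he p)
    simp only [Pi.sub_apply, map_sub] at h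
    rw [← S.d1_i, S.i_r_of_j_eq_zero] at h
    · have h3 : (fun g => S.s ((c : G → C) g) - S.i (y g)) =
          (fun g => S.s ((c : G → C) g)) - fun g => S.i (y g) := rfl
      rw [h3, map_sub, Pi.sub_apply, h, mi_cochain₂]
      abel
    · rw [← S.d1_j]
      simp only [S.js]
      exact congrFun c.2.1 p

theorem ker_map₂_j (hβ : IsCtsRep L β) :
    LinearMap.ker (S.mj L).map₂ = LinearMap.range (S.mi L).map₂ := by
  ext x
  obtain ⟨b, rfl⟩ := H2mk_surjective x
  simp only [LinearMap.mem_ker, LinearMap.mem_range, Mor.map₂_mk, H2mk_eq_zero_iff, mem_B2_iff]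
  constructor
  · rintro ⟨y, hy, he⟩
    have hb' : (b : G × G → B) - d1 β (fun g => S.s (y g)) ∈ Z2 L β :=
      sub_mem b.2 ⟨d2_d1 β _, d1_mem_C2 hβ (hy.comp S.s)⟩
    have hj : ∀ p, S.j (((b : G × G → B) - d1 β (fun g => S.s (y g))) p) = 0 := fun p => by
      simp only [Pi.sub_apply, map_sub, ← S.d1_j, S.js]
      rw [congrFun he p, mj_cochain₂, sub_self]
    refine ⟨H2mk L α ⟨_, S.r_mem_Z2 hb' hj⟩, ?_⟩
    rw [Mor.map₂_mk, H2mk_eq_iff, mem_B2_iff]
    refine ⟨fun g => -(S.s (y g)), (hy.comp S.s).comp _, funext fun p => ?_⟩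
    change _ = S.i (S.r (((b : G × G → B) - d1 β (fun g => S.s (y g))) p)) - (b : G × G → B) p
    rw [S.i_r_of_j_eq_zero (hj p), Pi.sub_apply,
      show (fun g => -(S.s (y g))) = -(fun g => S.s (y g)) from rfl, map_neg, Pi.neg_apply]
    abel
  · rintro ⟨a, ha⟩
    obtain ⟨a, rfl⟩ := H2mk_surjective a
    rw [Mor.map₂_mk, H2mk_eq_iff, mem_B2_iff] at ha
    obtain ⟨y, hy, he⟩ := ha
    refine ⟨fun g => -(S.j (y g)), (hy.comp S.j).comp _, funext fun p => ?_⟩
    rw [show (fun g => -(S.j (y g))) = -(fun g => S.j (y g)) from rfl, map_neg, Pi.neg_apply,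
      S.d1_j, congrFun he p]
    simp [S.ji]

/-- The alternating sum identity for the long exact sequence. -/
theorem euler_identity (hβ : IsCtsRep L β) [FiniteDimensional k A] [FiniteDimensional k B]
    [FiniteDimensional k C] [FiniteDimensional k (H1 L α)] [FiniteDimensional k (H1 L β)]
    [FiniteDimensional k (H1 L γ)] [FiniteDimensional k (H2 L α)] [FiniteDimensional k (H2 L β)] :
    (Module.finrank k (H0 α) : ℤ) - Module.finrank k (H0 β) + Module.finrank k (H0 γ)
      - Module.finrank k (H1 L α) + Module.finrank k (H1 L β) - Module.finrank k (H1 L γ)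
      + Module.finrank k (H2 L α) - Module.finrank k (H2 L β)
      + Module.finrank k (LinearMap.range (S.mj L).map₂) = 0 := by
  have e0 := LinearMap.finrank_range_add_finrank_ker (S.mi L).map₀
  have e1 := LinearMap.finrank_range_add_finrank_ker (S.mj L).map₀
  have e2 := LinearMap.finrank_range_add_finrank_ker (S.δ₀ hβ)
  have e3 := LinearMap.finrank_range_add_finrank_ker (S.mi L).map₁
  have e4 := LinearMap.finrank_range_add_finrank_ker (S.mj L).map₁
  have e5 := LinearMap.finrank_range_add_finrank_ker (S.δ₁ hβ)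
  have e6 := LinearMap.finrank_range_add_finrank_ker (S.mi L).map₂
  have e7 := LinearMap.finrank_range_add_finrank_ker (S.mj L).map₂
  rw [LinearMap.ker_eq_bot.mpr (S.map₀_injective L), finrank_bot] at e0
  rw [S.ker_map₀ L] at e1
  rw [S.ker_δ₀ hβ] at e2
  rw [S.ker_map₁_i hβ] at e3
  rw [S.ker_map₁_j hβ] at e4
  rw [S.ker_δ₁ hβ] at e5
  rw [S.ker_map₂_i hβ] at e6
  rw [S.ker_map₂_j hβ] at e7
  omega

theorem finiteDimensional_H1_middle (S : Ses α β γ) (hβ : IsCtsRep L β)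
    [FiniteDimensional k (H1 L α)] [FiniteDimensional k (H1 L γ)] :
    FiniteDimensional k (H1 L β) := by
  have : Module.Finite k (LinearMap.ker (S.mj L).map₁) := by
    rw [S.ker_map₁_j hβ]; infer_instance
  have : Module.Finite k (H1 L β ⧸ LinearMap.ker (S.mj L).map₁) :=
    Module.Finite.equiv (LinearMap.quotKerEquivRange (S.mj L).map₁).symm
  exact Module.Finite.of_submodule_quotient (LinearMap.ker (S.mj L).map₁)

theorem finiteDimensional_H2_middle (S : Ses α β γ) (hβ : IsCtsRep L β)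
    [FiniteDimensional k (H2 L α)] [FiniteDimensional k (H2 L γ)] :
    FiniteDimensional k (H2 L β) := by
  have : Module.Finite k (LinearMap.ker (S.mj L).map₂) := by
    rw [S.ker_map₂_j hβ]; infer_instance
  have : Module.Finite k (H2 L β ⧸ LinearMap.ker (S.mj L).map₂) :=
    Module.Finite.equiv (LinearMap.quotKerEquivRange (S.mj L).map₂).symm
  exact Module.Finite.of_submodule_quotient (LinearMap.ker (S.mj L).map₂)

end Ses

end Fermat.Agent.GalCoh
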