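import Fermat.Agent.GalCoh.CFTInputs
import Fermat.Agent.GalCoh.LongExact

/-!
# The Euler characteristic statements for `G_{ℚ,S}` and its open subgroups

For an open subgroup `H` with fixed field `K` and a representation `σ` of `H`:
`chiS = h⁰ - h¹ + h²` and `twiceArch = 2 ∑_{v ∣ ∞} (h⁰(K_v, σ) - [K_v : ℝ] dim σ)`, the latter
written as a sum over the points of `Γ ⧸ H` (a complex place is two points).
-/

set_option autoImplicit false

noncomputable section

namespace Fermat.Agent.GalCoh

open Module ExtCitation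

local notation "Γ" => (AlgebraicClosure ℚ ≃ₐ[ℚ] AlgebraicClosure ℚ)

variable {p : ℕ} [Fact p.Prime] (S : Finset Nat.Primes) (H : Subgroup Γ)
  {W : Type} [AddCommGroup W] [Module (ZMod p) W] (σ : Representation (ZMod p) ↥H W)

/-- `h⁰ - h¹ + h²` of `H` for the `S`-levels. -/
def chiS : ℤ :=
  (finrank (ZMod p) (H0 σ) : ℤ) - finrank (ZMod p) (H1 (levelsSOn H S) σ)
    + finrank (ZMod p) (H2 (levelsSOn H S) σ)

open Classical in
/-- The archimedean term at a point `x` of `Γ ⧸ H`: twice `dim W^{c_x}` at a real point, `dim W`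
at a complex one. -/
def archTerm (x : Γ ⧸ H) : ℕ :=
  if h : x.out⁻¹ * complexConjugation * x.out ∈ H then
    2 * finrank (ZMod p) (LinearMap.ker (σ ⟨_, h⟩ - 1))
  else finrank (ZMod p) W

/-- Twice the archimedean term of the Euler characteristic formula. -/
def twiceArch : ℤ :=
  ∑ᶠ x : Γ ⧸ H, ((archTerm H σ x : ℤ) - 2 * finrank (ZMod p) W)

/-- `2 χ - twiceArch`: the Euler characteristic formula says that it vanishes. -/
def eulerDefect : ℤ := 2 * chiS S H σ - twiceArch H σ

/-- `N` is an open normal subgroup whose fixed field contains `μ_p`, and is totally complex. -/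
structure IsSplittingLevel (p : ℕ) [Fact p.Prime] (N : Subgroup Γ) : Prop where
  mem : fullLevels.mem N
  normal : N.Normal
  mu : ∀ τ ∈ N, cycloChar p τ = 1
  complex : complexConjugation ∉ N

/-- `σ` is trivial on `N ∩ H`. -/
def TrivialOn (N : Subgroup Γ) : Prop := ∀ x : ↥H, (x : Γ) ∈ N → σ x = 1

/-- Finiteness of the cohomology of `H` for the `S`-levels. -/
def FiniteCoh : Prop :=
  FiniteDimensional (ZMod p) (H1 (levelsSOn H S) σ) ∧
    FiniteDimensional (ZMod p) (H2 (levelsSOn H S) σ)

/-- The defect is additive in short exact sequences of modules split by `N`, for large `S`. -/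
def EulerAdditive (p : ℕ) [Fact p.Prime] : Prop :=
  ∀ N : Subgroup Γ, IsSplittingLevel p N → ∃ S₁ : Finset Nat.Primes, ∀ S, S₁ ⊆ S →
    ∀ H : Subgroup Γ, N ≤ H →
      ∀ (A B C : Type) [AddCommGroup A] [Module (ZMod p) A] [AddCommGroup B] [Module (ZMod p) B]
        [AddCommGroup C] [Module (ZMod p) C] [FiniteDimensional (ZMod p) B]
        (α : Representation (ZMod p) ↥H A) (β : Representation (ZMod p) ↥H B)
        (γ : Representation (ZMod p) ↥H C),
        TrivialOn H β N → Ses α β γ → FiniteCoh S H α → FiniteCoh S H γ →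
          FiniteCoh S H β ∧ eulerDefect S H β = eulerDefect S H α + eulerDefect S H γ

/-- The Euler characteristic formula, for large `S`. -/
def EulerFormula (p : ℕ) [Fact p.Prime] : Prop :=
  ∀ N : Subgroup Γ, IsSplittingLevel p N → ∃ S₁ : Finset Nat.Primes, ∀ S, S₁ ⊆ S →
    ∀ H : Subgroup Γ, N ≤ H →
      ∀ (W : Type) [AddCommGroup W] [Module (ZMod p) W] [FiniteDimensional (ZMod p) W]
        (σ : Representation (ZMod p) ↥H W),
        TrivialOn H σ N → FiniteCoh S H σ ∧ eulerDefect S H σ = 0

end Fermat.Agent.GalCoh
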