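import Fermat.Agent.GalCoh.Mackey

/-!
# Naturality of evaluation, components and Shapiro's isomorphism
-/

set_option autoImplicit false

noncomputable section

namespace Fermat.Agent.GalCoh

open Representation (IntertwiningMap)

variable {k : Type} [CommRing k] {G : Type} [Group G] {V : Type} [AddCommGroup V] [Module k V]
  {ρ : Representation k G V} {L : Levels G}

section

variable {G' : Type} [Group G'] {W : Type} [AddCommGroup W] [Module k W]
  {σ : Representation k G' W} {L' : Levels G'}

theorem Mor.map₂_congr {m m' : Mor L L' ρ σ} (hf : m.f = m'.f) (hφ : m.φ = m'.φ) (z : H2 L ρ) :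
    m.map₂ z = m'.map₂ z := by
  rw [Mor.ext' hf hφ]

theorem Mor.map₂_map₂ {G'' : Type} [Group G''] {U : Type} [AddCommGroup U] [Module k U]
    {τ : Representation k G'' U} {L'' : Levels G''} (m : Mor L L' ρ σ) (m' : Mor L' L'' σ τ)
    (z : H2 L ρ) : m'.map₂ (m.map₂ z) = (m.comp m').map₂ z := by
  rw [Mor.map₂_comp]; rfl

/-- Compositions of morphisms with equal components agree on cohomology. -/
theorem Mor.map₂_square {G'' G₁ : Type} [Group G''] [Group G₁] {U V₁ : Type} [AddCommGroup U]
    [Module k U] [AddCommGroup V₁] [Module k V₁] {τ : Representation k G'' U}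
    {σ₁ : Representation k G₁ V₁} {L'' : Levels G''} {L₁ : Levels G₁}
    (m : Mor L L' ρ σ) (m' : Mor L' L'' σ τ) (n : Mor L L₁ ρ σ₁) (n' : Mor L₁ L'' σ₁ τ)
    (hf : (m.comp m').f = (n.comp n').f) (hφ : (m.comp m').φ = (n.comp n').φ) (z : H2 L ρ) :
    m'.map₂ (m.map₂ z) = n'.map₂ (n.map₂ z) := by
  rw [Mor.map₂_map₂ m m', Mor.map₂_map₂ n n', Mor.map₂_congr hf hφ]

theorem Mor.map₁_map₁ {G'' : Type} [Group G''] {U : Type} [AddCommGroup U] [Module k U]
    {τ : Representation k G'' U} {L'' : Levels G''} (m : Mor L L' ρ σ) (m' : Mor L' L'' σ τ)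
    (z : H1 L ρ) : m'.map₁ (m.map₁ z) = (m.comp m').map₁ z := by
  rw [Mor.map₁_comp]; rfl

theorem Mor.map₂_eq_sum {ι : Type} [Fintype ι]
    (m : Mor L L' ρ σ) (ms : ι → Mor L L' ρ σ) (hf : ∀ i, (ms i).f = m.f)
    (hφ : m.φ = ∑ i, (ms i).φ) (z : H2 L ρ) : m.map₂ z = ∑ i, (ms i).map₂ z := by
  obtain ⟨F, rfl⟩ := H2mk_surjective z
  simp only [Mor.map₂_mk]
  rw [← map_sum]
  refine congrArg _ (Subtype.ext (funext fun q => ?_))
  rw [Submodule.coe_sum, Finset.sum_apply]
  show m.φ _ = ∑ i, (ms i).φ _
  simp [hφ, hf, LinearMap.sum_apply]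

end

variable {H : Subgroup G}

/-- Transport from the stabilizer of the base point to that of `↑a`. -/
def translateMor (L : Levels G) (ρ : Representation k G V) (H : Subgroup G) (a : G) :
    Mor (L.comap H.subtype) (L.comap (MulAction.stabilizer G (a : G ⧸ H)).subtype)
      (ρ.comp H.subtype) (ρ.comp (MulAction.stabilizer G (a : G ⧸ H)).subtype) where
  f :=
    ((MulAut.conj a⁻¹).toMonoidHom.comp (MulAction.stabilizer G (a : G ⧸ H)).subtype).codRestrict H
      fun d => by
        have hd := MulAction.mem_stabilizer_iff.mp d.2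
        rw [MulAction.Quotient.smul_coe, QuotientGroup.eq, smul_eq_mul] at hd
        have := H.inv_mem hd
        simpa [mul_assoc] using this
  φ := ρ a
  comm d v := by
    simp only [MonoidHom.coe_comp, Function.comp_apply, ← Module.End.mul_apply, ← map_mul]
    simp [mul_assoc]
  compat := fun U ⟨U₀, hU₀, hU⟩ => by
    obtain ⟨N, hN, hNn, hNU⟩ := L.exists_normal hU₀
    refine ⟨N, hN, fun d hd => hU (hNU ?_)⟩
    simpa [mul_assoc] using hNn.conj_mem _ hd a⁻¹

/-- The component at `↑a` is the translate of the component at the base point. -/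
theorem pointMor_coe_map₂ (a : G) (z : H2 L (permRep ρ (G ⧸ H))) :
    (pointMor L ρ (a : G ⧸ H)).map₂ z =
      (translateMor L ρ H a).map₂ ((evalMor L ρ H).map₂ z) := by
  conv_lhs => rw [← conjMor_map₂ (ρ := permRep ρ (G ⧸ H)) a⁻¹ z]
  rw [Mor.map₂_map₂, Mor.map₂_map₂]
  refine Mor.map₂_congr ?_ ?_ z
  · ext d
    rfl
  · refine LinearMap.ext fun f => ?_
    show permRep ρ (G ⧸ H) a⁻¹⁻¹ f (a : G ⧸ H) = ρ a (f ((1 : G) : G ⧸ H))
    rw [inv_inv, permRep_apply, MulAction.Quotient.smul_coe, smul_eq_mul, inv_mul_cancel]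

variable {D : Type} [Group D] {X : Type} [MulAction G X] {L' : Levels D}

/-- The action of `D` on a `G`-set through `f`. -/
abbrev pullAction (f : D →* G) (X : Type) [MulAction G X] : MulAction D X :=
  MulAction.compHom X f

/-- Restriction of a permutation module. -/
def permRes (L : Levels G) (L' : Levels D) (ρ : Representation k G V) (X : Type) [MulAction G X]
    (f : D →* G) (hf : L.Compat L' f) :
    letI := pullAction f X
    Mor L L' (permRep ρ X) (permRep (ρ.comp f) X) :=
  letI := pullAction f X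
  { f := f
    φ := LinearMap.id
    comm := fun d v => by
      ext x
      show ρ (f d) (v ((f d)⁻¹ • x)) = ρ (f d) (v (f d⁻¹ • x))
      rw [map_inv]
    compat := hf }

theorem res_sumMap [Fintype X] (f : D →* G) (hf : L.Compat L' f) (z : H2 L (permRep ρ X)) :
    (Mor.res L L' ρ f hf).map₂ ((Mor.ofMap L (sumMap ρ X)).map₂ z) =
      (letI := pullAction f X
       (Mor.ofMap L' (sumMap (ρ.comp f) X)).map₂ ((permRes L L' ρ X f hf).map₂ z)) := by
  rw [Mor.map₂_map₂, Mor.map₂_map₂]
  refine Mor.map₂_congr ?_ ?_ z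
  · ext d; rfl
  · rfl

/-- If every component of a class vanishes on the restricted group, so does the restriction of
its sum. -/
theorem res_sumMap_eq_zero [Fintype X] (f : D →* G) (hf : L.Compat L' f)
    (hρ : IsCtsRep L ρ) (hX : ∀ x : X, L'.mem ((MulAction.stabilizer G x).comap f))
    (z : H2 L (permRep ρ X))
    (h : ∀ x : X,
      letI := pullAction f X
      (pointMor L' (ρ.comp f) x).map₂ ((permRes L L' ρ X f hf).map₂ z) = 0) :
    (Mor.res L L' ρ f hf).map₂ ((Mor.ofMap L (sumMap ρ X)).map₂ z) = 0 := by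
  let := pullAction f X
  rw [res_sumMap f hf z]
  have h0 : (permRes L L' ρ X f hf).map₂ z = 0 := by
    refine eq_zero_of_pointMor_eq_zero (hρ.comp hf) (fun x => ?_) _ fun o => h o.out
    refine L'.mono (hX x) fun d hd => ?_
    exact hd
  rw [h0, map_zero]

/-- The projection at a point fixed by the restricted group. -/
def projMor (L : Levels G) (L' : Levels D) (ρ : Representation k G V) (X : Type) [MulAction G X]
    (f : D →* G) (hf : L.Compat L' f) (x : X) (hx : ∀ d, f d • x = x) :
    Mor L L' (permRep ρ X) (ρ.comp f) where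
  f := f
  φ := LinearMap.proj x
  comm d v := by
    simp only [LinearMap.proj_apply, permRep_apply, MonoidHom.coe_comp, Function.comp_apply]
    rw [inv_smul_eq_iff.mpr (hx d).symm]
  compat := hf

/-- When every point is fixed and all projections but one vanish, the restricted sum is that
projection. -/
theorem res_sumMap_eq_proj [Fintype X] (f : D →* G) (hf : L.Compat L' f)
    (hfix : ∀ (x : X) d, f d • x = x) (x₀ : X) (z : H2 L (permRep ρ X))
    (h : ∀ x, x ≠ x₀ → (projMor L L' ρ X f hf x (hfix x)).map₂ z = 0) :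
    (Mor.res L L' ρ f hf).map₂ ((Mor.ofMap L (sumMap ρ X)).map₂ z) =
      (projMor L L' ρ X f hf x₀ (hfix x₀)).map₂ z := by
  classical
  rw [Mor.map₂_map₂]
  have e := Mor.map₂_eq_sum ((Mor.ofMap L (sumMap ρ X)).comp (Mor.res L L' ρ f hf))
    (fun x => projMor L L' ρ X f hf x (hfix x)) (fun _ => rfl)
    (LinearMap.ext fun w => by
      show sumMap ρ X w = _
      simp [projMor, LinearMap.sum_apply]) z
  rw [e]
  exact Finset.sum_eq_single x₀ (fun x _ hx => h x hx) fun hh => absurd (Finset.mem_univ _) hh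

/-- At a fixed point the projection is determined by the component. -/
theorem projMor_eq_zero_of_pointMor (f : D →* G) (hf : L.Compat L' f) (x : X)
    (hx : ∀ d, f d • x = x) (z : H2 L (permRep ρ X))
    (h : letI := pullAction f X
      (pointMor L' (ρ.comp f) x).map₂ ((permRes L L' ρ X f hf).map₂ z) = 0) :
    (projMor L L' ρ X f hf x hx).map₂ z = 0 := by
  let := pullAction f X
  let T : Mor (L'.comap (MulAction.stabilizer D x).subtype) L'
      ((ρ.comp f).comp (MulAction.stabilizer D x).subtype) (ρ.comp f) :=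
    { f := (MonoidHom.id D).codRestrict _ hx
      φ := LinearMap.id
      comm := fun _ _ => rfl
      compat := fun U ⟨U₀, hU₀, hU⟩ => L'.mono hU₀ fun d hd => hU hd }
  have h' := congrArg T.map₂ h
  rw [map_zero, Mor.map₂_map₂, Mor.map₂_map₂] at h'
  rw [← h']
  exact Mor.map₂_congr rfl rfl z

end Fermat.Agent.GalCoh
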