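import Fermat.Agent.GalCoh.Selmer
import Fermat.Agent.GalCoh.Transport
import Fermat.Agent.GalCoh.EulerDefs

/-!
# Components at the places of a subfield, and reciprocity for them
-/

set_option autoImplicit false

noncomputable section

namespace Fermat.Agent.GalCoh

open ExtCitation Representation MulAction

local notation "Γ" => (AlgebraicClosure ℚ ≃ₐ[ℚ] AlgebraicClosure ℚ)

variable {p : ℕ} [Fact p.Prime] {S : Finset Nat.Primes} {K : Subgroup Γ}

/-- The component at the place `(v, g)` of an `S`-class. -/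
def compS (p : ℕ) [Fact p.Prime] (S : Finset Nat.Primes) (K : Subgroup Γ) (v : Place) (g : Γ) :
    H2 (levelsSOn K S) (muOn p K) →ₗ[ZMod p]
      H2 ((levelsOn K).comap (decompToH K v g)) ((muOn p K).comp (decompToH K v g)) :=
  (placeMor p K v g).map₂ ∘ₗ (forgetMor p K S).map₂

/-- `S` is big enough for the field fixed by `K`. -/
structure GoodFor (p : ℕ) [Fact p.Prime] (S : Finset Nat.Primes) (K : Subgroup Γ) : Prop where
  mem : (levelsS S).mem K
  inj : Function.Injective (forgetMor p K S).map₂
  surj : ∀ z : H2 (levelsOn K) (muOn p K),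
    (∀ v g, ¬ InPlaces S v → (placeMor p K v g).map₂ z = 0) →
      z ∈ LinearMap.range (forgetMor p K S).map₂
  unram : ∀ v g, ¬ InPlaces S v → ∀ z, compS p S K v g z = 0

theorem GoodFor.full (h : GoodFor p S K) : fullLevels.mem K := by
  simpa using compat_levelsS S h.mem

theorem GoodFor.eq_zero (h : GoodFor p S K) (hH : HasseInjective p)
    (z : H2 (levelsSOn K S) (muOn p K))
    (hz : ∀ v g, InPlaces S v → compS p S K v g z = 0) : z = 0 := by
  refine h.inj ?_
  rw [map_zero]
  refine hH K h.full _ fun v g => ?_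
  by_cases hv : InPlaces S v
  · exact hz v g hv
  · exact h.unram v g hv z

/-- The point of `Γ ⧸ K` under the place `(v, g)`. -/
abbrev placePoint (K : Subgroup Γ) (g : Γ) : Γ ⧸ K := ((g⁻¹ : Γ) : Γ ⧸ K)

theorem mem_decompIn_iff {v : Place} {g : Γ} {d : placeGroup v} :
    d ∈ decompIn K v g ↔ placeLoc v d • placePoint K g = placePoint K g := by
  rw [eq_comm, MulAction.Quotient.smul_coe, QuotientGroup.eq, smul_eq_mul, inv_inv,
    ← mul_assoc]
  rfl

theorem SamePlace.symm {v v' : Place} {g g' : Γ} (h : SamePlace K v g v' g') :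
    SamePlace K v' g' v g := by
  obtain ⟨rfl, x, hx, d, rfl⟩ := h
  exact ⟨rfl, x⁻¹, K.inv_mem hx, d⁻¹, by simp [mul_assoc]⟩

theorem SamePlace.trans {v v' v'' : Place} {g g' g'' : Γ} (h : SamePlace K v g v' g')
    (h' : SamePlace K v' g' v'' g'') : SamePlace K v g v'' g'' := by
  obtain ⟨rfl, x, hx, d, rfl⟩ := h
  obtain ⟨rfl, y, hy, e, rfl⟩ := h'
  exact ⟨rfl, y * x, K.mul_mem hy hx, d * e, by simp [mul_assoc]⟩

theorem samePlace_of_smul {v : Place} {g g' : Γ} {d : placeGroup v}
    (h : placeLoc v d • placePoint K g = placePoint K g') : SamePlace K v g v g' := by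
  rw [MulAction.Quotient.smul_coe, QuotientGroup.eq, smul_eq_mul] at h
  refine ⟨rfl, (g * (placeLoc v d)⁻¹ * g'⁻¹)⁻¹, K.inv_mem ?_, d⁻¹, by simp [mul_assoc]⟩
  simpa [mul_assoc] using h

/-- Vanishing at a place does not depend on its representative. -/
theorem placeMor_eq_zero_of_samePlace {v : Place} {g g' : Γ}
    (hmu : ∀ σ ∈ K, cycloChar p σ = 1) (h : SamePlace K v g v g')
    {z : H2 (levelsOn K) (muOn p K)} (hz : (placeMor p K v g).map₂ z = 0) :
    (placeMor p K v g').map₂ z = 0 := by
  obtain ⟨-, x, hx, d, rfl⟩ := h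
  have hmem : ∀ e : ↥(decompIn K v (x * g * placeLoc v d)), d * (e : placeGroup v) * d⁻¹ ∈
      decompIn K v g := fun e => by
    have he : x * g * placeLoc v d * placeLoc v e * (x * g * placeLoc v d)⁻¹ ∈ K := e.2
    show g * placeLoc v (d * e * d⁻¹) * g⁻¹ ∈ K
    have := K.mul_mem (K.mul_mem (K.inv_mem hx) he) hx
    simpa [mul_assoc] using this
  let T : Mor ((levelsOn K).comap (decompToH K v g))
      ((levelsOn K).comap (decompToH K v (x * g * placeLoc v d)))
      ((muOn p K).comp (decompToH K v g))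
      ((muOn p K).comp (decompToH K v (x * g * placeLoc v d))) :=
    { f := ((MulAut.conj d).toMonoidHom.comp
        (decompIn K v (x * g * placeLoc v d)).subtype).codRestrict (decompIn K v g) hmem
      φ := LinearMap.id
      comm := fun e w => by
        simp only [LinearMap.id_apply, MonoidHom.coe_comp, Function.comp_apply, muRep_apply,
          Subgroup.coe_subtype]
        rw [hmu _ (decompToH K v g _).2, hmu _ (decompToH K v (x * g * placeLoc v d) e).2]
      compat := fun U ⟨V, hV, hVU⟩ => by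
        obtain ⟨N, hN, hNn, hNV⟩ := (levelsOn K).exists_normal hV
        refine ⟨N, hN, fun e he => hVU (hNV ?_)⟩
        have := hNn.conj_mem _ he ⟨x⁻¹, K.inv_mem hx⟩
        convert this using 1
        ext : 1
        simp [decompToH, conjLoc, mul_assoc] }
  have e2 := congrArg T.map₂ hz
  rw [map_zero, Mor.map₂_map₂] at e2
  rw [← conjMor_map₂ (ρ := muOn p K) (⟨x⁻¹, K.inv_mem hx⟩ : ↥K) z, Mor.map₂_map₂]
  refine Eq.trans (Mor.map₂_congr ?_ ?_ z) e2
  · ext e : 2
    simp [conjMor, placeMor, Mor.res, Mor.comp, T, decompToH, conjLoc, mul_assoc]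
  · refine LinearMap.ext fun w => ?_
    simp [conjMor, placeMor, Mor.res, Mor.comp, T, muRep_apply, hmu x hx]

section Induced

variable {L : Levels Γ}

/-- The component of a class of `Γ ⧸ K → μ_p` at `(v, g)`. -/
def pointLoc (p : ℕ) [Fact p.Prime] (L : Levels Γ) (hL : L.Compat fullLevels (MonoidHom.id Γ))
    (K : Subgroup Γ) (v : Place) (g : Γ) :
    Mor L ((levelsOn K).comap (decompToH K v g)) (permRep (muRep p) (Γ ⧸ K))
      ((muOn p K).comp (decompToH K v g)) where
  f := (placeLoc v).comp (decompIn K v g).subtype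
  φ := muRep p g ∘ₗ LinearMap.proj (placePoint K g)
  comm d f := by
    have hd : placeLoc v (d : placeGroup v) • placePoint K g = placePoint K g :=
      mem_decompIn_iff.mp d.2
    simp only [LinearMap.coe_comp, Function.comp_apply, LinearMap.proj_apply, permRep_apply,
      MonoidHom.coe_comp, Subgroup.coe_subtype]
    rw [inv_smul_eq_iff.mpr hd.symm]
    simp only [decompToH, MonoidHom.codRestrict_apply, conjLoc, MonoidHom.coe_comp,
      Function.comp_apply, ← Module.End.mul_apply, ← map_mul]
    simp [mul_assoc]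
  compat := fun U hU => by
    have hU' : fullLevels.mem U := by simpa using hL hU
    obtain ⟨N, hN, hNn, hNU⟩ := fullLevels.exists_normal hU'
    refine ⟨N.comap K.subtype, ⟨N, hN, le_rfl⟩, fun d hd => hNU ?_⟩
    have := hNn.conj_mem _ hd g⁻¹
    simpa [decompToH, conjLoc, mul_assoc] using this

/-- From `(L.comap K)` to all open levels of `K`. -/
def forgetOn (p : ℕ) [Fact p.Prime] (L : Levels Γ) (hL : L.Compat fullLevels (MonoidHom.id Γ))
    (K : Subgroup Γ) : Mor (L.comap K.subtype) (levelsOn K) (muOn p K) (muOn p K) where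
  f := MonoidHom.id _
  φ := LinearMap.id
  comm _ _ := rfl
  compat := hL.comap _

theorem forgetOn_levelsS (S : Finset Nat.Primes) :
    (forgetOn p (levelsS S) (compat_levelsS S) K).map₂ = (forgetMor p K S).map₂ := rfl

/-- Shapiro's component at `(v, g)` is the component of the evaluated class. -/
theorem placeMor_evalMor (hL : L.Compat fullLevels (MonoidHom.id Γ)) (v : Place) (g : Γ)
    (W : H2 L (permRep (muRep p) (Γ ⧸ K))) :
    (placeMor p K v g).map₂ ((forgetOn p L hL K).map₂ ((evalMor L (muRep p) K).map₂ W)) =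
      (pointLoc p L hL K v g).map₂ W := by
  conv_rhs => rw [← conjMor_map₂ (ρ := permRep (muRep p) (Γ ⧸ K)) g W]
  rw [Mor.map₂_map₂, Mor.map₂_map₂, Mor.map₂_map₂]
  refine Mor.map₂_congr ?_ ?_ W
  · ext d
    rfl
  · refine LinearMap.ext fun f => ?_
    show f ((1 : Γ) : Γ ⧸ K) = muRep p g (permRep (muRep p) (Γ ⧸ K) g⁻¹ f (placePoint K g))
    rw [permRep_apply, ← Module.End.mul_apply, ← map_mul, inv_inv, mul_inv_cancel, map_one]
    rw [MulAction.Quotient.smul_coe, smul_eq_mul, mul_inv_cancel]
    rfl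

/-- From a component to the point component of the restricted class. -/
def toStabMor (p : ℕ) [Fact p.Prime] (K : Subgroup Γ) (v : Place) (g : Γ) :
    letI := pullAction (placeLoc v) (Γ ⧸ K)
    Mor ((levelsOn K).comap (decompToH K v g))
      ((localLevels (placeLoc v)).comap (stabilizer (placeGroup v) (placePoint K g)).subtype)
      ((muOn p K).comp (decompToH K v g))
      (((muRep p).comp (placeLoc v)).comp (stabilizer (placeGroup v) (placePoint K g)).subtype) :=
  letI := pullAction (placeLoc v) (Γ ⧸ K)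
  { f := Subgroup.inclusion fun d hd => mem_decompIn_iff.mpr hd
    φ := muRep p g⁻¹
    comm := fun d w => by
      simp only [MonoidHom.coe_comp, Function.comp_apply, decompToH, MonoidHom.codRestrict_apply,
        conjLoc, ← Module.End.mul_apply, ← map_mul, Subgroup.coe_subtype, Subgroup.coe_inclusion]
      simp [mul_assoc]
    compat := fun U ⟨V, ⟨V₀, hV₀, hVV⟩, hVU⟩ => by
      obtain ⟨N, hN, hNn, hNV⟩ := fullLevels.exists_normal hV₀
      refine ⟨N.comap (placeLoc v), ⟨N, hN, le_rfl⟩, fun d hd => hVU (hVV (hNV ?_))⟩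
      simpa [decompToH, conjLoc, mul_assoc] using hNn.conj_mem _ hd g }

theorem toStabMor_pointLoc (hL : L.Compat fullLevels (MonoidHom.id Γ)) (v : Place) (g : Γ)
    (W : H2 L (permRep (muRep p) (Γ ⧸ K))) :
    letI := pullAction (placeLoc v) (Γ ⧸ K)
    (toStabMor p K v g).map₂ ((pointLoc p L hL K v g).map₂ W) =
      (pointMor (localLevels (placeLoc v)) ((muRep p).comp (placeLoc v)) (placePoint K g)).map₂
        ((permRes L (localLevels (placeLoc v)) (muRep p) (Γ ⧸ K) (placeLoc v)
          (hL.comp (fullLevels.compat_comap _))).map₂ W) := by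
  let := pullAction (placeLoc v) (Γ ⧸ K)
  rw [Mor.map₂_map₂, Mor.map₂_map₂]
  refine Mor.map₂_congr ?_ ?_ W
  · ext d; rfl
  · refine LinearMap.ext fun f => ?_
    show muRep p g⁻¹ (muRep p g (f (placePoint K g))) = f (placePoint K g)
    rw [← Module.End.mul_apply, ← map_mul, inv_mul_cancel, map_one]
    rfl

theorem isCtsRep_muRep_of_mem {K : Subgroup Γ} (hK : L.mem K)
    (hmu : ∀ σ ∈ K, cycloChar p σ = 1) : IsCtsRep L (muRep p) :=
  ⟨K, hK, fun s hs => LinearMap.ext fun x => by simp [muRep_apply, hmu s hs]⟩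

/-- If all components above `v` vanish, so does the restriction at `v` of the corestriction. -/
theorem res_sum_eq_zero [Fintype (Γ ⧸ K)] (hL : L.Compat fullLevels (MonoidHom.id Γ))
    (hK : L.mem K) (hρ : IsCtsRep L (muRep p)) (v : Place)
    (W : H2 L (permRep (muRep p) (Γ ⧸ K)))
    (h : ∀ g, (pointLoc p L hL K v g).map₂ W = 0) :
    (Mor.res L (localLevels (placeLoc v)) (muRep p) (placeLoc v)
      (hL.comp (fullLevels.compat_comap _))).map₂
        ((Mor.ofMap L (sumMap (muRep p) (Γ ⧸ K))).map₂ W) = 0 := by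
  let := pullAction (placeLoc v) (Γ ⧸ K)
  refine res_sumMap_eq_zero (placeLoc v) _ hρ (fun x => ?_) W fun x => ?_
  · obtain ⟨N, hN, hNn, hNK⟩ := L.exists_normal hK
    refine ⟨N, by simpa using hL hN, fun d hd => ?_⟩
    exact smul_eq_self_of_normal hNn hNK hd x
  · obtain ⟨a, rfl⟩ := QuotientGroup.mk_surjective x
    have := toStabMor_pointLoc hL v a⁻¹ W
    rw [h a⁻¹, map_zero] at this
    have e : placePoint K a⁻¹ = ((a : Γ) : Γ ⧸ K) := by simp [placePoint]
    rw [← e]
    exact this.symm

end Induced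

end Fermat.Agent.GalCoh
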