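import Fermat.Agent.GalCoh.LongExact
import Mathlib.GroupTheory.GroupAction.Quotient
import Mathlib.Algebra.BigOperators.Pi
import Mathlib.RingTheory.Finiteness.Basic

/-!
# Permutation modules `X → V` and Shapiro's lemma

For a `G`-set `X` and a representation `ρ` on `V`, `permRep ρ X` is the representation
`(g f) x = g (f (g⁻¹ x))` on `X → V`.  For `X = G ⧸ H` with `H` open it is the induced
representation of the restriction of `ρ`, and evaluation at the base point induces isomorphisms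
in degrees one and two.
-/

set_option autoImplicit false

noncomputable section

namespace Fermat.Agent.GalCoh

open Representation (IntertwiningMap)

variable {k : Type} [CommRing k] {G : Type} [Group G] {V : Type} [AddCommGroup V] [Module k V]

/-- The permutation module `X → V`. -/
def permRep (ρ : Representation k G V) (X : Type) [MulAction G X] :
    Representation k G (X → V) where
  toFun g :=
    { toFun := fun f x => ρ g (f (g⁻¹ • x))
      map_add' := fun f f' => by ext; simp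
      map_smul' := fun a f => by ext; simp }
  map_one' := by ext; simp
  map_mul' g h := by ext; simp [mul_smul]

@[simp] theorem permRep_apply (ρ : Representation k G V) (X : Type) [MulAction G X] (g : G)
    (f : X → V) (x : X) : permRep ρ X g f x = ρ g (f (g⁻¹ • x)) := rfl

variable {ρ : Representation k G V} {X Y : Type} [MulAction G X] [MulAction G Y]

/-- Post-composition with an equivariant map. -/
def permMap {W : Type} [AddCommGroup W] [Module k W] {σ : Representation k G W}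
    (φ : IntertwiningMap ρ σ) (X : Type) [MulAction G X] :
    IntertwiningMap (permRep ρ X) (permRep σ X) :=
  LinearMap.intertwiningMap_of_isIntertwiningMap _ _ (φ.toLinearMap.compLeft X) fun g f => by
    ext x; simp [φ.isIntertwining]

@[simp] theorem permMap_apply {W : Type} [AddCommGroup W] [Module k W]
    {σ : Representation k G W} (φ : IntertwiningMap ρ σ) (f : X → V) (x : X) :
    permMap φ X f x = φ (f x) := rfl

variable (ρ X) in
/-- The constant functions. -/
def constMap : IntertwiningMap ρ (permRep ρ X) :=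
  LinearMap.intertwiningMap_of_isIntertwiningMap _ _
    (LinearMap.pi fun _ => LinearMap.id) fun g v => by ext x; simp

@[simp] theorem constMap_apply (v : V) (x : X) : constMap ρ X v x = v := rfl

variable (ρ X) in
/-- The sum over `X`. -/
def sumMap [Fintype X] : IntertwiningMap (permRep ρ X) ρ :=
  LinearMap.intertwiningMap_of_isIntertwiningMap _ _ (∑ x : X, LinearMap.proj x) fun g f => by
    simp only [LinearMap.sum_apply, LinearMap.proj_apply, map_sum, permRep_apply]
    exact Fintype.sum_equiv (MulAction.toPerm g⁻¹) _ _ fun x => rfl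

@[simp] theorem sumMap_apply [Fintype X] (f : X → V) : sumMap ρ X f = ∑ x, f x := by
  simp [sumMap]

theorem sumMap_constMap [Fintype X] (v : V) :
    sumMap ρ X (constMap ρ X v) = Fintype.card X • v := by simp

open Classical in
variable (ρ) in
/-- Summation along the fibres of an equivariant map. -/
def pushMap [Fintype X] (π : X →[G] Y) : IntertwiningMap (permRep ρ X) (permRep ρ Y) :=
  LinearMap.intertwiningMap_of_isIntertwiningMap _ _
    (LinearMap.pi fun y => ∑ x ∈ Finset.univ.filter (fun x => π x = y), LinearMap.proj x)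
    fun g f => by
      ext y
      simp only [LinearMap.pi_apply, LinearMap.sum_apply, LinearMap.proj_apply, permRep_apply,
        map_sum]
      refine Finset.sum_equiv (MulAction.toPerm g⁻¹) (fun x => ?_) fun x _ => rfl
      simp [map_smul]

open Classical in
theorem pushMap_apply [Fintype X] (π : X →[G] Y) (f : X → V) (y : Y) :
    pushMap ρ π f y = ∑ x ∈ Finset.univ.filter (fun x => π x = y), f x := by
  simp [pushMap]

theorem sumMap_pushMap [Fintype X] [Fintype Y] (π : X →[G] Y) (f : X → V) :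
    sumMap ρ Y (pushMap ρ π f) = sumMap ρ X f := by
  classical
  simp only [sumMap_apply, pushMap_apply]
  exact Finset.sum_fiberwise _ _ _

section Coset

variable {L : Levels G} {H : Subgroup G}

theorem smul_eq_self_of_normal {N : Subgroup G} (hN : N.Normal) (hNH : N ≤ H) {n : G} (hn : n ∈ N)
    (x : G ⧸ H) : n • x = x := by
  induction x using QuotientGroup.induction_on with
  | H a =>
    rw [MulAction.Quotient.smul_coe, QuotientGroup.eq, smul_eq_mul]
    refine hNH ?_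
    have := hN.conj_mem _ (N.inv_mem hn) a⁻¹
    simpa [mul_assoc] using this

theorem isCtsRep_permRep (hρ : IsCtsRep L ρ) (hH : L.mem H) :
    IsCtsRep L (permRep ρ (G ⧸ H)) := by
  obtain ⟨U, hU, h⟩ := hρ
  obtain ⟨N, hN, hNn, hNle⟩ := L.exists_normal (L.inf_mem hU hH)
  refine ⟨N, hN, fun s hs => LinearMap.ext fun f => funext fun x => ?_⟩
  rw [permRep_apply, h s (hNle hs).1,
    smul_eq_self_of_normal hNn (hNle.trans inf_le_right) (N.inv_mem hs) x]
  simp

theorem finite_quotient (hH : L.mem H) : Finite (G ⧸ H) := by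
  have := L.finiteIndex hH
  exact Subgroup.finite_quotient_of_finiteIndex

variable (H) in
open Classical in
/-- Coset representatives, equal to `1` on the trivial coset. -/
def cosetRep (x : G ⧸ H) : G := if x = ((1 : G) : G ⧸ H) then 1 else x.out

@[simp] theorem mk_cosetRep (x : G ⧸ H) : ((cosetRep H x : G) : G ⧸ H) = x := by
  unfold cosetRep
  split_ifs with h
  · exact h.symm
  · exact x.out_eq'

@[simp] theorem cosetRep_one : cosetRep H ((1 : G) : G ⧸ H) = 1 := by
  simp [cosetRep]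

variable (H) in
/-- The cocycle `G × G/H → H` of the coset representatives. -/
def kappa (g : G) (y : G ⧸ H) : ↥H :=
  ⟨(cosetRep H (g • y))⁻¹ * g * cosetRep H y, by
    rw [mul_assoc, ← QuotientGroup.eq]
    conv_rhs => rw [← smul_eq_mul, ← MulAction.Quotient.smul_coe, mk_cosetRep]
    rw [mk_cosetRep]⟩

theorem rep_mul_kappa (g : G) (y : G ⧸ H) :
    cosetRep H (g • y) * (kappa H g y : G) = g * cosetRep H y := by
  simp [kappa, mul_assoc]

theorem kappa_mul (g h : G) (z : G ⧸ H) :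
    kappa H (g * h) z = kappa H g (h • z) * kappa H h z := by
  ext
  simp [kappa, mul_smul, mul_assoc]

@[simp] theorem kappa_one (h : ↥H) : kappa H (h : G) ((1 : G) : G ⧸ H) = h := by
  have : (h : G) • ((1 : G) : G ⧸ H) = ((1 : G) : G ⧸ H) := by
    rw [MulAction.Quotient.smul_coe, QuotientGroup.eq]
    simp [H.inv_mem h.2]
  ext
  simp [kappa, this]

theorem smul_one_of_mem (h : ↥H) : (h : G) • ((1 : G) : G ⧸ H) = ((1 : G) : G ⧸ H) := by
  rw [MulAction.Quotient.smul_coe, QuotientGroup.eq]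
  simp [H.inv_mem h.2]

theorem kappa_mul_right_mem {N : Subgroup G} (hN : N.Normal) (hNH : N ≤ H) (g : G) {s : G}
    (hs : s ∈ N) (y : G ⧸ H) :
    ∃ t : ↥H, (t : G) ∈ N ∧ kappa H (g * s) y = kappa H g y * t := by
  have hy : s • y = y := smul_eq_self_of_normal hN hNH hs y
  have ht : (kappa H s y : G) ∈ N := by
    have := hN.conj_mem s hs (cosetRep H y)⁻¹
    simpa [kappa, hy, mul_assoc] using this
  exact ⟨kappa H s y, ht, by rw [kappa_mul, hy]⟩

/-- The restriction-evaluation morphism of Shapiro's lemma. -/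
def evalMor (L : Levels G) (ρ : Representation k G V) (H : Subgroup G) :
    Mor L (L.comap H.subtype) (permRep ρ (G ⧸ H)) (ρ.comp H.subtype) where
  f := H.subtype
  φ := LinearMap.proj ((1 : G) : G ⧸ H)
  comm h v := by
    simp only [LinearMap.proj_apply, permRep_apply, Subgroup.coe_subtype]
    rw [← Subgroup.coe_inv, smul_one_of_mem]
    rfl
  compat := L.compat_comap _

/-- Lifting of one-cochains of `H`. -/
def lift₁ (ρ : Representation k G V) (H : Subgroup G) (f : ↥H → V) : G → (G ⧸ H → V) :=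
  fun g x => ρ (cosetRep H x) (f (kappa H g (g⁻¹ • x)))

/-- Lifting of two-cochains of `H`. -/
def lift₂ (ρ : Representation k G V) (H : Subgroup G) (w : ↥H × ↥H → V) :
    G × G → (G ⧸ H → V) :=
  fun p x => ρ (cosetRep H x) (w (kappa H p.1 (p.1⁻¹ • x), kappa H p.2 ((p.1 * p.2)⁻¹ • x)))

theorem evalMor_lift₁ (f : ↥H → V) (h : ↥H) :
    (evalMor L ρ H).cochain₁ (lift₁ ρ H f) h = f h := by
  show lift₁ ρ H f (h : G) ((1 : G) : G ⧸ H) = f h
  rw [lift₁, ← Subgroup.coe_inv, smul_one_of_mem, kappa_one, cosetRep_one, map_one]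
  rfl

theorem evalMor_lift₂ (w : ↥H × ↥H → V) (g h : ↥H) :
    (evalMor L ρ H).cochain₂ (lift₂ ρ H w) (g, h) = w (g, h) := by
  show lift₂ ρ H w ((g : G), (h : G)) ((1 : G) : G ⧸ H) = w (g, h)
  rw [lift₂]
  simp only
  rw [← Subgroup.coe_mul, ← Subgroup.coe_inv, ← Subgroup.coe_inv, smul_one_of_mem,
    smul_one_of_mem, kappa_one, kappa_one, cosetRep_one, map_one]
  rfl

theorem isCts₁_lift₁ (_ : IsCtsRep L ρ) (hH : L.mem H) {f : ↥H → V}
    (hf : (L.comap H.subtype).IsCts₁ f) : L.IsCts₁ (lift₁ ρ H f) := by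
  obtain ⟨U, ⟨U₀, hU₀, hU₀U⟩, h⟩ := hf
  obtain ⟨N, hN, hNn, hNle⟩ := L.exists_normal (L.inf_mem hU₀ hH)
  refine ⟨N, hN, fun g s hs => funext fun x => ?_⟩
  have hy : (g * s)⁻¹ • x = g⁻¹ • x := by
    rw [mul_inv_rev, mul_smul,
      smul_eq_self_of_normal hNn (hNle.trans inf_le_right) (N.inv_mem hs)]
  obtain ⟨t, ht, hk⟩ :=
    kappa_mul_right_mem hNn (hNle.trans inf_le_right) g hs (g⁻¹ • x : G ⧸ H)
  simp only [lift₁, hy, hk]
  rw [h _ t (hU₀U (hNle ht).1)]

theorem isCts₂_lift₂ (hH : L.mem H) {w : ↥H × ↥H → V}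
    (hw : (L.comap H.subtype).IsCts₂ w) : L.IsCts₂ (lift₂ ρ H w) := by
  obtain ⟨U, ⟨U₀, hU₀, hU₀U⟩, h⟩ := hw
  obtain ⟨N, hN, hNn, hNle⟩ := L.exists_normal (L.inf_mem hU₀ hH)
  have hNH : N ≤ H := hNle.trans inf_le_right
  refine ⟨N, hN, fun g g' s hs s' hs' => funext fun x => ?_⟩
  have hy : (g * s)⁻¹ • x = g⁻¹ • x := by
    rw [mul_inv_rev, mul_smul, smul_eq_self_of_normal hNn hNH (N.inv_mem hs)]
  have hz : (g * s * (g' * s'))⁻¹ • x = (g * g')⁻¹ • x := by
    rw [mul_inv_rev, mul_smul, hy, mul_inv_rev, mul_smul,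
      smul_eq_self_of_normal hNn hNH (N.inv_mem hs'), ← mul_smul, ← mul_inv_rev]
  obtain ⟨t, ht, hk⟩ := kappa_mul_right_mem hNn hNH g hs (g⁻¹ • x : G ⧸ H)
  obtain ⟨t', ht', hk'⟩ := kappa_mul_right_mem hNn hNH g' hs' ((g * g')⁻¹ • x : G ⧸ H)
  simp only [lift₂, hy, hz, hk, hk']
  rw [h _ _ t (hU₀U (hNle ht).1) t' (hU₀U (hNle ht').1)]

theorem lift₁_mem_Z1 (hρ : IsCtsRep L ρ) (hH : L.mem H) {f : ↥H → V}
    (hf : f ∈ Z1 (L.comap H.subtype) (ρ.comp H.subtype)) :
    lift₁ ρ H f ∈ Z1 L (permRep ρ (G ⧸ H)) := by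
  rw [mem_Z1_iff] at hf ⊢
  refine ⟨fun g h => funext fun x => ?_, isCts₁_lift₁ hρ hH hf.2⟩
  have e : (g * h)⁻¹ • x = h⁻¹ • g⁻¹ • x := by rw [mul_inv_rev, mul_smul]
  simp only [lift₁, Pi.add_apply, permRep_apply, e, kappa_mul, smul_inv_smul, hf.1, map_add]
  simp only [MonoidHom.coe_comp, Function.comp_apply, Subgroup.coe_subtype,
    ← Module.End.mul_apply, ← map_mul]
  have hr := rep_mul_kappa g (g⁻¹ • x)
  rw [smul_inv_smul] at hr
  rw [hr]

theorem lift₂_mem_Z2 (hH : L.mem H) {w : ↥H × ↥H → V}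
    (hw : w ∈ Z2 (L.comap H.subtype) (ρ.comp H.subtype)) :
    lift₂ ρ H w ∈ Z2 L (permRep ρ (G ⧸ H)) := by
  rw [mem_Z2_iff] at hw ⊢
  refine ⟨fun g h j => funext fun x => ?_, isCts₂_lift₂ hH hw.2⟩
  have e : (g * h)⁻¹ • x = h⁻¹ • g⁻¹ • x := by rw [mul_inv_rev, mul_smul]
  have e' : (g * h * j)⁻¹ • x = j⁻¹ • h⁻¹ • g⁻¹ • x := by rw [mul_inv_rev, mul_smul, e]
  have e'' : (g * (h * j))⁻¹ • x = j⁻¹ • h⁻¹ • g⁻¹ • x := by rw [← mul_assoc, e']
  have e3 : (h * j)⁻¹ • g⁻¹ • x = j⁻¹ • h⁻¹ • g⁻¹ • x := by rw [mul_inv_rev, mul_smul]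
  simp only [lift₂, Pi.add_apply, permRep_apply, e, e', e'', e3, kappa_mul, smul_inv_smul]
  have hr := rep_mul_kappa g (g⁻¹ • x)
  rw [smul_inv_smul] at hr
  rw [← map_add, hw.1, map_add]
  simp only [MonoidHom.coe_comp, Function.comp_apply, Subgroup.coe_subtype,
    ← Module.End.mul_apply, ← map_mul]
  rw [hr]

theorem permRep_apply_cosetRep (f : G ⧸ H → V) (x : G ⧸ H) :
    permRep ρ (G ⧸ H) (cosetRep H x) f x = ρ (cosetRep H x) (f ((1 : G) : G ⧸ H)) := by
  rw [permRep_apply]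
  congr 2
  rw [inv_smul_eq_iff, MulAction.Quotient.smul_coe, smul_eq_mul, mul_one, mk_cosetRep]

theorem eq_d0_of_eval_eq_zero {F : G → (G ⧸ H → V)} (hF : F ∈ Z1 L (permRep ρ (G ⧸ H)))
    (h0 : ∀ h : ↥H, F (h : G) ((1 : G) : G ⧸ H) = 0) :
    d0 (permRep ρ (G ⧸ H)) (fun x => -F (cosetRep H x) x) = F := by
  rw [mem_Z1_iff] at hF
  ext g x
  have h1 := congrFun (hF.1 g (cosetRep H (g⁻¹ • x))) x
  have h2 := congrFun (hF.1 (cosetRep H x) (kappa H g (g⁻¹ • x) : G)) x
  have hr := rep_mul_kappa g (g⁻¹ • x)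
  rw [smul_inv_smul] at hr
  rw [Pi.add_apply, permRep_apply_cosetRep, h0, map_zero, zero_add, hr] at h2
  rw [Pi.add_apply, h2, permRep_apply] at h1
  rw [d0_apply, Pi.sub_apply, permRep_apply, map_neg, h1]
  abel

theorem eq_d1_of_eval_eq_zero {F : G × G → (G ⧸ H → V)}
    (hF : F ∈ Z2 L (permRep ρ (G ⧸ H)))
    (h0 : ∀ a b : ↥H, F ((a : G), (b : G)) ((1 : G) : G ⧸ H) = 0) :
    d1 (permRep ρ (G ⧸ H)) (fun g x => F (g, cosetRep H (g⁻¹ • x)) x
      - F (cosetRep H x, (kappa H g (g⁻¹ • x) : G)) x) = F := by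
  rw [mem_Z2_iff] at hF
  ext ⟨g, h⟩ x
  have e : (g * h)⁻¹ • x = h⁻¹ • g⁻¹ • x := by rw [mul_inv_rev, mul_smul]
  set y := g⁻¹ • x with hy
  set z := h⁻¹ • y with hz
  have hgy : cosetRep H x * (kappa H g y : G) = g * cosetRep H y := by
    have := rep_mul_kappa (H := H) g y
    rwa [hy, smul_inv_smul] at this
  have hhz : cosetRep H y * (kappa H h z : G) = h * cosetRep H z := by
    have := rep_mul_kappa (H := H) h z
    rwa [hz, smul_inv_smul] at this
  have c1 := congrFun (hF.1 g h (cosetRep H z)) x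
  have c2 := congrFun (hF.1 g (cosetRep H y) (kappa H h z : G)) x
  have c3 := congrFun (hF.1 (cosetRep H x) (kappa H g y : G) (kappa H h z : G)) x
  simp only [Pi.add_apply] at c1 c2 c3
  rw [hhz] at c2
  rw [permRep_apply_cosetRep, h0, map_zero, zero_add, hgy] at c3
  have hk : kappa H (g * h) z = kappa H g y * kappa H h z := by
    rw [kappa_mul]
    simp [hz]
  rw [permRep_apply, ← hy] at c1 c2
  simp only [d1_apply, Pi.add_apply, Pi.sub_apply, permRep_apply, map_sub, ← hy, e, ← hz, hk,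
    Subgroup.coe_mul]
  rw [← sub_eq_zero] at c1 c2 c3 ⊢
  linear_combination (norm := abel) -c1 + c2 - c3

/-- Shapiro's lemma in degree one. -/
theorem evalMor_map₁_bijective (hρ : IsCtsRep L ρ) (hH : L.mem H) :
    Function.Bijective (evalMor L ρ H).map₁ := by
  constructor
  · rw [injective_iff_map_eq_zero]
    intro x hx
    obtain ⟨F, rfl⟩ := H1mk_surjective x
    rw [Mor.map₁_mk, H1mk_eq_zero_iff, mem_B1_iff] at hx
    obtain ⟨v, hv⟩ := hx
    let F' : G → (G ⧸ H → V) := (F : G → G ⧸ H → V) - d0 (permRep ρ (G ⧸ H)) (fun _ => v)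
    have hF' : F' ∈ Z1 L (permRep ρ (G ⧸ H)) :=
      sub_mem F.2 (d0_mem_Z1 (isCtsRep_permRep hρ hH) _)
    have h0 : ∀ h : ↥H, F' (h : G) ((1 : G) : G ⧸ H) = 0 := fun h => by
      have := hv h
      simp only [Mor.cochain₁_apply] at this
      simp only [F', Pi.sub_apply, d0_apply, permRep_apply]
      rw [show (F : G → G ⧸ H → V) (h : G) ((1 : G) : G ⧸ H) = ρ (h : G) v - v from this]
      abel
    rw [H1mk_eq_zero_iff]
    have := eq_d0_of_eval_eq_zero hF' h0
    rw [show (F : G → G ⧸ H → V) = F' + d0 (permRep ρ (G ⧸ H)) (fun _ => v) from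
      (sub_add_cancel _ _).symm, ← this]
    exact add_mem (LinearMap.mem_range_self _ _) (LinearMap.mem_range_self _ _)
  · intro x
    obtain ⟨f, rfl⟩ := H1mk_surjective x
    refine ⟨H1mk L (permRep ρ (G ⧸ H)) ⟨_, lift₁_mem_Z1 hρ hH f.2⟩, ?_⟩
    rw [Mor.map₁_mk]
    exact congrArg _ (Subtype.ext (funext fun h => evalMor_lift₁ _ h))

/-- Shapiro's lemma in degree two. -/
theorem evalMor_map₂_bijective (hρ : IsCtsRep L ρ) (hH : L.mem H) :
    Function.Bijective (evalMor L ρ H).map₂ := by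
  constructor
  · rw [injective_iff_map_eq_zero]
    intro x hx
    obtain ⟨F, rfl⟩ := H2mk_surjective x
    rw [Mor.map₂_mk, H2mk_eq_zero_iff, mem_B2_iff] at hx
    obtain ⟨θ, hθ, hθ'⟩ := hx
    have hΘ : L.IsCts₁ (lift₁ ρ H θ) := isCts₁_lift₁ hρ hH hθ
    have hP := isCtsRep_permRep hρ hH
    let F' : G × G → (G ⧸ H → V) :=
      (F : G × G → G ⧸ H → V) - d1 (permRep ρ (G ⧸ H)) (lift₁ ρ H θ)
    have hF' : F' ∈ Z2 L (permRep ρ (G ⧸ H)) :=
      sub_mem F.2 ⟨d2_d1 _ _, d1_mem_C2 hP hΘ⟩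
    have h0 : ∀ a b : ↥H, F' ((a : G), (b : G)) ((1 : G) : G ⧸ H) = 0 := fun a b => by
      have h := congrFun hθ' (a, b)
      have e : (evalMor L ρ H).cochain₁ (lift₁ ρ H θ) = θ := funext fun h => evalMor_lift₁ θ h
      have h' := congrFun ((evalMor L ρ H).cochain₂_d1 (lift₁ ρ H θ)) (a, b)
      rw [e, h] at h'
      exact sub_eq_zero.mpr h'.symm
    have hu : L.IsCts₁ (fun g x => F' (g, cosetRep H (g⁻¹ • x)) x
        - F' (cosetRep H x, (kappa H g (g⁻¹ • x) : G)) x) := by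
      obtain ⟨U, hU, h⟩ := (mem_Z2_iff.mp hF').2
      obtain ⟨N, hN, hNn, hNle⟩ := L.exists_normal (L.inf_mem hU hH)
      refine ⟨N, hN, fun g s hs => funext fun x => ?_⟩
      have hy : (g * s)⁻¹ • x = g⁻¹ • x := by
        rw [mul_inv_rev, mul_smul,
          smul_eq_self_of_normal hNn (hNle.trans inf_le_right) (N.inv_mem hs)]
      obtain ⟨t, ht, hk⟩ :=
        kappa_mul_right_mem hNn (hNle.trans inf_le_right) g hs (g⁻¹ • x : G ⧸ H)
      simp only [hy, hk, Subgroup.coe_mul]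
      have h1 := h g (cosetRep H (g⁻¹ • x)) s (hNle hs).1 1 (Subgroup.one_mem _)
      have h2 := h (cosetRep H x) (kappa H g (g⁻¹ • x) : G) 1 (Subgroup.one_mem _) t (hNle ht).1
      rw [mul_one] at h1 h2
      rw [h1, h2]
    rw [H2mk_eq_zero_iff]
    rw [show (F : G × G → G ⧸ H → V) = F' + d1 (permRep ρ (G ⧸ H)) (lift₁ ρ H θ) from
      (sub_add_cancel _ _).symm]
    refine add_mem ?_ (mem_B2_iff.mpr ⟨_, hΘ, rfl⟩)
    exact mem_B2_iff.mpr ⟨_, hu, eq_d1_of_eval_eq_zero hF' h0⟩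
  · intro x
    obtain ⟨w, rfl⟩ := H2mk_surjective x
    refine ⟨H2mk L (permRep ρ (G ⧸ H)) ⟨_, lift₂_mem_Z2 hH w.2⟩, ?_⟩
    rw [Mor.map₂_mk]
    exact congrArg _ (Subtype.ext (funext fun p => evalMor_lift₂ _ p.1 p.2))

variable (L) in
/-- Shapiro's isomorphism in degree one. -/
def shapiro₁ (hρ : IsCtsRep L ρ) (hH : L.mem H) :
    H1 L (permRep ρ (G ⧸ H)) ≃ₗ[k] H1 (L.comap H.subtype) (ρ.comp H.subtype) :=
  LinearEquiv.ofBijective (evalMor L ρ H).map₁ (evalMor_map₁_bijective hρ hH)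

variable (L) in
/-- Shapiro's isomorphism in degree two. -/
def shapiro₂ (hρ : IsCtsRep L ρ) (hH : L.mem H) :
    H2 L (permRep ρ (G ⧸ H)) ≃ₗ[k] H2 (L.comap H.subtype) (ρ.comp H.subtype) :=
  LinearEquiv.ofBijective (evalMor L ρ H).map₂ (evalMor_map₂_bijective hρ hH)

/-- Shapiro's isomorphism in degree zero. -/
def shapiro₀ : H0 (permRep ρ (G ⧸ H)) ≃ₗ[k] H0 (ρ.comp H.subtype) where
  toFun f := ⟨(f : G ⧸ H → V) ((1 : G) : G ⧸ H), fun h => by
    have := congrFun (f.2 (h : G)) ((1 : G) : G ⧸ H)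
    rw [permRep_apply, ← Subgroup.coe_inv, smul_one_of_mem] at this
    exact this⟩
  map_add' _ _ := rfl
  map_smul' _ _ := rfl
  invFun v := ⟨fun x => ρ (cosetRep H x) v, fun g => funext fun x => by
    have hr := rep_mul_kappa g (g⁻¹ • x : G ⧸ H)
    rw [smul_inv_smul] at hr
    rw [permRep_apply, ← Module.End.mul_apply, ← map_mul, ← hr, map_mul, Module.End.mul_apply]
    exact congrArg _ (v.2 (kappa H g (g⁻¹ • x)))⟩
  left_inv f := by
    ext x
    have := congrFun (f.2 (cosetRep H x)) x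
    rw [permRep_apply_cosetRep] at this
    exact this
  right_inv v := by
    ext
    simp

end Coset

end Fermat.Agent.GalCoh
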