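import Fermat.Agent.GalCoh.CorBase
import Fermat.Agent.GalCoh.EulerDefs
import Mathlib.GroupTheory.PGroup
import Mathlib.RepresentationTheory.Basic

/-!
# Classes without real components are corestrictions, hence lift along surjections
-/

set_option autoImplicit false

noncomputable section

namespace Fermat.Agent.GalCoh

open Representation (IntertwiningMap)
open ExtCitation Module MulAction

local notation "Γ" => (AlgebraicClosure ℚ ≃ₐ[ℚ] AlgebraicClosure ℚ)

variable {p : ℕ} [Fact p.Prime] {S : Finset Nat.Primes} {K N : Subgroup Γ}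
  {V : Type} [AddCommGroup V] [Module (ZMod p) V] {σ : Representation (ZMod p) ↥K V}
  {W : Type} [AddCommGroup W] [Module (ZMod p) W] {τ : Representation (ZMod p) ↥K W}

theorem isCtsRep_of_trivialOn (hN : (levelsS S).mem N) (hσ : TrivialOn K σ N) :
    IsCtsRep (levelsSOn K S) σ :=
  ⟨N.subgroupOf K, ⟨N, hN, le_rfl⟩, fun x hx => hσ x hx⟩

/-- A class is a corestriction from `N`. -/
def IsSumClass (N : Subgroup Γ) (σ : Representation (ZMod p) ↥K V)
    (z : H2 (levelsSOn K S) σ) : Prop :=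
  ∃ (_ : Fintype (↥K ⧸ N.subgroupOf K))
    (Z : H2 (levelsSOn K S) (permRep σ (↥K ⧸ N.subgroupOf K))),
    (Mor.ofMap (levelsSOn K S) (sumMap σ (↥K ⧸ N.subgroupOf K))).map₂ Z = z

theorem map₂_sum_natural [Fintype (↥K ⧸ N.subgroupOf K)] (φ : IntertwiningMap σ τ)
    (Z : H2 (levelsSOn K S) (permRep σ (↥K ⧸ N.subgroupOf K))) :
    (Mor.ofMap (levelsSOn K S) φ).map₂
        ((Mor.ofMap (levelsSOn K S) (sumMap σ (↥K ⧸ N.subgroupOf K))).map₂ Z) =
      (Mor.ofMap (levelsSOn K S) (sumMap τ (↥K ⧸ N.subgroupOf K))).map₂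
        ((Mor.ofMap (levelsSOn K S) (permMap φ (↥K ⧸ N.subgroupOf K))).map₂ Z) := by
  refine Mor.map₂_square _ _ _ _ ?_ ?_ Z
  · rfl
  · refine LinearMap.ext fun f => ?_
    show φ (sumMap σ _ f) = sumMap τ _ (permMap φ _ f)
    simp [map_sum]

theorem IsSumClass.map {z : H2 (levelsSOn K S) σ} (hz : IsSumClass N σ z)
    (φ : IntertwiningMap σ τ) :
    IsSumClass N τ ((Mor.ofMap (levelsSOn K S) φ).map₂ z) := by
  obtain ⟨hF, Z, rfl⟩ := hz
  exact ⟨hF, _, (map₂_sum_natural φ Z).symm⟩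

theorem IsSumClass.realVanish (hN : IsSplittingLevel p N) {z : H2 (levelsSOn K S) σ}
    (hz : IsSumClass N σ z) : RealVanish σ z := by
  obtain ⟨hF, Z, rfl⟩ := hz
  intro g h
  refine realComp_sum_eq_zero _ (fun x => ?_) Z
  induction x using QuotientGroup.induction_on with
  | _ a =>
    intro hx
    rw [MulAction.Quotient.smul_coe, QuotientGroup.eq, Subgroup.mem_subgroupOf] at hx
    have h2 := hN.normal.conj_mem _ (N.inv_mem hx) (g⁻¹ * (a : Γ))
    exact hN.complex (by simpa [mul_assoc] using h2)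

/-- A lift of equivariant functions along a surjection, over `N`. -/
theorem exists_permLift (hσ : TrivialOn K σ N) (hτ : TrivialOn K τ N) (j : IntertwiningMap σ τ)
    (hj : Function.Surjective j) :
    ∃ t : IntertwiningMap (permRep τ (↥K ⧸ N.subgroupOf K)) (permRep σ (↥K ⧸ N.subgroupOf K)),
      ∀ f, permMap j (↥K ⧸ N.subgroupOf K) (t f) = f := by
  obtain ⟨s, hs⟩ := j.toLinearMap.exists_rightInverse_of_surjective
    (LinearMap.range_eq_top.mpr hj)
  have hs' : ∀ c, j (s c) = c := fun c => LinearMap.congr_fun hs c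
  let X := ↥K ⧸ N.subgroupOf K
  let T : (X → W) →ₗ[ZMod p] (X → V) := LinearMap.pi fun x =>
    σ x.out ∘ₗ s ∘ₗ τ x.out⁻¹ ∘ₗ LinearMap.proj x
  have hT : ∀ (g : ↥K) (f : X → W), T (permRep τ X g f) = permRep σ X g (T f) := by
    intro g f
    funext x
    show σ x.out (s (τ x.out⁻¹ (τ g (f (g⁻¹ • x))))) =
      σ g (σ (g⁻¹ • x).out (s (τ (g⁻¹ • x).out⁻¹ (f (g⁻¹ • x)))))
    have hn : ∃ n : ↥K, (n : Γ) ∈ N ∧ (g⁻¹ • x).out = g⁻¹ * x.out * n := by
      refine ⟨(g⁻¹ * x.out)⁻¹ * (g⁻¹ • x).out, ?_, by group⟩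
      have := QuotientGroup.eq.mp (show ((g⁻¹ * x.out : ↥K) : X) = ((g⁻¹ • x).out : ↥K) by
        rw [QuotientGroup.out_eq', ← smul_eq_mul, ← MulAction.Quotient.smul_coe,
          QuotientGroup.out_eq'])
      exact this
    obtain ⟨n, hn, e⟩ := hn
    rw [e]
    simp only [← Module.End.mul_apply, ← map_mul, mul_inv_rev, inv_inv]
    have e1 : σ (g * (g⁻¹ * x.out * n)) = σ x.out := by
      rw [show g * (g⁻¹ * x.out * n) = x.out * n by group, map_mul, hσ n hn, mul_one]
    have e2 : τ (n⁻¹ * (x.out⁻¹ * g)) = τ (x.out⁻¹ * g) := by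
      rw [map_mul, hτ n⁻¹ (N.inv_mem hn), one_mul]
    rw [e1, e2]
  refine ⟨LinearMap.intertwiningMap_of_isIntertwiningMap _ _ T hT, fun f => funext fun x => ?_⟩
  show j (σ x.out (s (τ x.out⁻¹ (f x)))) = f x
  rw [j.isIntertwining, hs', ← Module.End.mul_apply, ← map_mul, mul_inv_cancel, map_one]
  rfl

/-- A corestricted class lifts to a corestricted class along a surjection. -/
theorem IsSumClass.exists_lift (hσ : TrivialOn K σ N) (hτ : TrivialOn K τ N)
    (j : IntertwiningMap σ τ) (hj : Function.Surjective j) {z : H2 (levelsSOn K S) τ}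
    (hz : IsSumClass N τ z) :
    ∃ w, IsSumClass N σ w ∧ (Mor.ofMap (levelsSOn K S) j).map₂ w = z := by
  obtain ⟨hF, Z, rfl⟩ := hz
  obtain ⟨t, ht⟩ := exists_permLift hσ hτ j hj
  refine ⟨_, ⟨hF, (Mor.ofMap _ t).map₂ Z, rfl⟩, ?_⟩
  rw [map₂_sum_natural]
  refine congrArg _ ?_
  obtain ⟨F, rfl⟩ := H2mk_surjective Z
  rw [Mor.map₂_mk, Mor.map₂_mk]
  exact congrArg _ (Subtype.ext (funext fun q => ht _))

/-- The cast between `μ_p` and the trivial module. -/
def muTrivial (hmu : ∀ x ∈ K, cycloChar p x = 1) :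
    IntertwiningMap (Representation.trivial (ZMod p) ↥K (ZMod p)) (muOn p K) :=
  LinearMap.intertwiningMap_of_isIntertwiningMap _ _ LinearMap.id fun g v => by
    simp [muRep_apply, hmu g g.2]

/-- The cast back. -/
def trivialMu (hmu : ∀ x ∈ K, cycloChar p x = 1) :
    IntertwiningMap (muOn p K) (Representation.trivial (ZMod p) ↥K (ZMod p)) :=
  LinearMap.intertwiningMap_of_isIntertwiningMap _ _ LinearMap.id fun g v => by
    simp [muRep_apply, hmu g g.2]

theorem cycloChar_eq_one_of_pGroup (hN : IsSplittingLevel p N)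
    (hpg : ∀ x : ↥K, ∃ k : ℕ, (x : Γ) ^ p ^ k ∈ N) (x : Γ) (hx : x ∈ K) :
    cycloChar p x = 1 := by
  obtain ⟨k, hk⟩ := hpg ⟨x, hx⟩
  have := hN.mu _ hk
  rw [map_pow] at this
  have := congrArg (Units.val : (ZMod p)ˣ → ZMod p) this
  rw [Units.val_pow_eq_pow_val, ZMod.pow_card_pow, Units.val_one] at this
  exact Units.ext this

/-- Trivial coefficients. -/
theorem isSumClass_trivial (h : LargeS p S N) (hC : CFTInputs p) (hK : N ≤ K)
    (hmu : ∀ x ∈ K, cycloChar p x = 1)
    (z : H2 (levelsSOn K S) (Representation.trivial (ZMod p) ↥K (ZMod p)))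
    (hz : RealVanish (Representation.trivial (ZMod p) ↥K (ZMod p)) z) :
    IsSumClass N (Representation.trivial (ZMod p) ↥K (ZMod p)) z := by
  obtain ⟨y, hy⟩ := exists_corNK_eq h hC hK hmu ((Mor.ofMap _ (muTrivial hmu)).map₂ z)
    fun g hg => realComp_map₂_eq_zero _ (realInv_mul_self g hg) _ rfl (hz g hg)
  have := h.finite_quot K
  have hs : IsSumClass N (muOn p K) (corNK h K y) :=
    ⟨Fintype.ofFinite _, inducedClass h K y, rfl⟩
  rw [hy] at hs
  convert hs.map (trivialMu hmu) using 1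
  obtain ⟨F, rfl⟩ := H2mk_surjective z
  rfl

/-- An invariant functional on a nonzero module of a `p`-group. -/
theorem exists_invariant_functional [FiniteDimensional (ZMod p) V] [Nontrivial V]
    (hpg : ∀ x : ↥K, ∃ k : ℕ, (x : Γ) ^ p ^ k ∈ N) (hσ : TrivialOn K σ N) :
    ∃ φ : Dual (ZMod p) V, φ ≠ 0 ∧ ∀ x v, φ (σ x v) = φ v := by
  let R := (Representation.asGroupHom σ.dual).range
  have hR : IsPGroup p ↥R := by
    rintro ⟨_, x, rfl⟩
    obtain ⟨k, hk⟩ := hpg x
    refine ⟨k, Subtype.ext ?_⟩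
    rw [SubgroupClass.coe_pow, ← map_pow, OneMemClass.coe_one]
    refine Units.ext (LinearMap.ext fun φ => ?_)
    rw [Representation.asGroupHom_apply, Representation.dual_apply, hσ _ (N.inv_mem (by
      rw [SubgroupClass.coe_pow]; exact hk))]
    rfl
  have : Finite (Dual (ZMod p) V) := Module.finite_of_finite (ZMod p)
  have hdvd : p ∣ Nat.card (Dual (ZMod p) V) := by
    rw [Module.natCard_eq_pow_finrank (K := ZMod p), Nat.card_zmod]
    exact dvd_pow_self p (by rw [Subspace.dual_finrank_eq]; exact Module.finrank_pos.ne')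
  obtain ⟨φ, hφ, hne⟩ := hR.exists_fixed_point_of_prime_dvd_card_of_fixed_point _ hdvd
    (a := (0 : Dual (ZMod p) V)) fun r => smul_zero r
  refine ⟨φ, hne.symm, fun x v => ?_⟩
  have := LinearMap.congr_fun (hφ ⟨_, x⁻¹, rfl⟩) v
  change σ.dual x⁻¹ φ v = φ v at this
  rwa [Representation.dual_apply, inv_inv] at this

open Classical in
/-- A character with prescribed signs at the real points. -/
theorem exists_sign_class (h : VeryLarge p S N) (hp : p = 2) (hK : N ≤ K) (a : Γ ⧸ K → ZMod p) :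
    ∃ θ ∈ Z1 (levelsSOn K S) (Representation.trivial (ZMod p) ↥K (ZMod p)),
      ∀ (g : Γ) (hg : conjC g ∈ K), (θ : ↥K → ZMod p) (realInv g hg) = a (placePoint K g) := by
  have := finite_quotient (h.large.mem_of_le hK)
  let : Fintype (Γ ⧸ K) := Fintype.ofFinite _
  have hex : ∀ x : Γ ⧸ K, ∃ θ ∈ Z1 (levelsSOn K S) (Representation.trivial (ZMod p) ↥K (ZMod p)),
      ∀ (g : Γ) (hg : conjC g ∈ K),
        (θ : ↥K → ZMod p) (realInv g hg) = if placePoint K g = x then 1 else 0 := by
    intro x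
    by_cases hx : ∃ g, conjC g ∈ K ∧ placePoint K g = x
    · obtain ⟨g₀, hg₀, rfl⟩ := hx
      obtain ⟨θ, hθ, h1, h0⟩ := h.sign hp K hK g₀ hg₀
      refine ⟨θ, hθ, fun g hg => ?_⟩
      split_ifs with e
      · obtain ⟨k, hk, rfl⟩ : ∃ k ∈ K, g = k * g₀ := by
          refine ⟨g * g₀⁻¹, ?_, by simp⟩
          simpa using QuotientGroup.eq.mp e
        have hc : realInv (k * g₀) hg = ⟨k, hk⟩ * realInv g₀ hg₀ * (⟨k, hk⟩ : ↥K)⁻¹ :=
          Subtype.ext (by simp [mul_assoc])
        have hadd := (mem_Z1_iff.mp hθ).1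
        simp only [Representation.trivial_apply] at hadd
        rw [hc, hadd, hadd, h1]
        have h' := hadd ⟨k, hk⟩ (⟨k, hk⟩ : ↥K)⁻¹
        rw [mul_inv_cancel, Z1.map_one hθ] at h'
        linear_combination -h'
      · exact h0 g hg e
    · exact ⟨0, Submodule.zero_mem _, fun g hg =>
        (if_neg fun e => hx ⟨g, hg, e⟩).symm⟩
  choose θ hθ hθ' using hex
  refine ⟨∑ x, a x • θ x, Submodule.sum_mem _ fun x _ => Submodule.smul_mem _ _ (hθ x),
    fun g hg => ?_⟩
  simp [Finset.sum_apply, hθ' _ g hg]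

/-- A class without real component is a corestriction from `N`, for `p`-group layers. -/
theorem isSumClass_of_realVanish (h : VeryLarge p S N) (hC : CFTInputs p) (hK : N ≤ K)
    (hpg : ∀ x : ↥K, ∃ k : ℕ, (x : Γ) ^ p ^ k ∈ N) (n : ℕ) :
    ∀ (V : Type) [AddCommGroup V] [Module (ZMod p) V] [FiniteDimensional (ZMod p) V]
      (σ : Representation (ZMod p) ↥K V), TrivialOn K σ N → finrank (ZMod p) V ≤ n →
      ∀ z : H2 (levelsSOn K S) σ, RealVanish σ z → IsSumClass N σ z := by
  induction n with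
  | zero =>
    intro V _ _ _ σ _ hn z _
    have : Subsingleton V := Module.finrank_zero_iff.mp (Nat.le_zero.mp hn)
    have : Subsingleton (H2 (levelsSOn K S) σ) := (H2mk_surjective).subsingleton
    have := h.large.finite_quot K
    exact ⟨Fintype.ofFinite _, 0, Subsingleton.elim _ _⟩
  | succ n ih =>
    intro V _ _ _ σ hσ hn z hz
    by_cases hV : finrank (ZMod p) V ≤ n
    · exact ih V σ hσ hV z hz
    have : Nontrivial V := (Module.finrank_pos_iff (R := ZMod p)).mp (by omega)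
    have hNS := h.large.level
    have hN := h.large.split_level
    have hmu := cycloChar_eq_one_of_pGroup hN hpg
    obtain ⟨φ, hφ, hφσ⟩ := exists_invariant_functional hpg hσ
    let α := σ.subrepresentation (LinearMap.ker φ) fun g v hv => by
      simpa [hφσ] using hv
    let i : IntertwiningMap α σ :=
      LinearMap.intertwiningMap_of_isIntertwiningMap _ _ (LinearMap.ker φ).subtype fun _ _ => rfl
    let j : IntertwiningMap σ (Representation.trivial (ZMod p) ↥K (ZMod p)) :=
      LinearMap.intertwiningMap_of_isIntertwiningMap _ _ φ fun g v => by simp [hφσ]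
    have hjs : Function.Surjective j := LinearMap.surjective (f := φ) hφ
    obtain ⟨Q, hQi, hQj⟩ := exists_ses i j Subtype.val_injective hjs fun b =>
      ⟨fun hb => ⟨⟨b, hb⟩, rfl⟩, fun ⟨a, ha⟩ => ha ▸ a.2⟩
    have hβ : IsCtsRep (levelsSOn K S) σ := isCtsRep_of_trivialOn hNS hσ
    have htriv : TrivialOn K (Representation.trivial (ZMod p) ↥K (ZMod p)) N := fun _ _ => rfl
    obtain ⟨w, hw, hjw⟩ := (isSumClass_trivial h.large hC hK hmu _ fun g hg =>
      realComp_map₂_eq_zero (Mor.ofMap _ Q.j) _ _ rfl (hz g hg)).exists_lift hσ htriv Q.j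
        Q.j_surjective
    have hker : z - w ∈ LinearMap.ker (Q.mj (levelsSOn K S)).map₂ := by
      rw [LinearMap.mem_ker, map_sub, sub_eq_zero]
      exact hjw.symm
    rw [Q.ker_map₂_j hβ] at hker
    obtain ⟨y, hy⟩ := hker
    have hzw : RealVanish σ (z - w) := fun g hg => by
      rw [map_sub, hz g hg, hw.realVanish hN g hg, sub_zero]
    obtain ⟨θc, hθc⟩ : ∃ θc : H1 (levelsSOn K S) (Representation.trivial (ZMod p) ↥K (ZMod p)),
        RealVanish α (y - Q.δ₁ hβ θc) := by
      by_cases hp : p = 2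
      · have hch : ∀ x : Γ ⧸ K, ∃ v : V, ∀ hx : conjC x.out⁻¹ ∈ K, ∃ a : LinearMap.ker φ,
            realComp (levelsSOn K S) α (realInv x.out⁻¹ hx) (realInv_mul_self _ hx) y =
                tateMk α _ a ∧ σ (realInv x.out⁻¹ hx) v + v = Q.i a := by
          intro x
          by_cases hx : conjC x.out⁻¹ ∈ K
          · obtain ⟨a, -, ha⟩ := exists_fixed_realComp _ (realInv_mul_self _ hx) y
            have e := realComp_map₂ (Q.mi (levelsSOn K S)) (realInv_mul_self _ hx)
              (realInv_mul_self _ hx) (ι := realInv x.out⁻¹ hx) rfl y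
            rw [hy, hzw _ hx, ha] at e
            obtain ⟨v, hv⟩ :=
              (tateMk_eq_zero_iff (ρ := σ) (ι := realInv x.out⁻¹ hx) (v := Q.i a)).mp e.symm
            exact ⟨v, fun _ => ⟨a, ha, hv⟩⟩
          · exact ⟨0, fun h' => absurd h' hx⟩
        choose v hv using hch
        obtain ⟨θ, hθ, hθa⟩ := exists_sign_class h hp hK fun x => Q.j (v x)
        refine ⟨H1mk (levelsSOn K S) (Representation.trivial (ZMod p) ↥K (ZMod p)) ⟨θ, hθ⟩,
          fun g hg => ?_⟩
        set x := placePoint K g with hxdef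
        obtain ⟨⟨k, hk⟩, e⟩ := QuotientGroup.mk_out_eq_mul K g⁻¹
        have hxe : x.out⁻¹ = k⁻¹ * g := by
          rw [hxdef, show (placePoint K g).out = g⁻¹ * k from e]; group
        have hx : conjC x.out⁻¹ ∈ K := by
          rw [hxe]
          have := K.mul_mem (K.mul_mem (K.inv_mem hk) hg) hk
          simpa [mul_assoc] using this
        refine realComp_conj_eq_zero (g := (⟨k, hk⟩ : ↥K)⁻¹) (realInv_mul_self _ hx) _
          (Subtype.ext (by simp [hxe, mul_assoc])) ?_
        obtain ⟨a, ha, hva⟩ := hv x hx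
        rw [map_sub, ha, realComp_δ₁]
        have hθv : θ (realInv x.out⁻¹ hx) = Q.j (v x) := by
          rw [hθa, placePoint, inv_inv, QuotientGroup.out_eq']
        simp only [hθv]
        obtain ⟨a', ha'⟩ : ∃ a', Q.i a' = Q.s (Q.j (v x)) - v x :=
          Q.j_eq_zero_iff.mp (by rw [map_sub, Q.js, sub_self])
        have hsv : Q.s (Q.j (v x)) = Q.i a' + v x := by rw [ha', sub_add_cancel]
        have e2 : σ (realInv x.out⁻¹ hx) (Q.s (Q.j (v x))) + Q.s (Q.j (v x)) =
            Q.i (α (realInv x.out⁻¹ hx) a' + a' + a) := by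
          rw [hsv, map_add (σ _), ← Q.i.isIntertwining, map_add Q.i, map_add Q.i, ← hva]
          abel
        rw [e2, Q.ri, map_add (tateMk α _), tateMk_add_act, zero_add, sub_self]
      · exact ⟨0, realVanish_of_ne_two hp _ _⟩
    have hfin : finrank (ZMod p) (LinearMap.ker φ) ≤ n := by
      have : LinearMap.ker φ ≠ ⊤ := fun e => hφ (LinearMap.ker_eq_top.mp e)
      have := Submodule.finrank_lt this
      omega
    have hα : TrivialOn K α N := fun x hx => LinearMap.ext fun a => Subtype.ext (by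
      show σ x (a : V) = (a : V)
      rw [hσ x hx]; rfl)
    have hsum := (ih _ α hα hfin _ hθc).map Q.i
    have hδ : (Q.mi (levelsSOn K S)).map₂ (Q.δ₁ hβ θc) = 0 := by
      rw [← LinearMap.mem_ker, Q.ker_map₂_i hβ]
      exact ⟨θc, rfl⟩
    rw [map_sub, hδ, sub_zero, hy] at hsum
    obtain ⟨hF, Z, hZ⟩ := hsum
    obtain ⟨hF', Z', hZ'⟩ := hw
    obtain rfl := Subsingleton.elim hF hF'
    refine ⟨hF, Z + Z', ?_⟩
    rw [map_add, hZ, hZ', sub_add_cancel]

end Fermat.Agent.GalCoh
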