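import Fermat.Agent.GalCoh.Cochain

/-!
# The cup product of two classes of degree one
-/

set_option autoImplicit false

noncomputable section

namespace Fermat.Agent.GalCoh

variable {k : Type} [CommRing k] {G : Type} [Group G] {L : Levels G}
  {V W U : Type} [AddCommGroup V] [Module k V] [AddCommGroup W] [Module k W]
  [AddCommGroup U] [Module k U]

/-- An equivariant bilinear pairing of representations. -/
structure RepPairing (ρ : Representation k G V) (σ : Representation k G W)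
    (τ : Representation k G U) where
  e : V →ₗ[k] W →ₗ[k] U
  comm : ∀ g v w, e (ρ g v) (σ g w) = τ g (e v w)

variable {ρ : Representation k G V} {σ : Representation k G W} {τ : Representation k G U}

namespace RepPairing

variable (P : RepPairing ρ σ τ)

/-- The cup product of one-cochains. -/
def cupFun (x : G → V) (y : G → W) : G × G → U := fun p => P.e (x p.1) (σ p.1 (y p.2))

@[simp] theorem cupFun_apply (x : G → V) (y : G → W) (g h : G) :
    P.cupFun x y (g, h) = P.e (x g) (σ g (y h)) := rfl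

theorem cupFun_mem_C2 (hσ : IsCtsRep L σ) {x : G → V} {y : G → W} (hx : L.IsCts₁ x)
    (hy : L.IsCts₁ y) : L.IsCts₂ (P.cupFun x y) := by
  obtain ⟨U₁, hU₁, h₁⟩ := hσ
  obtain ⟨U₂, hU₂, h₂⟩ := hx
  obtain ⟨U₃, hU₃, h₃⟩ := hy
  exact ⟨U₁ ⊓ U₂ ⊓ U₃, L.inf_mem (L.inf_mem hU₁ hU₂) hU₃, fun g g' s hs s' hs' => by
    simp [map_mul, h₁ s hs.1.1, h₂ g s hs.1.2, h₃ g' s' hs'.2]⟩

theorem cupFun_mem_Z2 (hσ : IsCtsRep L σ) {x : G → V} {y : G → W} (hx : x ∈ Z1 L ρ)
    (hy : y ∈ Z1 L σ) : P.cupFun x y ∈ Z2 L τ := by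
  rw [mem_Z1_iff] at hx hy
  rw [mem_Z2_iff]
  refine ⟨fun g h j => ?_, P.cupFun_mem_C2 hσ hx.2 hy.2⟩
  simp only [cupFun_apply, hx.1, hy.1, map_add, map_mul, Module.End.mul_apply,
    LinearMap.add_apply, ← P.comm]
  abel

theorem cupFun_d0_left (v : V) {y : G → W} (hy : y ∈ Z1 L σ) :
    P.cupFun (d0 ρ v) y = d1 τ (fun g => P.e v (y g)) := by
  rw [mem_Z1_iff] at hy
  ext ⟨g, h⟩
  simp [hy.1, ← P.comm]
  abel

theorem cupFun_d0_right {x : G → V} (hx : x ∈ Z1 L ρ) (w : W) :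
    P.cupFun x (d0 σ w) = d1 τ (fun g => -P.e (x g) (σ g w)) := by
  rw [mem_Z1_iff] at hx
  ext ⟨g, h⟩
  simp [hx.1, ← P.comm, map_mul]
  abel

/-- The cup product on cocycles. -/
def cupZ (hσ : IsCtsRep L σ) : ↥(Z1 L ρ) →ₗ[k] ↥(Z1 L σ) →ₗ[k] H2 L τ :=
  LinearMap.mk₂ k (fun x y => H2mk L τ ⟨_, P.cupFun_mem_Z2 hσ x.2 y.2⟩)
    (fun x x' y => by
      rw [← map_add]
      refine congrArg _ (Subtype.ext (funext fun p => ?_))
      simp [cupFun])
    (fun a x y => by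
      rw [← map_smul]
      refine congrArg _ (Subtype.ext (funext fun p => ?_))
      simp [cupFun])
    (fun x y y' => by
      rw [← map_add]
      refine congrArg _ (Subtype.ext (funext fun p => ?_))
      simp [cupFun])
    (fun a x y => by
      rw [← map_smul]
      refine congrArg _ (Subtype.ext (funext fun p => ?_))
      simp [cupFun])

theorem cupZ_apply (hσ : IsCtsRep L σ) (x : ↥(Z1 L ρ)) (y : ↥(Z1 L σ)) :
    P.cupZ hσ x y = H2mk L τ ⟨_, P.cupFun_mem_Z2 hσ x.2 y.2⟩ := rfl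

theorem cupZ_eq_zero_left (hσ : IsCtsRep L σ) (x : ↥(Z1 L ρ))
    (hx : (x : G → V) ∈ B1 ρ) (y : ↥(Z1 L σ)) : P.cupZ hσ x y = 0 := by
  obtain ⟨v, hv⟩ := hx
  rw [cupZ_apply, H2mk_eq_zero_iff, mem_B2_iff]
  refine ⟨fun g => P.e v ((y : G → W) g), (mem_Z1_iff.mp y.2).2.comp _, ?_⟩
  rw [← P.cupFun_d0_left v y.2, hv]

theorem cupZ_eq_zero_right (hσ : IsCtsRep L σ) (x : ↥(Z1 L ρ)) (y : ↥(Z1 L σ))
    (hy : (y : G → W) ∈ B1 σ) : P.cupZ hσ x y = 0 := by
  obtain ⟨w, hw⟩ := hy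
  rw [cupZ_apply, H2mk_eq_zero_iff, mem_B2_iff]
  refine ⟨fun g => -P.e ((x : G → V) g) (σ g w), ?_, ?_⟩
  · exact (mem_Z1_iff.mp x.2).2.map₂ (isCts₁_apply hσ w) (fun a b => -P.e a b)
  · rw [← P.cupFun_d0_right x.2 w, hw]

/-- The cup product `H¹ × H¹ → H²`. -/
def cup (hσ : IsCtsRep L σ) : H1 L ρ →ₗ[k] H1 L σ →ₗ[k] H2 L τ :=
  Submodule.liftQ _
    ((Submodule.liftQ _ (P.cupZ hσ).flip fun y hy =>
      LinearMap.mem_ker.mpr (LinearMap.ext fun x => P.cupZ_eq_zero_right hσ x y hy)).flip)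
    fun x hx => LinearMap.mem_ker.mpr (LinearMap.ext fun y => by
      obtain ⟨y, rfl⟩ := Submodule.Quotient.mk_surjective _ y
      exact P.cupZ_eq_zero_left hσ x hx y)

theorem cup_mk (hσ : IsCtsRep L σ) (x : ↥(Z1 L ρ)) (y : ↥(Z1 L σ)) :
    P.cup hσ (H1mk L ρ x) (H1mk L σ y) = P.cupZ hσ x y := rfl

variable {H : Type} [Group H] {L' : Levels H}

/-- Restriction of an equivariant pairing along a homomorphism. -/
def res (f : H →* G) : RepPairing (ρ.comp f) (σ.comp f) (τ.comp f) where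
  e := P.e
  comm h v w := P.comm (f h) v w

/-- Cup products commute with restriction. -/
theorem cup_res (f : H →* G) (hf : L.Compat L' f) (hσ : IsCtsRep L σ) (x : H1 L ρ)
    (y : H1 L σ) :
    (P.res f).cup (hσ.comp hf) ((Mor.res L L' ρ f hf).map₁ x) ((Mor.res L L' σ f hf).map₁ y) =
      (Mor.res L L' τ f hf).map₂ (P.cup hσ x y) := by
  obtain ⟨x, rfl⟩ := H1mk_surjective x
  obtain ⟨y, rfl⟩ := H1mk_surjective y
  rfl

end RepPairing

end Fermat.Agent.GalCoh
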