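import Fermat.Agent.GalCoh.CFTInputs
import Fermat.Agent.GalCoh.Cup
import Mathlib.RepresentationTheory.Basic

/-!
# Selmer groups, dual conditions and the Greenberg–Wiles statement

For a representation `ρ` of `G_ℚ` on an `𝔽_p`-space, unramified outside a finite set `S`, with
local conditions at `S ∪ {∞}`.  The dual module is `ρ.dual ⊗ μ_p`, the local pairings are the
invariants of cup products.
-/

set_option autoImplicit false

noncomputable section

namespace Fermat.Agent.GalCoh

open ExtCitation Module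

local notation "Γ" => (AlgebraicClosure ℚ ≃ₐ[ℚ] AlgebraicClosure ℚ)

variable {p : ℕ} [Fact p.Prime] {V : Type} [AddCommGroup V] [Module (ZMod p) V]

/-- The Cartier dual `Hom(V, μ_p)`. -/
def dualMu (ρ : Representation (ZMod p) Γ V) :
    Representation (ZMod p) Γ (Module.Dual (ZMod p) V) :=
  ρ.dual.twist (cycloChar p)

theorem dualMu_apply (ρ : Representation (ZMod p) Γ V) (g : Γ) (f : Module.Dual (ZMod p) V)
    (v : V) : dualMu ρ g f v = (cycloChar p g : ZMod p) * f (ρ g⁻¹ v) := by
  simp [dualMu, Representation.twist_apply_apply, Representation.dual_apply,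
    Module.Dual.transpose_apply]

theorem isCtsRep_dualMu {L : Levels Γ} {ρ : Representation (ZMod p) Γ V} (hρ : IsCtsRep L ρ)
    (hχ : ∃ U, L.mem U ∧ ∀ σ ∈ U, cycloChar p σ = 1) : IsCtsRep L (dualMu ρ) := by
  obtain ⟨U, hU, hχ⟩ := hχ
  obtain ⟨U', hU', hρ⟩ := hρ
  refine ⟨U ⊓ U', L.inf_mem hU hU', fun s hs => LinearMap.ext fun f => LinearMap.ext fun v => ?_⟩
  rw [dualMu_apply, hχ s hs.1, hρ s⁻¹ (U'.inv_mem hs.2)]
  simp

/-- Evaluation `V × Hom(V, μ_p) → μ_p`. -/
def evPairing (ρ : Representation (ZMod p) Γ V) : RepPairing ρ (dualMu ρ) (muRep p) where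
  e := Module.Dual.eval (ZMod p) V
  comm g v f := by
    rw [Module.Dual.eval_apply, Module.Dual.eval_apply, dualMu_apply, muRep_apply]
    simp [← Module.End.mul_apply, ← map_mul]

/-- The local map at an index of `S ∪ {∞}`. -/
abbrev locAt (S : Finset Nat.Primes) (u : extArithIndex S) : placeGroup (toPlace u) →* Γ :=
  placeLoc (toPlace u)

theorem compat_locAt (S : Finset Nat.Primes) (u : extArithIndex S) :
    (levelsS S).Compat (localLevels (locAt S u)) (locAt S u) :=
  (compat_levelsS S).comp (fullLevels.compat_comap _)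

/-- Restriction to a place. -/
def resAt (S : Finset Nat.Primes) (ρ : Representation (ZMod p) Γ V) (u : extArithIndex S) :
    H1 (levelsS S) ρ →ₗ[ZMod p] H1 (localLevels (locAt S u)) (ρ.comp (locAt S u)) :=
  (Mor.res (levelsS S) (localLevels (locAt S u)) ρ (locAt S u) (compat_locAt S u)).map₁

variable (S : Finset Nat.Primes) (ρ : Representation (ZMod p) Γ V)

/-- Local conditions. -/
abbrev LocalConditions : Type :=
  ∀ u : extArithIndex S, Submodule (ZMod p) (H1 (localLevels (locAt S u)) (ρ.comp (locAt S u)))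

/-- The Selmer group of a family of local conditions. -/
def Sel (𝓛 : LocalConditions S ρ) : Submodule (ZMod p) (H1 (levelsS S) ρ) :=
  ⨅ u, (𝓛 u).comap (resAt S ρ u)

theorem mem_Sel_iff (𝓛 : LocalConditions S ρ) (x : H1 (levelsS S) ρ) :
    x ∈ Sel S ρ 𝓛 ↔ ∀ u, resAt S ρ u x ∈ 𝓛 u := by
  simp [Sel, Submodule.mem_iInf]

/-- A family of invariant maps. -/
abbrev InvFamily (p : ℕ) [Fact p.Prime] : Type :=
  ∀ v : Place, H2 (localLevels (placeLoc v)) ((muRep p).comp (placeLoc v)) →ₗ[ZMod p] ZMod p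

/-- The reciprocity law for a family of invariant maps. -/
def InvFamily.IsReciprocal (inv : InvFamily p) : Prop :=
  (∀ v, Function.Injective (inv v)) ∧
  ∀ (S : Finset Nat.Primes), pPrime p ∈ S → ∀ z : H2 (levelsS S) (muRep p),
    ∑ u : extArithIndex S,
      inv (toPlace u) ((Mor.res (levelsS S) (localLevels (locAt S u)) (muRep p) (locAt S u)
        (compat_locAt S u)).map₂ z) = 0

theorem exists_isReciprocal (h : CFTInputs p) : ∃ inv : InvFamily p, inv.IsReciprocal :=
  h.reciprocity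

/-- The local pairing at a place: invariant of the cup product. -/
def localPairing (inv : InvFamily p) (hd : IsCtsRep (levelsS S) (dualMu ρ))
    (u : extArithIndex S) :
    H1 (localLevels (locAt S u)) (ρ.comp (locAt S u)) →ₗ[ZMod p]
      H1 (localLevels (locAt S u)) ((dualMu ρ).comp (locAt S u)) →ₗ[ZMod p] ZMod p :=
  (((evPairing ρ).res (locAt S u)).cup (L := localLevels (locAt S u))
    (hd.comp (compat_locAt S u))).compr₂ (inv (toPlace u))

/-- The orthogonal conditions. -/
def dualLocal (inv : InvFamily p) (hd : IsCtsRep (levelsS S) (dualMu ρ))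
    (𝓛 : LocalConditions S ρ) : LocalConditions S (dualMu ρ) :=
  fun u => (𝓛 u).dualAnnihilator.comap (localPairing S ρ inv hd u).flip

theorem mem_dualLocal_iff (inv : InvFamily p) (hd : IsCtsRep (levelsS S) (dualMu ρ))
    (𝓛 : LocalConditions S ρ) (u : extArithIndex S)
    (y : H1 (localLevels (locAt S u)) ((dualMu ρ).comp (locAt S u))) :
    y ∈ dualLocal S ρ inv hd 𝓛 u ↔ ∀ x ∈ 𝓛 u, localPairing S ρ inv hd u x y = 0 := by
  simp only [dualLocal, Submodule.mem_comap, Submodule.mem_dualAnnihilator]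
  rfl

/-- The Greenberg–Wiles inequality: `dim Sel − dim Sel* ≤ h⁰(V) − h⁰(V*) + Σ (dim L_v − h⁰_v(V))`.
-/
def GreenbergWilesLe (p : ℕ) [Fact p.Prime] : Prop :=
  ∀ (V : Type) [AddCommGroup V] [Module (ZMod p) V] [FiniteDimensional (ZMod p) V]
    (S : Finset Nat.Primes), pPrime p ∈ S → ∀ (ρ : Representation (ZMod p) Γ V),
    IsCtsRep (levelsS S) ρ → ∀ (hd : IsCtsRep (levelsS S) (dualMu ρ)) (inv : InvFamily p),
    inv.IsReciprocal → ∀ 𝓛 : LocalConditions S ρ,
      (∀ u, FiniteDimensional (ZMod p) (𝓛 u)) →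
      FiniteDimensional (ZMod p) (Sel S ρ 𝓛) ∧
      FiniteDimensional (ZMod p) (Sel S (dualMu ρ) (dualLocal S ρ inv hd 𝓛)) ∧
      finrank (ZMod p) (Sel S ρ 𝓛) + finrank (ZMod p) (H0 (dualMu ρ))
          + ∑ u, finrank (ZMod p) (H0 (ρ.comp (locAt S u)))
        ≤ finrank (ZMod p) (Sel S (dualMu ρ) (dualLocal S ρ inv hd 𝓛))
          + finrank (ZMod p) (H0 ρ) + ∑ u, finrank (ZMod p) (𝓛 u)

/-- Reciprocity for cup products: the sum of local pairings of global classes vanishes. -/
theorem sum_localPairing_eq_zero {inv : InvFamily p} (hinv : inv.IsReciprocal)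
    (hpS : pPrime p ∈ S) (hd : IsCtsRep (levelsS S) (dualMu ρ)) (x : H1 (levelsS S) ρ)
    (y : H1 (levelsS S) (dualMu ρ)) :
    ∑ u, localPairing S ρ inv hd u (resAt S ρ u x) (resAt S (dualMu ρ) u y) = 0 := by
  rw [← hinv.2 S hpS ((evPairing ρ).cup hd x y)]
  refine Finset.sum_congr rfl fun u _ => ?_
  exact congrArg (inv (toPlace u)) ((evPairing ρ).cup_res (locAt S u) (compat_locAt S u) hd x y)

end Fermat.Agent.GalCoh
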