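import Mathlib.GroupTheory.Index
import Mathlib.Tactic.Group
import Mathlib.RepresentationTheory.Basic
import Mathlib.RepresentationTheory.Intertwining

/-!
# Level families on a group

A *level family* on a group `G` is a filter basis of finite index subgroups, closed under
finite intersections and supergroups, in which normal subgroups are cofinal.  It replaces the
Krull topology: cochains are "continuous" when they are right invariant under some level.
-/

set_option autoImplicit false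

namespace Fermat.Agent.GalCoh

/-- A family of "open" subgroups of a group. -/
@[ext]
structure Levels (G : Type*) [Group G] where
  mem : Subgroup G → Prop
  top_mem : mem ⊤
  inf_mem : ∀ {U V : Subgroup G}, mem U → mem V → mem (U ⊓ V)
  mono : ∀ {U V : Subgroup G}, mem U → U ≤ V → mem V
  exists_normal : ∀ {U : Subgroup G}, mem U → ∃ N, mem N ∧ N.Normal ∧ N ≤ U
  finiteIndex : ∀ {U : Subgroup G}, mem U → U.FiniteIndex

namespace Levels

variable {G H J : Type*} [Group G] [Group H] [Group J]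

/-- The pull back of a level family along a homomorphism. -/
def comap (L : Levels G) (f : H →* G) : Levels H where
  mem V := ∃ U, L.mem U ∧ U.comap f ≤ V
  top_mem := ⟨⊤, L.top_mem, le_top⟩
  inf_mem := fun ⟨U, hU, hU'⟩ ⟨V, hV, hV'⟩ =>
    ⟨U ⊓ V, L.inf_mem hU hV,
      le_inf ((Subgroup.comap_mono inf_le_left).trans hU')
        ((Subgroup.comap_mono inf_le_right).trans hV')⟩
  mono := fun ⟨U, hU, hU'⟩ h => ⟨U, hU, hU'.trans h⟩
  exists_normal := fun {V} ⟨U, hU, hU'⟩ => by
    obtain ⟨N, hN, hNn, hNU⟩ := L.exists_normal hU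
    exact ⟨N.comap f, ⟨N, hN, le_rfl⟩, hNn.comap f, (Subgroup.comap_mono hNU).trans hU'⟩
  finiteIndex := fun {V} ⟨U, hU, hU'⟩ => by
    have : U.FiniteIndex := L.finiteIndex hU
    have : (U.comap f).FiniteIndex := by
      constructor
      rw [Subgroup.index_comap]
      exact fun h0 => (L.finiteIndex hU).index_ne_zero (by
        rw [← Subgroup.relIndex_top_right]
        exact Subgroup.relIndex_eq_zero_of_le_right le_top h0)
    exact Subgroup.finiteIndex_of_le hU'

/-- `f : H →* G` pulls the levels `L` back to levels of `L'`. -/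
def Compat (L : Levels G) (L' : Levels H) (f : H →* G) : Prop :=
  ∀ ⦃U : Subgroup G⦄, L.mem U → L'.mem (U.comap f)

theorem compat_id (L : Levels G) : L.Compat L (MonoidHom.id G) := fun _ h => h

theorem compat_comap (L : Levels G) (f : H →* G) : L.Compat (L.comap f) f :=
  fun U hU => ⟨U, hU, le_rfl⟩

theorem Compat.comp {L : Levels G} {L' : Levels H} {L'' : Levels J} {f : H →* G} {g : J →* H}
    (hf : L.Compat L' f) (hg : L'.Compat L'' g) : L.Compat L'' (f.comp g) :=
  fun _ hU => hg (hf hU)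

/-- A cochain of degree one is continuous if it is right invariant under some level. -/
def IsCts₁ (L : Levels G) {X : Type*} (f : G → X) : Prop :=
  ∃ U, L.mem U ∧ ∀ g, ∀ s ∈ U, f (g * s) = f g

/-- A cochain of degree two is continuous if it is right invariant under some level. -/
def IsCts₂ (L : Levels G) {X : Type*} (f : G × G → X) : Prop :=
  ∃ U, L.mem U ∧ ∀ g g', ∀ s ∈ U, ∀ s' ∈ U, f (g * s, g' * s') = f (g, g')

variable {L : Levels G}

theorem isCts₁_const {X : Type*} (x : X) : L.IsCts₁ (fun _ => x) :=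
  ⟨⊤, L.top_mem, fun _ _ _ => rfl⟩

theorem isCts₂_const {X : Type*} (x : X) : L.IsCts₂ (fun _ => x) :=
  ⟨⊤, L.top_mem, fun _ _ _ _ _ _ => rfl⟩

theorem IsCts₁.comp {X Y : Type*} {f : G → X} (hf : L.IsCts₁ f) (φ : X → Y) :
    L.IsCts₁ (φ ∘ f) := by
  obtain ⟨U, hU, h⟩ := hf
  exact ⟨U, hU, fun g s hs => congrArg φ (h g s hs)⟩

theorem IsCts₂.comp {X Y : Type*} {f : G × G → X} (hf : L.IsCts₂ f) (φ : X → Y) :
    L.IsCts₂ (φ ∘ f) := by
  obtain ⟨U, hU, h⟩ := hf
  exact ⟨U, hU, fun g g' s hs s' hs' => congrArg φ (h g g' s hs s' hs')⟩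

theorem IsCts₁.map₂ {X Y Z : Type*} {f : G → X} {f' : G → Y} (hf : L.IsCts₁ f)
    (hf' : L.IsCts₁ f') (φ : X → Y → Z) : L.IsCts₁ (fun g => φ (f g) (f' g)) := by
  obtain ⟨U, hU, h⟩ := hf
  obtain ⟨V, hV, h'⟩ := hf'
  exact ⟨U ⊓ V, L.inf_mem hU hV, fun g s hs =>
    congrArg₂ φ (h g s hs.1) (h' g s hs.2)⟩

theorem IsCts₂.map₂ {X Y Z : Type*} {f : G × G → X} {f' : G × G → Y} (hf : L.IsCts₂ f)
    (hf' : L.IsCts₂ f') (φ : X → Y → Z) : L.IsCts₂ (fun g => φ (f g) (f' g)) := by
  obtain ⟨U, hU, h⟩ := hf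
  obtain ⟨V, hV, h'⟩ := hf'
  exact ⟨U ⊓ V, L.inf_mem hU hV, fun g g' s hs s' hs' =>
    congrArg₂ φ (h g g' s hs.1 s' hs'.1) (h' g g' s hs.2 s' hs'.2)⟩

theorem IsCts₁.add {X : Type*} [Add X] {f f' : G → X} (hf : L.IsCts₁ f) (hf' : L.IsCts₁ f') :
    L.IsCts₁ (f + f') :=
  hf.map₂ hf' (· + ·)

theorem IsCts₂.add {X : Type*} [Add X] {f f' : G × G → X} (hf : L.IsCts₂ f)
    (hf' : L.IsCts₂ f') : L.IsCts₂ (f + f') :=
  hf.map₂ hf' (· + ·)

theorem IsCts₁.precomp {L' : Levels H} {φ : H →* G} (hφ : L.Compat L' φ) {X : Type*} {f : G → X}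
    (hf : L.IsCts₁ f) : L'.IsCts₁ (f ∘ φ) := by
  obtain ⟨U, hU, h⟩ := hf
  exact ⟨U.comap φ, hφ hU, fun g s hs => by simpa [Function.comp] using h (φ g) (φ s) hs⟩

theorem IsCts₂.precomp {L' : Levels H} {φ : H →* G} (hφ : L.Compat L' φ) {X : Type*}
    {f : G × G → X} (hf : L.IsCts₂ f) : L'.IsCts₂ (fun p => f (φ p.1, φ p.2)) := by
  obtain ⟨U, hU, h⟩ := hf
  exact ⟨U.comap φ, hφ hU, fun g g' s hs s' hs' => by
    simpa using h (φ g) (φ g') (φ s) hs (φ s') hs'⟩

/-- A cochain of degree one, viewed as a cochain of degree two through the second variable, the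
first variable and the product, stays continuous. -/
theorem IsCts₁.comp_fst {X : Type*} {f : G → X} (hf : L.IsCts₁ f) :
    L.IsCts₂ (fun p => f p.1) := by
  obtain ⟨U, hU, h⟩ := hf
  exact ⟨U, hU, fun g g' s hs s' _ => h g s hs⟩

theorem IsCts₁.comp_snd {X : Type*} {f : G → X} (hf : L.IsCts₁ f) :
    L.IsCts₂ (fun p => f p.2) := by
  obtain ⟨U, hU, h⟩ := hf
  exact ⟨U, hU, fun g g' s _ s' hs' => h g' s' hs'⟩

theorem IsCts₁.comp_mul {X : Type*} {f : G → X} (hf : L.IsCts₁ f) :
    L.IsCts₂ (fun p => f (p.1 * p.2)) := by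
  obtain ⟨U, hU, h⟩ := hf
  obtain ⟨N, hN, hNn, hNU⟩ := L.exists_normal hU
  refine ⟨N, hN, fun g g' s hs s' hs' => ?_⟩
  have : g * s * (g' * s') = g * g' * (g'⁻¹ * s * g' * s') := by group
  have hmem : g'⁻¹ * s * g' * s' ∈ N := by
    refine N.mul_mem ?_ hs'
    simpa using hNn.conj_mem s hs g'⁻¹
  simp only [this]
  exact h _ _ (hNU hmem)

end Levels

/-- A representation is continuous if some level acts trivially. -/
def IsCtsRep {G : Type*} [Group G] (L : Levels G) {k V : Type*} [CommRing k] [AddCommGroup V]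
    [Module k V] (ρ : Representation k G V) : Prop :=
  ∃ U, L.mem U ∧ ∀ s ∈ U, ρ s = 1

theorem IsCtsRep.comp {G H : Type*} [Group G] [Group H] {L : Levels G} {L' : Levels H}
    {f : H →* G} (hf : L.Compat L' f) {k V : Type*} [CommRing k] [AddCommGroup V] [Module k V]
    {ρ : Representation k G V} (h : IsCtsRep L ρ) : IsCtsRep L' (ρ.comp f) := by
  obtain ⟨U, hU, h⟩ := h
  exact ⟨U.comap f, hf hU, fun s hs => h (f s) hs⟩

end Fermat.Agent.GalCoh

namespace Fermat.Agent.GalCoh.Levels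

variable {G H J : Type*} [Group G] [Group H] [Group J]

theorem comap_comap (L : Levels G) (f : H →* G) (g : J →* H) :
    (L.comap f).comap g = L.comap (f.comp g) := by
  ext V
  constructor
  · rintro ⟨U', ⟨U, hU, hUU'⟩, hU'⟩
    exact ⟨U, hU, by rw [← Subgroup.comap_comap]; exact (Subgroup.comap_mono hUU').trans hU'⟩
  · rintro ⟨U, hU, hUV⟩
    exact ⟨U.comap f, ⟨U, hU, le_rfl⟩, by rwa [Subgroup.comap_comap]⟩

/-- Pullbacks of the same family along homomorphisms commuting over it are compatible. -/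
theorem compat_of_comp_eq (L : Levels G) {a : H →* G} {b : J →* G} (f : J →* H)
    (h : a.comp f = b) : (L.comap a).Compat (L.comap b) f := fun U hU => by
  rw [← h, ← comap_comap]
  exact ⟨U, hU, le_rfl⟩

/-- Pullbacks along the same homomorphism are monotone in the family. -/
theorem Compat.comap {L L' : Levels G} (hL : L.Compat L' (MonoidHom.id G)) (a : H →* G) :
    (L.comap a).Compat (L'.comap a) (MonoidHom.id H) := fun U ⟨V, hV, hVU⟩ =>
  ⟨V, by simpa using hL hV, by simpa using hVU⟩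

end Fermat.Agent.GalCoh.Levels
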