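import Fermat.Agent.GalCoh.Levels
import Mathlib.LinearAlgebra.Quotient.Basic
import Mathlib.RepresentationTheory.Invariants

/-!
# Continuous cohomology in degrees one and two, relative to a level family
-/

set_option autoImplicit false

noncomputable section

namespace Fermat.Agent.GalCoh

variable {k : Type} [CommRing k] {G : Type} [Group G] {V : Type} [AddCommGroup V] [Module k V]
  (L : Levels G) (ρ : Representation k G V)

/-- `v ↦ (g ↦ g v - v)`. -/
def d0 : V →ₗ[k] (G → V) where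
  toFun v g := ρ g v - v
  map_add' v w := by ext g; simp only [map_add, Pi.add_apply]; abel
  map_smul' a v := by ext g; simp [smul_sub]

/-- The differential from one-cochains to two-cochains. -/
def d1 : (G → V) →ₗ[k] (G × G → V) where
  toFun f p := ρ p.1 (f p.2) - f (p.1 * p.2) + f p.1
  map_add' f f' := by ext p; simp only [Pi.add_apply, map_add]; abel
  map_smul' a f := by ext p; simp [smul_sub, smul_add]

/-- The differential from two-cochains to three-cochains. -/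
def d2 : (G × G → V) →ₗ[k] (G × G × G → V) where
  toFun f p := ρ p.1 (f (p.2.1, p.2.2)) - f (p.1 * p.2.1, p.2.2) + f (p.1, p.2.1 * p.2.2)
    - f (p.1, p.2.1)
  map_add' f f' := by ext p; simp only [Pi.add_apply, map_add]; abel
  map_smul' a f := by ext p; simp [smul_sub, smul_add]

@[simp] theorem d0_apply (v : V) (g : G) : d0 ρ v g = ρ g v - v := rfl

@[simp] theorem d1_apply (f : G → V) (g h : G) :
    d1 ρ f (g, h) = ρ g (f h) - f (g * h) + f g := rfl

@[simp] theorem d2_apply (f : G × G → V) (g h j : G) :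
    d2 ρ f (g, h, j) = ρ g (f (h, j)) - f (g * h, j) + f (g, h * j) - f (g, h) := rfl

theorem d1_d0 (v : V) : d1 ρ (d0 ρ v) = 0 := by
  ext ⟨g, h⟩; simp

theorem d2_d1 (f : G → V) : d2 ρ (d1 ρ f) = 0 := by
  ext ⟨g, h, j⟩; simp [mul_assoc]; abel

/-- Continuous one-cochains. -/
def C1 : Submodule k (G → V) where
  carrier := {f | L.IsCts₁ f}
  add_mem' hf hf' := hf.add hf'
  zero_mem' := L.isCts₁_const 0
  smul_mem' a _ hf := hf.comp (a • ·)

/-- Continuous two-cochains. -/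
def C2 : Submodule k (G × G → V) where
  carrier := {f | L.IsCts₂ f}
  add_mem' hf hf' := hf.add hf'
  zero_mem' := L.isCts₂_const 0
  smul_mem' a _ hf := hf.comp (a • ·)

variable {L} in
theorem mem_C1_iff (f : G → V) : f ∈ C1 (k := k) L ↔ L.IsCts₁ f := Iff.rfl

variable {L} in
theorem mem_C2_iff (f : G × G → V) : f ∈ C2 (k := k) L ↔ L.IsCts₂ f := Iff.rfl

variable {L ρ} in
theorem isCts₁_apply (hρ : IsCtsRep L ρ) (v : V) : L.IsCts₁ (fun g => ρ g v) := by
  obtain ⟨U, hU, h⟩ := hρ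
  exact ⟨U, hU, fun g s hs => by simp [map_mul, h s hs]⟩

variable {L ρ} in
theorem d0_mem_C1 (hρ : IsCtsRep L ρ) (v : V) : d0 ρ v ∈ C1 (k := k) L :=
  (isCts₁_apply hρ v).map₂ (L.isCts₁_const v) (· - ·)

variable {L ρ} in
theorem d1_mem_C2 (hρ : IsCtsRep L ρ) {f : G → V} (hf : f ∈ C1 (k := k) L) :
    d1 ρ f ∈ C2 (k := k) L := by
  have h1 : L.IsCts₂ (fun p : G × G => ρ p.1 (f p.2)) := by
    obtain ⟨U, hU, h⟩ := hρ
    obtain ⟨U', hU', h'⟩ := hf
    exact ⟨U ⊓ U', L.inf_mem hU hU', fun g g' s hs s' hs' => by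
      simp [map_mul, h s hs.1, h' g' s' hs'.2]⟩
  exact (h1.map₂ hf.comp_mul (· - ·)).map₂ hf.comp_fst (· + ·)

/-- Continuous one-cocycles. -/
def Z1 : Submodule k (G → V) := LinearMap.ker (d1 ρ) ⊓ C1 L

/-- One-coboundaries. -/
def B1 : Submodule k (G → V) := LinearMap.range (d0 ρ)

/-- Continuous two-cocycles. -/
def Z2 : Submodule k (G × G → V) := LinearMap.ker (d2 ρ) ⊓ C2 L

/-- Coboundaries of continuous one-cochains. -/
def B2 : Submodule k (G × G → V) := (C1 L).map (d1 ρ)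

variable {L ρ}

theorem mem_Z1_iff {f : G → V} :
    f ∈ Z1 L ρ ↔ (∀ g h, f (g * h) = ρ g (f h) + f g) ∧ L.IsCts₁ f := by
  simp only [Z1, Submodule.mem_inf, LinearMap.mem_ker, funext_iff, Prod.forall, d1_apply,
    Pi.zero_apply, mem_C1_iff]
  refine and_congr_left fun _ => forall₂_congr fun g h => ?_
  rw [sub_add_eq_add_sub, sub_eq_zero, eq_comm]

theorem mem_Z2_iff {f : G × G → V} :
    f ∈ Z2 L ρ ↔
      (∀ g h j, f (g * h, j) + f (g, h) = ρ g (f (h, j)) + f (g, h * j)) ∧ L.IsCts₂ f := by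
  simp only [Z2, Submodule.mem_inf, LinearMap.mem_ker, funext_iff, Prod.forall, d2_apply,
    Pi.zero_apply, mem_C2_iff]
  refine and_congr_left fun _ => forall₂_congr fun g h => forall_congr' fun j => ?_
  rw [← sub_eq_zero (b := ρ g (f (h, j)) + f (g, h * j)), ← neg_eq_zero]
  refine iff_of_eq (congrArg (· = 0) ?_)
  abel

theorem mem_B1_iff {f : G → V} : f ∈ B1 ρ ↔ ∃ v, ∀ g, f g = ρ g v - v := by
  simp only [B1, LinearMap.mem_range, funext_iff, d0_apply]
  exact exists_congr fun v => forall_congr' fun g => eq_comm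

theorem mem_B2_iff {f : G × G → V} :
    f ∈ B2 L ρ ↔ ∃ x, L.IsCts₁ x ∧ d1 ρ x = f := by
  simp only [B2, Submodule.mem_map, mem_C1_iff]

theorem B2_le_Z2 (hρ : IsCtsRep L ρ) : B2 L ρ ≤ Z2 L ρ := by
  rintro _ ⟨x, hx, rfl⟩
  exact ⟨d2_d1 ρ x, d1_mem_C2 hρ hx⟩

theorem d0_mem_Z1 (hρ : IsCtsRep L ρ) (v : V) : d0 ρ v ∈ Z1 L ρ :=
  ⟨d1_d0 ρ v, d0_mem_C1 hρ v⟩

theorem Z1.map_one {f : G → V} (hf : f ∈ Z1 L ρ) : f 1 = 0 := by
  have := (mem_Z1_iff.mp hf).1 1 1
  simpa using this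

variable (L ρ)

/-- Continuous first cohomology. -/
abbrev H1 : Type := ↥(Z1 L ρ) ⧸ (B1 ρ).comap (Z1 L ρ).subtype

/-- Continuous second cohomology. -/
abbrev H2 : Type := ↥(Z2 L ρ) ⧸ (B2 L ρ).comap (Z2 L ρ).subtype

/- Shortcuts: finding these structures through `Submodule.Quotient` unfolds the submodules. -/
instance instAddCommGroupH1 : AddCommGroup (H1 L ρ) := inferInstance

instance instModuleH1 : Module k (H1 L ρ) := inferInstance

instance instAddCommGroupH2 : AddCommGroup (H2 L ρ) := inferInstance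

instance instModuleH2 : Module k (H2 L ρ) := inferInstance

/-- The class of a one-cocycle. -/
abbrev H1mk : ↥(Z1 L ρ) →ₗ[k] H1 L ρ := Submodule.mkQ _

/-- The class of a two-cocycle. -/
abbrev H2mk : ↥(Z2 L ρ) →ₗ[k] H2 L ρ := Submodule.mkQ _

/-- The invariants, as degree zero cohomology. -/
abbrev H0 : Submodule k V := ρ.invariants

variable {L ρ}

theorem H1mk_eq_zero_iff {c : ↥(Z1 L ρ)} : H1mk L ρ c = 0 ↔ (c : G → V) ∈ B1 ρ := by
  simp [Submodule.Quotient.mk_eq_zero]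

theorem H2mk_eq_zero_iff {c : ↥(Z2 L ρ)} : H2mk L ρ c = 0 ↔ (c : G × G → V) ∈ B2 L ρ := by
  simp [Submodule.Quotient.mk_eq_zero]

theorem H1mk_eq_iff {c c' : ↥(Z1 L ρ)} :
    H1mk L ρ c = H1mk L ρ c' ↔ ((c : G → V) - c') ∈ B1 ρ := by
  rw [← sub_eq_zero, ← map_sub, H1mk_eq_zero_iff, Submodule.coe_sub]

theorem H2mk_eq_iff {c c' : ↥(Z2 L ρ)} :
    H2mk L ρ c = H2mk L ρ c' ↔ ((c : G × G → V) - c') ∈ B2 L ρ := by
  rw [← sub_eq_zero, ← map_sub, H2mk_eq_zero_iff, Submodule.coe_sub]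

theorem H1mk_surjective : Function.Surjective (H1mk L ρ) := Submodule.mkQ_surjective _

theorem H2mk_surjective : Function.Surjective (H2mk L ρ) := Submodule.mkQ_surjective _

/-! ### Functoriality -/

variable {H : Type} [Group H] {W : Type} [AddCommGroup W] [Module k W]

/-- A compatible pair of a group homomorphism and a linear map. -/
structure Mor (L : Levels G) (L' : Levels H) (ρ : Representation k G V)
    (σ : Representation k H W) where
  f : H →* G
  φ : V →ₗ[k] W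
  comm : ∀ (h : H) (v : V), φ (ρ (f h) v) = σ h (φ v)
  compat : L.Compat L' f

/-- The morphism given by an equivariant linear map. -/
def Mor.ofMap {W : Type} [AddCommGroup W] [Module k W] (L : Levels G)
    {ρ : Representation k G V} {σ : Representation k G W} (φ : Representation.IntertwiningMap ρ σ) :
    Mor L L ρ σ where
  f := MonoidHom.id G
  φ := φ.toLinearMap
  comm g v := φ.isIntertwining _ _ g v
  compat := L.compat_id

/-- The morphism given by restriction along a homomorphism. -/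
def Mor.res (L : Levels G) (L' : Levels H) (ρ : Representation k G V) (f : H →* G)
    (hf : L.Compat L' f) : Mor L L' ρ (ρ.comp f) where
  f := f
  φ := LinearMap.id
  comm _ _ := rfl
  compat := hf

variable {L' : Levels H} {σ : Representation k H W}

/-- The map on one-cochains. -/
def Mor.cochain₁ (m : Mor L L' ρ σ) : (G → V) →ₗ[k] (H → W) where
  toFun x h := m.φ (x (m.f h))
  map_add' _ _ := by ext; simp
  map_smul' _ _ := by ext; simp

/-- The map on two-cochains. -/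
def Mor.cochain₂ (m : Mor L L' ρ σ) : (G × G → V) →ₗ[k] (H × H → W) where
  toFun x p := m.φ (x (m.f p.1, m.f p.2))
  map_add' _ _ := by ext; simp
  map_smul' _ _ := by ext; simp

@[simp] theorem Mor.cochain₁_apply (m : Mor L L' ρ σ) (x : G → V) (h : H) :
    m.cochain₁ x h = m.φ (x (m.f h)) := rfl

@[simp] theorem Mor.cochain₂_apply (m : Mor L L' ρ σ) (x : G × G → V) (h h' : H) :
    m.cochain₂ x (h, h') = m.φ (x (m.f h, m.f h')) := rfl

theorem Mor.cochain₁_d0 (m : Mor L L' ρ σ) (v : V) :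
    m.cochain₁ (d0 ρ v) = d0 σ (m.φ v) := by
  ext h; simp [m.comm]

theorem Mor.cochain₂_d1 (m : Mor L L' ρ σ) (x : G → V) :
    m.cochain₂ (d1 ρ x) = d1 σ (m.cochain₁ x) := by
  ext ⟨h, h'⟩; simp [m.comm]

theorem Mor.cochain₁_mem (m : Mor L L' ρ σ) {x : G → V} (hx : L.IsCts₁ x) :
    L'.IsCts₁ (m.cochain₁ x) :=
  (hx.precomp m.compat).comp m.φ

theorem Mor.cochain₂_mem (m : Mor L L' ρ σ) {x : G × G → V} (hx : L.IsCts₂ x) :
    L'.IsCts₂ (m.cochain₂ x) :=
  (hx.precomp m.compat).comp m.φ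

theorem Mor.cochain₁_mem_Z1 (m : Mor L L' ρ σ) {x : G → V} (hx : x ∈ Z1 L ρ) :
    m.cochain₁ x ∈ Z1 L' σ := by
  rw [mem_Z1_iff] at hx ⊢
  exact ⟨fun g h => by simp [hx.1, m.comm], m.cochain₁_mem hx.2⟩

theorem Mor.cochain₂_mem_Z2 (m : Mor L L' ρ σ) {x : G × G → V} (hx : x ∈ Z2 L ρ) :
    m.cochain₂ x ∈ Z2 L' σ := by
  rw [mem_Z2_iff] at hx ⊢
  refine ⟨fun g h j => ?_, m.cochain₂_mem hx.2⟩
  simp only [m.cochain₂_apply, map_mul, ← m.comm, ← map_add, hx.1]

theorem Mor.cochain₂_mem_B2 (m : Mor L L' ρ σ) {x : G × G → V} (hx : x ∈ B2 L ρ) :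
    m.cochain₂ x ∈ B2 L' σ := by
  obtain ⟨y, hy, rfl⟩ := mem_B2_iff.mp hx
  exact mem_B2_iff.mpr ⟨_, m.cochain₁_mem hy, (m.cochain₂_d1 y).symm⟩

/-- The map on invariants. -/
def Mor.map₀ (m : Mor L L' ρ σ) : H0 ρ →ₗ[k] H0 σ :=
  m.φ.restrict fun v hv h => by rw [← m.comm, hv (m.f h)]

/-- The map on first cohomology. -/
def Mor.map₁ (m : Mor L L' ρ σ) : H1 L ρ →ₗ[k] H1 L' σ :=
  Submodule.mapQ _ _ (m.cochain₁.restrict fun _ hx => m.cochain₁_mem_Z1 hx) fun c hc => by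
    obtain ⟨v, hv⟩ := (Submodule.mem_comap.mp hc : (c : G → V) ∈ B1 ρ)
    exact ⟨m.φ v, by rw [← m.cochain₁_d0, hv]; rfl⟩

/-- The map on second cohomology. -/
def Mor.map₂ (m : Mor L L' ρ σ) : H2 L ρ →ₗ[k] H2 L' σ :=
  Submodule.mapQ _ _ (m.cochain₂.restrict fun _ hx => m.cochain₂_mem_Z2 hx) fun _ hc =>
    m.cochain₂_mem_B2 hc

@[simp] theorem Mor.coe_map₀ (m : Mor L L' ρ σ) (v : H0 ρ) : (m.map₀ v : W) = m.φ v := rfl

theorem Mor.map₁_mk (m : Mor L L' ρ σ) (c : ↥(Z1 L ρ)) :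
    m.map₁ (H1mk L ρ c) = H1mk L' σ ⟨m.cochain₁ c, m.cochain₁_mem_Z1 c.2⟩ := rfl

theorem Mor.map₂_mk (m : Mor L L' ρ σ) (c : ↥(Z2 L ρ)) :
    m.map₂ (H2mk L ρ c) = H2mk L' σ ⟨m.cochain₂ c, m.cochain₂_mem_Z2 c.2⟩ := rfl

variable {J : Type} [Group J] {U : Type} [AddCommGroup U] [Module k U] {L'' : Levels J}
  {τ : Representation k J U}

/-- Composition of morphisms. -/
def Mor.comp (m : Mor L L' ρ σ) (m' : Mor L' L'' σ τ) : Mor L L'' ρ τ where
  f := m.f.comp m'.f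
  φ := m'.φ ∘ₗ m.φ
  comm j v := by simp [m.comm, m'.comm]
  compat := m.compat.comp m'.compat

theorem Mor.map₁_comp (m : Mor L L' ρ σ) (m' : Mor L' L'' σ τ) :
    (m.comp m').map₁ = m'.map₁ ∘ₗ m.map₁ := by
  ext c
  rfl

theorem Mor.map₂_comp (m : Mor L L' ρ σ) (m' : Mor L' L'' σ τ) :
    (m.comp m').map₂ = m'.map₂ ∘ₗ m.map₂ := by
  ext c
  rfl

theorem Mor.ext' {m m' : Mor L L' ρ σ} (hf : m.f = m'.f) (hφ : m.φ = m'.φ) : m = m' := by
  cases m; cases m'; cases hf; cases hφ; rfl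

end Fermat.Agent.GalCoh

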