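import Fermat.Prelude.Def_GroupCohomology_ContinuousUnramified
import Fermat.Agent.GalCoh.Cochain
import Fermat.Agent.FreyReducible.InertiaLift

/-!
# The level families of `G_ℚ`, of `G_{ℚ,S}` and of the local groups
-/

set_option autoImplicit false

noncomputable section

open scoped Pointwise

namespace Fermat.Agent.GalCoh

/-- Notation for the absolute Galois group of `ℚ`. -/
local notation "Γ" => (AlgebraicClosure ℚ ≃ₐ[ℚ] AlgebraicClosure ℚ)
local notation "Ω" => AlgebraicClosure ℚ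

local instance isAlgebraicQbar_gc : Algebra.IsAlgebraic ℚ (AlgebraicClosure ℚ) :=
  AlgebraicClosure.isAlgebraic ℚ
local instance isAlgClosureQbar_gc : IsAlgClosure ℚ (AlgebraicClosure ℚ) :=
  ⟨inferInstance, inferInstance⟩
local instance normalQbar_gc : Normal ℚ (AlgebraicClosure ℚ) :=
  IsAlgClosure.normal ℚ (AlgebraicClosure ℚ)

theorem liesOverPrime_smul {A : ValuationSubring Ω} {q : ℕ} (hA : A.LiesOverPrime q) (σ : Γ) :
    (σ • A).LiesOverPrime q := by
  unfold ValuationSubring.LiesOverPrime at hA ⊢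
  rw [ValuationSubring.mem_nonunits_iff_or] at hA ⊢
  rcases hA with h | h
  · left; exact h
  · right
    intro hmem
    apply h
    have := ValuationSubring.mem_pointwise_smul_iff_inv_smul_mem.mp hmem
    simpa using this

theorem mem_nonunits_smul_iff {A : ValuationSubring Ω} {σ : Γ} {x : Ω} :
    x ∈ (σ • A).nonunits ↔ σ.symm x ∈ A.nonunits := by
  rw [ValuationSubring.mem_nonunits_iff_or, ValuationSubring.mem_nonunits_iff_or]
  simp only [ValuationSubring.mem_pointwise_smul_iff_inv_smul_mem]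
  simp [AlgEquiv.smul_def, AlgEquiv.aut_inv]

/-- Conjugation moves the inertia group of `A` to that of `σ • A`. -/
theorem conj_mem_inertiaSubgroupIn {A : ValuationSubring Ω} {τ : Γ}
    (hτ : τ ∈ A.inertiaSubgroupIn ℚ) (σ : Γ) :
    σ * τ * σ⁻¹ ∈ (σ • A).inertiaSubgroupIn ℚ := by
  rw [FreyReducible.mem_inertiaSubgroupIn_iff] at hτ ⊢
  refine ⟨?_, fun x hx => ?_⟩
  · rw [MulAction.mem_stabilizer_iff]
    have h : τ • A = A := hτ.1
    rw [mul_smul, mul_smul, inv_smul_smul, h]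
  · rw [ValuationSubring.mem_pointwise_smul_iff_inv_smul_mem] at hx
    rw [mem_nonunits_smul_iff]
    have := hτ.2 _ hx
    simpa [AlgEquiv.smul_def, AlgEquiv.aut_inv, map_sub] using this

theorem finiteIndex_fixingSubgroup (F : IntermediateField ℚ Ω) [FiniteDimensional ℚ F] :
    F.fixingSubgroup.FiniteIndex := by
  have : IsGalois ℚ Ω := IsGalois.mk
  have := IntermediateField.finrank_eq_fixingSubgroup_index (L := F)
  exact ⟨this ▸ (Module.finrank_pos (R := ℚ) (M := F)).ne'⟩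

theorem isUnramifiedOutside_normalClosure {S : Finset Nat.Primes} {F : IntermediateField ℚ Ω}
    (hF : F.IsUnramifiedOutside S) :
    (IntermediateField.normalClosure ℚ F Ω).IsUnramifiedOutside S := by
  have := hF.1
  refine ⟨inferInstance, fun q hq A hA τ hτ => ?_⟩
  rw [IntermediateField.mem_fixingSubgroup_iff]
  suffices h : IntermediateField.normalClosure ℚ F Ω ≤
      IntermediateField.fixedField (Subgroup.zpowers τ) from fun x hx =>
    h hx ⟨τ, Subgroup.mem_zpowers τ⟩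
  rw [normalClosure_def]
  refine iSup_le fun f => ?_
  rintro _ ⟨y, rfl⟩ ⟨g, hg⟩
  obtain ⟨σ, hσ⟩ : ∃ σ : Γ, ∀ z : F, σ (z : Ω) = f z :=
    ⟨AlgEquiv.ofBijective (f.liftNormal Ω) (AlgHom.normal_bijective ℚ Ω Ω _),
      fun z => f.liftNormal_commutes Ω z⟩
  have hτ' : σ⁻¹ * τ * σ ∈ F.fixingSubgroup := by
    have := conj_mem_inertiaSubgroupIn hτ σ⁻¹
    rw [inv_inv] at this
    exact hF.2 q hq _ (liesOverPrime_smul hA σ⁻¹) this
  have hconj : σ⁻¹ * g * σ ∈ F.fixingSubgroup := by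
    obtain ⟨n, rfl⟩ := Subgroup.mem_zpowers_iff.mp hg
    have : σ⁻¹ * τ ^ n * σ = (σ⁻¹ * τ * σ) ^ n := by
      simpa using (conj_zpow (a := σ⁻¹) (b := τ) (i := n)).symm
    rw [this]
    exact zpow_mem hτ' n
  have hfix : (σ⁻¹ * g * σ) (y : Ω) = y :=
    (IntermediateField.mem_fixingSubgroup_iff _ _).mp hconj _ y.2
  have := congrArg σ hfix
  rw [AlgEquiv.mul_apply, AlgEquiv.mul_apply, hσ, AlgEquiv.aut_inv, AlgEquiv.apply_symm_apply]
    at this
  exact this

/-- Galois closures give cofinal normal levels. -/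
theorem normal_fixingSubgroup_normalClosure (F : IntermediateField ℚ Ω) :
    (IntermediateField.normalClosure ℚ F Ω).fixingSubgroup.Normal := by
  infer_instance

/-- The open subgroups of `G_ℚ`. -/
def fullLevels : Levels Γ where
  mem U := ∃ F : IntermediateField ℚ Ω, FiniteDimensional ℚ F ∧ F.fixingSubgroup ≤ U
  top_mem := ⟨⊥, inferInstance, le_top⟩
  inf_mem := fun ⟨F, hF, hU⟩ ⟨F', hF', hV⟩ =>
    ⟨F ⊔ F', IntermediateField.finiteDimensional_sup F F',
      le_inf ((IntermediateField.fixingSubgroup_antitone le_sup_left).trans hU)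
        ((IntermediateField.fixingSubgroup_antitone le_sup_right).trans hV)⟩
  mono := fun ⟨F, hF, hU⟩ h => ⟨F, hF, hU.trans h⟩
  exists_normal := fun {U} ⟨F, hF, hU⟩ =>
    ⟨(IntermediateField.normalClosure ℚ F Ω).fixingSubgroup, ⟨_, inferInstance, le_rfl⟩,
      normal_fixingSubgroup_normalClosure F,
      (IntermediateField.fixingSubgroup_antitone F.le_normalClosure).trans hU⟩
  finiteIndex := fun {U} ⟨F, hF, hU⟩ => by
    have := finiteIndex_fixingSubgroup F
    exact Subgroup.finiteIndex_of_le hU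

/-- The open subgroups of `G_{ℚ,S}`, seen in `G_ℚ`. -/
def levelsS (S : Finset Nat.Primes) : Levels Γ where
  mem U := ∃ F : IntermediateField ℚ Ω, F.IsUnramifiedOutside S ∧ F.fixingSubgroup ≤ U
  top_mem := ⟨⊥, IntermediateField.isUnramifiedOutside_bot S, le_top⟩
  inf_mem := fun ⟨F, hF, hU⟩ ⟨F', hF', hV⟩ =>
    ⟨F ⊔ F', hF.sup hF',
      le_inf ((IntermediateField.fixingSubgroup_antitone le_sup_left).trans hU)
        ((IntermediateField.fixingSubgroup_antitone le_sup_right).trans hV)⟩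
  mono := fun ⟨F, hF, hU⟩ h => ⟨F, hF, hU.trans h⟩
  exists_normal := fun {U} ⟨F, hF, hU⟩ =>
    have := hF.1
    ⟨(IntermediateField.normalClosure ℚ F Ω).fixingSubgroup,
      ⟨_, isUnramifiedOutside_normalClosure hF, le_rfl⟩,
      normal_fixingSubgroup_normalClosure F,
      (IntermediateField.fixingSubgroup_antitone F.le_normalClosure).trans hU⟩
  finiteIndex := fun {U} ⟨F, hF, hU⟩ => by
    have := hF.1
    have := finiteIndex_fixingSubgroup F
    exact Subgroup.finiteIndex_of_le hU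

theorem compat_levelsS (S : Finset Nat.Primes) :
    (levelsS S).Compat fullLevels (MonoidHom.id Γ) := fun _ ⟨F, hF, hU⟩ => ⟨F, hF.1, hU⟩

theorem compat_levelsS_mono {S S' : Finset Nat.Primes} (h : S ⊆ S') :
    (levelsS S).Compat (levelsS S') (MonoidHom.id Γ) := fun _ ⟨F, hF, hU⟩ => ⟨F, hF.mono h, hU⟩

/-- The levels of a group over `G_ℚ`, as in `groupCohomology.IsLevelConstant₁`. -/
abbrev localLevels {G : Type} [Group G] (r : G →* Γ) : Levels G := fullLevels.comap r

theorem isCts₁_localLevels_iff {G : Type} [Group G] (r : G →* Γ) {X : Type*} (f : G → X) :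
    (localLevels r).IsCts₁ f ↔ groupCohomology.IsLevelConstant₁ r f := by
  constructor
  · rintro ⟨U, ⟨V, ⟨F, hF, hFV⟩, hVU⟩, h⟩
    exact ⟨F, hF, fun g s hs => h g s (hVU (hFV hs))⟩
  · rintro ⟨F, hF, h⟩
    exact ⟨F.fixingSubgroup.comap r, ⟨_, ⟨F, hF, le_rfl⟩, le_rfl⟩, fun g s hs => h g s hs⟩

theorem isCts₁_levelsS_iff (S : Finset Nat.Primes) {X : Type*} (f : Γ → X) :
    (levelsS S).IsCts₁ f ↔ groupCohomology.IsLevelConstantS₁ S f := by
  constructor
  · rintro ⟨U, ⟨F, hF, hU⟩, h⟩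
    exact ⟨F, hF, fun g s hs => h g s (hU hs)⟩
  · rintro ⟨F, hF, h⟩
    exact ⟨F.fixingSubgroup, ⟨F, hF, le_rfl⟩, h⟩

theorem isCts₂_levelsS_iff (S : Finset Nat.Primes) {X : Type*} (f : Γ × Γ → X) :
    (levelsS S).IsCts₂ f ↔ groupCohomology.IsLevelConstantS₂ S f := by
  constructor
  · rintro ⟨U, ⟨F, hF, hU⟩, h⟩
    exact ⟨F, hF, fun g g' s s' hs hs' => h g g' s (hU hs) s' (hU hs')⟩
  · rintro ⟨F, hF, h⟩
    exact ⟨F.fixingSubgroup, ⟨F, hF, le_rfl⟩, fun g g' s hs s' hs' => h g g' s s' hs hs'⟩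

end Fermat.Agent.GalCoh
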