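import Fermat.Agent.GalCoh.RightExact

/-!
# The Euler defect is additive
-/

set_option autoImplicit false

noncomputable section

namespace Fermat.Agent.GalCoh

open Representation (IntertwiningMap)
open ExtCitation Module MulAction

local notation "Γ" => (AlgebraicClosure ℚ ≃ₐ[ℚ] AlgebraicClosure ℚ)

section Fixed

variable {k : Type} [Field k] {G : Type} [Group G] {A B C : Type} [AddCommGroup A] [Module k A]
  [AddCommGroup B] [Module k B] [AddCommGroup C] [Module k C] {α : Representation k G A}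
  {β : Representation k G B} {γ : Representation k G C} {L : Levels G}

/-- The vectors fixed by `ι`. -/
abbrev fixV (σ : Representation k G B) (ι : G) : Submodule k B := LinearMap.ker (σ ι - 1)

theorem mem_fixV {σ : Representation k G B} {ι : G} {v : B} : v ∈ fixV σ ι ↔ σ ι v = v := by
  simp [LinearMap.mem_ker, sub_eq_zero]

/-- An intertwining map on fixed vectors. -/
def fixMap (j : IntertwiningMap β γ) (ι : G) : ↥(fixV β ι) →ₗ[k] ↥(fixV γ ι) :=
  j.toLinearMap.restrict fun v hv => by
    rw [mem_fixV] at hv ⊢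
    show γ ι (j v) = j v
    rw [← j.isIntertwining, hv]

/-- The obstruction at `ι`. -/
abbrev FixCoker (j : IntertwiningMap β γ) (ι : G) : Type :=
  ↥(fixV γ ι) ⧸ LinearMap.range (fixMap j ι)

/-- Image of a two-class in the obstruction. -/
def fixObstruction (j : IntertwiningMap β γ) (hj : Function.Surjective j) (ι : G)
    (hι : ι * ι = 1) : H2 L γ →ₗ[k] FixCoker j ι :=
  Submodule.liftQ _
    (Submodule.mkQ _ ∘ₗ
      ((realVal (k := k) ι ∘ₗ (Z2 L γ).subtype).codRestrict (fixV γ ι) fun c =>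
        mem_fixV.mpr (realVal_fixed hι c.2))) fun c hc => by
    obtain ⟨x, -, hx⟩ := mem_B2_iff.mp (Submodule.mem_comap.mp hc)
    rw [LinearMap.mem_ker, LinearMap.comp_apply, Submodule.mkQ_apply, Submodule.Quotient.mk_eq_zero]
    obtain ⟨b, hb⟩ := hj (x ι)
    refine ⟨⟨β ι b + b, mem_fixV.mpr ?_⟩, Subtype.ext ?_⟩
    · rw [map_add, ← Module.End.mul_apply, ← map_mul, hι, map_one, Module.End.one_apply, add_comm]
    · show j (β ι b + b) = realVal (k := k) ι (c : G × G → C)
      rw [show (c : G × G → C) = d1 γ x from hx.symm, realVal_apply, d1_apply, d1_apply, hι,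
        map_add, j.isIntertwining, hb]
      simp only [mul_one, map_one, Module.End.one_apply]
      abel

theorem fixObstruction_mk (j : IntertwiningMap β γ) (hj : Function.Surjective j) (ι : G)
    (hι : ι * ι = 1) (c : ↥(Z2 L γ)) :
    fixObstruction j hj ι hι (H2mk L γ c) =
      Submodule.Quotient.mk ⟨realVal (k := k) ι (c : G × G → C),
        mem_fixV.mpr (realVal_fixed hι c.2)⟩ := rfl

/-- The obstruction is the real component modulo the image of fixed vectors. -/
theorem fixObstruction_eq (j : IntertwiningMap β γ) (hj : Function.Surjective j) (ι : G)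
    (hι : ι * ι = 1) {z : H2 L γ} {v : ↥(fixV γ ι)}
    (h : realComp L γ ι hι z = tateMk γ ι v) :
    fixObstruction j hj ι hι z = Submodule.Quotient.mk v := by
  obtain ⟨c, rfl⟩ := H2mk_surjective z
  rw [realComp_mk, ← sub_eq_zero, ← map_sub, tateMk_eq_zero_iff] at h
  obtain ⟨w, hw⟩ := h
  rw [fixObstruction_mk, Submodule.Quotient.eq]
  obtain ⟨b, rfl⟩ := hj w
  refine ⟨⟨β ι b + b, mem_fixV.mpr ?_⟩, Subtype.ext ?_⟩
  · rw [map_add, ← Module.End.mul_apply, ← map_mul, hι, map_one, Module.End.one_apply, add_comm]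
  · show j (β ι b + b) = _
    rw [map_add, j.isIntertwining, hw]
    rfl

theorem finrank_fixV (Q : Ses α β γ) (ι : G) [FiniteDimensional k A] [FiniteDimensional k B]
    [FiniteDimensional k C] :
    finrank k (fixV β ι) + finrank k (FixCoker Q.j ι) =
      finrank k (fixV α ι) + finrank k (fixV γ ι) := by
  have e1 := LinearMap.finrank_range_add_finrank_ker (fixMap Q.j ι)
  have e2 := Submodule.finrank_quotient_add_finrank (LinearMap.range (fixMap Q.j ι))
  let f : ↥(fixV α ι) →ₗ[k] ↥(fixV β ι) := fixMap Q.i ι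
  have hf : LinearMap.range f = LinearMap.ker (fixMap Q.j ι) := by
    apply le_antisymm
    · rintro _ ⟨a, rfl⟩
      exact Subtype.ext (Q.ji _)
    · intro b hb
      have hb' : Q.j (b : B) = 0 := congrArg Subtype.val hb
      refine ⟨⟨Q.r b, mem_fixV.mpr (Q.i_injective ?_)⟩, Subtype.ext (Q.i_r_of_j_eq_zero hb')⟩
      rw [Q.i.isIntertwining, Q.i_r_of_j_eq_zero hb', mem_fixV.mp b.2]
  have hfi : Function.Injective f := fun a b e =>
    Subtype.ext (Q.i_injective (congrArg Subtype.val e))
  have e3 : finrank k ↥(LinearMap.ker (fixMap Q.j ι)) = finrank k ↥(fixV α ι) :=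
    hf ▸ LinearMap.finrank_range_of_inj hfi
  show finrank k ↥(fixV β ι) + finrank k (↥(fixV γ ι) ⧸ LinearMap.range (fixMap Q.j ι)) = _
  linarith

end Fixed

variable {p : ℕ} [Fact p.Prime] {S : Finset Nat.Primes} {H N : Subgroup Γ}
  {A B C : Type} [AddCommGroup A] [Module (ZMod p) A] [AddCommGroup B] [Module (ZMod p) B]
  [AddCommGroup C] [Module (ZMod p) C] {α : Representation (ZMod p) ↥H A}
  {β : Representation (ZMod p) ↥H B} {γ : Representation (ZMod p) ↥H C}

/-- The real points of `Γ ⧸ H`. -/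
abbrev RealPoint (H : Subgroup Γ) : Type := {x : Γ ⧸ H // conjC x.out⁻¹ ∈ H}

/-- The map to the obstructions at all real points. -/
def obstructionMap (Q : Ses α β γ) (S : Finset Nat.Primes) :
    H2 (levelsSOn H S) γ →ₗ[ZMod p]
      ∀ x : RealPoint H, FixCoker Q.j (realInv x.1.out⁻¹ x.2) :=
  LinearMap.pi fun x => fixObstruction Q.j Q.j_surjective _ (realInv_mul_self _ x.2)

theorem realVanish_of_points {W : Type} [AddCommGroup W] [Module (ZMod p) W]
    {σ : Representation (ZMod p) ↥H W} {z : H2 (levelsSOn H S) σ}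
    (hz : ∀ (x : Γ ⧸ H) (hx : conjC x.out⁻¹ ∈ H),
      realComp (levelsSOn H S) σ (realInv x.out⁻¹ hx) (realInv_mul_self _ hx) z = 0) :
    RealVanish σ z := by
  intro g hg
  obtain ⟨⟨k, hk⟩, e⟩ := QuotientGroup.mk_out_eq_mul H g⁻¹
  have hxe : ((g⁻¹ : Γ) : Γ ⧸ H).out⁻¹ = k⁻¹ * g := by
    rw [show ((g⁻¹ : Γ) : Γ ⧸ H).out = g⁻¹ * k from e]; group
  have hx : conjC ((g⁻¹ : Γ) : Γ ⧸ H).out⁻¹ ∈ H := by
    rw [hxe]
    have := H.mul_mem (H.mul_mem (H.inv_mem hk) hg) hk
    simpa [mul_assoc] using this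
  exact realComp_conj_eq_zero (g := (⟨k, hk⟩ : ↥H)⁻¹) (realInv_mul_self _ hx) _
    (Subtype.ext (by simp [hxe, mul_assoc])) (hz _ hx)

theorem obstructionMap_surjective (h : VeryLarge p S N) (hC : CFTInputs p) (hNH : N ≤ H)
    (hγ : TrivialOn H γ N) (Q : Ses α β γ) : Function.Surjective (obstructionMap Q S) := by
  classical
  intro q
  choose v hv using fun x : RealPoint H => Submodule.Quotient.mk_surjective _ (q x)
  let a : Γ ⧸ H → C := fun x => if hx : conjC x.out⁻¹ ∈ H then (v ⟨x, hx⟩ : C) else 0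
  obtain ⟨z, hz⟩ := exists_realComp_eq γ h hC hNH hγ a fun x hx => by
    simp only [a, dif_pos hx]
    exact mem_fixV.mp (v ⟨x, hx⟩).2
  refine ⟨z, funext fun x => ?_⟩
  rw [← hv x]
  refine fixObstruction_eq Q.j Q.j_surjective _ (realInv_mul_self _ x.2) ((hz x.1 x.2).trans ?_)
  simp only [a, dif_pos x.2]

theorem ker_obstructionMap (h : VeryLarge p S N) (hC : CFTInputs p) (hNH : N ≤ H)
    [FiniteDimensional (ZMod p) C] (hβ : TrivialOn H β N) (hγ : TrivialOn H γ N)
    (Q : Ses α β γ) :
    LinearMap.ker (obstructionMap Q S) = LinearMap.range (Q.mj (levelsSOn H S)).map₂ := by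
  classical
  apply le_antisymm
  · intro z hz
    have hb : ∀ x : RealPoint H, ∃ b : B, β (realInv x.1.out⁻¹ x.2) b = b ∧
        realComp (levelsSOn H S) γ _ (realInv_mul_self _ x.2) z = tateMk γ _ (Q.j b) := by
      intro x
      obtain ⟨v, hv, e⟩ := exists_fixed_realComp _ (realInv_mul_self _ x.2) z
      have h0 : fixObstruction Q.j Q.j_surjective _ (realInv_mul_self _ x.2) z = 0 :=
        congrFun hz x
      rw [fixObstruction_eq Q.j Q.j_surjective _ (realInv_mul_self _ x.2)
        (v := ⟨v, mem_fixV.mpr hv⟩) e,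
        Submodule.Quotient.mk_eq_zero] at h0
      obtain ⟨b, hb⟩ := h0
      refine ⟨b, mem_fixV.mp b.2, e.trans (congrArg _ ?_)⟩
      exact (congrArg Subtype.val hb).symm
    choose b hb1 hb2 using hb
    let a : Γ ⧸ H → B := fun x => if hx : conjC x.out⁻¹ ∈ H then b ⟨x, hx⟩ else 0
    obtain ⟨w, hw⟩ := exists_realComp_eq β h hC hNH hβ a fun x hx => by
      simp only [a, dif_pos hx]
      exact hb1 ⟨x, hx⟩
    have hzw : RealVanish γ (z - (Q.mj (levelsSOn H S)).map₂ w) := by
      refine realVanish_of_points fun x hx => ?_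
      have e := (realComp_map₂ (Q.mj (levelsSOn H S)) (realInv_mul_self _ hx)
        (realInv_mul_self _ hx) (ι := realInv x.out⁻¹ hx) rfl w).trans (congrArg _ (hw x hx))
      rw [map_sub, hb2 ⟨x, hx⟩, e, sub_eq_zero]
      simp only [a, dif_pos hx]
      exact (tateMap_mk (Q.mj (levelsSOn H S)) _ _).symm
    obtain ⟨w', hw'⟩ := mem_range_of_realVanish h hC hNH hβ hγ Q.j Q.j_surjective _ hzw
    refine ⟨w' + w, ?_⟩
    show (Q.mj (levelsSOn H S)).map₂ (w' + w) = z
    rw [map_add, hw', sub_add_cancel]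
  · rintro _ ⟨w, rfl⟩
    refine funext fun x => ?_
    obtain ⟨v, hv, e⟩ := exists_fixed_realComp (realInv x.1.out⁻¹ x.2)
      (realInv_mul_self _ x.2) w
    have e' := (realComp_map₂ (Q.mj (levelsSOn H S)) (realInv_mul_self _ x.2)
        (realInv_mul_self _ x.2) (ι := realInv x.1.out⁻¹ x.2) rfl w).trans (congrArg _ e)
    show fixObstruction Q.j Q.j_surjective (realInv x.1.out⁻¹ x.2) (realInv_mul_self _ x.2) _ = 0
    rw [fixObstruction_eq Q.j Q.j_surjective _ (realInv_mul_self _ x.2)
      (v := fixMap Q.j _ ⟨v, mem_fixV.mpr hv⟩)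
      (e'.trans (tateMap_mk (Q.mj (levelsSOn H S)) _ _)), Submodule.Quotient.mk_eq_zero]
    exact ⟨_, rfl⟩

open Classical in
theorem archTerm_eq (σ : Representation (ZMod p) ↥H B) (x : Γ ⧸ H) :
    archTerm H σ x = if h : conjC x.out⁻¹ ∈ H then
      2 * finrank (ZMod p) (fixV σ (realInv x.out⁻¹ h)) else finrank (ZMod p) B := by
  have e : x.out⁻¹ * complexConjugation * x.out = conjC x.out⁻¹ := by simp
  unfold archTerm
  by_cases h : conjC x.out⁻¹ ∈ H
  · have h' : x.out⁻¹ * complexConjugation * x.out ∈ H := e.symm ▸ h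
    rw [dif_pos h', dif_pos h, show (⟨_, h'⟩ : ↥H) = realInv x.out⁻¹ h from Subtype.ext e]
  · rw [dif_neg h, dif_neg (fun h' => h (e ▸ h'))]

theorem twiceArch_add (hH : fullLevels.mem H) (Q : Ses α β γ) [FiniteDimensional (ZMod p) A]
    [FiniteDimensional (ZMod p) B] [FiniteDimensional (ZMod p) C] [Fintype (RealPoint H)] :
    twiceArch H α + twiceArch H γ = twiceArch H β +
      2 * ∑ x : RealPoint H, (finrank (ZMod p) (FixCoker Q.j (realInv x.1.out⁻¹ x.2)) : ℤ) := by
  classical
  have : Finite (Γ ⧸ H) := finite_quotient hH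
  let : Fintype (Γ ⧸ H) := Fintype.ofFinite _
  have hdim : finrank (ZMod p) B = finrank (ZMod p) A + finrank (ZMod p) C := by
    have e1 := LinearMap.finrank_range_add_finrank_ker Q.j.toLinearMap
    rw [LinearMap.range_eq_top.mpr Q.j_surjective, finrank_top] at e1
    have e3 : LinearMap.ker Q.j.toLinearMap = LinearMap.range Q.i.toLinearMap :=
      Submodule.ext fun b => ⟨fun hb => Q.j_eq_zero_iff.mp hb, fun ⟨a, ha⟩ => ha ▸ Q.ji a⟩
    rw [e3, LinearMap.finrank_range_of_inj (Q.i_injective)] at e1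
    omega
  let d : Γ ⧸ H → ℤ := fun x => if h : conjC x.out⁻¹ ∈ H then
    (finrank (ZMod p) (FixCoker Q.j (realInv x.out⁻¹ h)) : ℤ) else 0
  have hs : ∑ x : RealPoint H, (finrank (ZMod p) (FixCoker Q.j (realInv x.1.out⁻¹ x.2)) : ℤ) =
      ∑ x : Γ ⧸ H, d x := by
    rw [← Finset.sum_filter_add_sum_filter_not Finset.univ
      (fun x : Γ ⧸ H => conjC x.out⁻¹ ∈ H) d,
      Finset.sum_eq_zero (s := Finset.univ.filter fun x : Γ ⧸ H => ¬ conjC x.out⁻¹ ∈ H)
        (fun x hx => dif_neg (by simpa using hx)), add_zero,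
      Finset.sum_subtype (p := fun x : Γ ⧸ H => conjC x.out⁻¹ ∈ H) _ (fun x => by simp) d]
    exact Finset.sum_congr rfl fun x _ => by simp only [d]; rw [dif_pos x.2]
  rw [hs, twiceArch, twiceArch, twiceArch, finsum_eq_sum_of_fintype, finsum_eq_sum_of_fintype,
    finsum_eq_sum_of_fintype, Finset.mul_sum, ← Finset.sum_add_distrib, ← Finset.sum_add_distrib]
  refine Finset.sum_congr rfl fun x _ => ?_
  rw [archTerm_eq, archTerm_eq, archTerm_eq]
  simp only [d]
  split_ifs with h
  · have := finrank_fixV Q (realInv x.out⁻¹ h)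
    omega
  · omega

/-- Additivity of the Euler defect, for very large `S`. -/
theorem eulerDefect_additive (h : VeryLarge p S N) (hC : CFTInputs p) (hNH : N ≤ H)
    [FiniteDimensional (ZMod p) B] (hβ : TrivialOn H β N) (Q : Ses α β γ)
    (hA : FiniteCoh S H α) (hγfin : FiniteCoh S H γ) :
    FiniteCoh S H β ∧ eulerDefect S H β = eulerDefect S H α + eulerDefect S H γ := by
  classical
  have hH := fullLevels.mono h.large.split_level.mem hNH
  have : Finite (Γ ⧸ H) := finite_quotient hH
  let : Fintype (Γ ⧸ H) := Fintype.ofFinite _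
  have := hA.1; have := hA.2; have := hγfin.1; have := hγfin.2
  have hγ : TrivialOn H γ N := fun x hx => LinearMap.ext fun c => by
    obtain ⟨b, rfl⟩ := Q.j_surjective c
    rw [← Q.j.isIntertwining, hβ x hx]; rfl
  have hcts : IsCtsRep (levelsSOn H S) β := isCtsRep_of_trivialOn h.large.level hβ
  have : FiniteDimensional (ZMod p) A :=
    FiniteDimensional.of_injective Q.i.toLinearMap Q.i_injective
  have : FiniteDimensional (ZMod p) C :=
    Module.Finite.of_surjective Q.j.toLinearMap Q.j_surjective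
  have := Q.finiteDimensional_H1_middle hcts (L := levelsSOn H S)
  have := Q.finiteDimensional_H2_middle hcts (L := levelsSOn H S)
  refine ⟨⟨inferInstance, inferInstance⟩, ?_⟩
  have he := Q.euler_identity hcts (L := levelsSOn H S)
  have hrk := LinearMap.finrank_range_add_finrank_ker (obstructionMap Q S)
  rw [ker_obstructionMap h hC hNH hβ hγ Q,
    LinearMap.range_eq_top.mpr (obstructionMap_surjective h hC hNH hγ Q), finrank_top,
    Module.finrank_pi_fintype] at hrk
  have ht := twiceArch_add hH Q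
  zify at hrk
  simp only [eulerDefect, chiS]
  linarith

end Fermat.Agent.GalCoh
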