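import Fermat.Agent.GalCoh.Transport

/-!
# The component of a two-class at an involution

For `ι` with `ι * ι = 1` and a two-cocycle `F`, the class of `F (ι, ι) + F (1, 1)` in
`V / (1 + ι) V` only depends on the class of `F`.
-/

set_option autoImplicit false

noncomputable section

namespace Fermat.Agent.GalCoh

open Representation (IntertwiningMap)

variable {k : Type} [CommRing k] {G : Type} [Group G] {V : Type} [AddCommGroup V] [Module k V]
  {L : Levels G}

/-- `V / (1 + ι) V`. -/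
abbrev TateQ (ρ : Representation k G V) (ι : G) : Type := V ⧸ LinearMap.range (ρ ι + 1)

/-- The class in `V / (1 + ι) V`. -/
abbrev tateMk (ρ : Representation k G V) (ι : G) : V →ₗ[k] TateQ ρ ι := Submodule.mkQ _

variable {ρ : Representation k G V}

theorem tateMk_eq_zero_iff {ι : G} {v : V} :
    tateMk ρ ι v = 0 ↔ ∃ w, ρ ι w + w = v := by
  simp [Submodule.Quotient.mk_eq_zero, LinearMap.mem_range]

theorem tateMk_add_act (ι : G) (w : V) : tateMk ρ ι (ρ ι w + w) = 0 :=
  tateMk_eq_zero_iff.mpr ⟨w, rfl⟩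

/-- When `2` is invertible the fixed vectors die in `V / (1 + ι) V`. -/
theorem tateMk_eq_zero_of_isUnit {ι : G} (h2 : IsUnit (2 : k)) {v : V} (hv : ρ ι v = v) :
    tateMk ρ ι v = 0 := by
  obtain ⟨u, hu⟩ := h2
  refine tateMk_eq_zero_iff.mpr ⟨(↑u⁻¹ : k) • v, ?_⟩
  rw [map_smul, hv, ← add_smul, ← two_mul, ← hu, Units.mul_inv, one_smul]

/-- `F (ι, ι) + F (1, 1)`. -/
def realVal (ι : G) : (G × G → V) →ₗ[k] V :=
  LinearMap.proj (R := k) (φ := fun _ : G × G => V) (ι, ι) +
    LinearMap.proj (R := k) (φ := fun _ : G × G => V) (1, 1)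

@[simp] theorem realVal_apply (ι : G) (F : G × G → V) :
    realVal (k := k) ι F = F (ι, ι) + F (1, 1) := rfl

theorem realVal_fixed {ι : G} (hι : ι * ι = 1) {F : G × G → V} (hF : F ∈ Z2 L ρ) :
    ρ ι (realVal (k := k) ι F) = realVal (k := k) ι F := by
  have h := (mem_Z2_iff.mp hF).1
  have h1 := h ι ι ι
  have h2 := h 1 1 ι
  have h3 := h ι 1 1
  simp only [hι, one_mul, mul_one, map_one, Module.End.one_apply] at h1 h2 h3
  rw [realVal_apply, map_add]
  rw [← sub_eq_zero] at h1 h2 h3 ⊢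
  linear_combination (norm := abel) -h1 - h2 - h3

variable (L ρ) in
/-- The component at the involution `ι`. -/
def realComp (ι : G) (hι : ι * ι = 1) : H2 L ρ →ₗ[k] TateQ ρ ι :=
  Submodule.liftQ _ (tateMk ρ ι ∘ₗ realVal (k := k) ι ∘ₗ (Z2 L ρ).subtype) fun c hc => by
    obtain ⟨x, -, hx⟩ := mem_B2_iff.mp (Submodule.mem_comap.mp hc)
    rw [LinearMap.mem_ker]
    refine tateMk_eq_zero_iff.mpr ⟨x ι, ?_⟩
    show _ = realVal (k := k) ι (c : G × G → V)
    rw [show (c : G × G → V) = d1 ρ x from hx.symm, realVal_apply, d1_apply, d1_apply, hι]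
    simp only [mul_one, map_one, Module.End.one_apply]
    abel

theorem realComp_mk (ι : G) (hι : ι * ι = 1) (c : ↥(Z2 L ρ)) :
    realComp L ρ ι hι (H2mk L ρ c) = tateMk ρ ι (realVal (k := k) ι (c : G × G → V)) := rfl

theorem exists_fixed_realComp (ι : G) (hι : ι * ι = 1) (z : H2 L ρ) :
    ∃ v, ρ ι v = v ∧ realComp L ρ ι hι z = tateMk ρ ι v := by
  obtain ⟨c, rfl⟩ := H2mk_surjective z
  exact ⟨_, realVal_fixed hι c.2, rfl⟩

theorem realComp_eq_zero_of_isUnit (ι : G) (hι : ι * ι = 1) (h2 : IsUnit (2 : k)) (z : H2 L ρ) :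
    realComp L ρ ι hι z = 0 := by
  obtain ⟨v, hv, e⟩ := exists_fixed_realComp ι hι z
  rw [e, tateMk_eq_zero_of_isUnit h2 hv]

section Natural

variable {G' : Type} [Group G'] {W : Type} [AddCommGroup W] [Module k W] {L' : Levels G'}
  {σ : Representation k G' W}

/-- The map induced on `V / (1 + ι) V` by a morphism. -/
def tateMap (m : Mor L L' ρ σ) {ι : G} {ι' : G'} (hf : m.f ι' = ι) :
    TateQ ρ ι →ₗ[k] TateQ σ ι' :=
  Submodule.mapQ _ _ m.φ fun v hv => by
    obtain ⟨w, rfl⟩ := hv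
    exact ⟨m.φ w, by simp [← m.comm, hf]⟩

theorem tateMap_mk (m : Mor L L' ρ σ) {ι : G} {ι' : G'} (hf : m.f ι' = ι) (v : V) :
    tateMap m hf (tateMk ρ ι v) = tateMk σ ι' (m.φ v) := rfl

theorem realComp_map₂ (m : Mor L L' ρ σ) {ι : G} {ι' : G'} (hι : ι * ι = 1) (hι' : ι' * ι' = 1)
    (hf : m.f ι' = ι) (z : H2 L ρ) :
    realComp L' σ ι' hι' (m.map₂ z) = tateMap m hf (realComp L ρ ι hι z) := by
  obtain ⟨c, rfl⟩ := H2mk_surjective z
  rw [Mor.map₂_mk, realComp_mk, realComp_mk, tateMap_mk]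
  refine congrArg _ ?_
  show m.φ ((c : G × G → V) (m.f ι', m.f ι')) + m.φ ((c : G × G → V) (m.f 1, m.f 1)) = _
  rw [hf, map_one, realVal_apply, map_add]

theorem realComp_map₂_eq_zero (m : Mor L L' ρ σ) {ι : G} {ι' : G'} (hι : ι * ι = 1)
    (hι' : ι' * ι' = 1) (hf : m.f ι' = ι) {z : H2 L ρ} (hz : realComp L ρ ι hι z = 0) :
    realComp L' σ ι' hι' (m.map₂ z) = 0 := by
  rw [realComp_map₂ m hι hι' hf, hz, map_zero]

end Natural

/-- Components at conjugate involutions correspond. -/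
theorem realComp_conj {g ι ι' : G} (hι : ι * ι = 1) (hι' : ι' * ι' = 1)
    (e : g * ι' * g⁻¹ = ι) (z : H2 L ρ) :
    realComp L ρ ι' hι' z =
      tateMap (conjMor L ρ g) (ι := ι) e (realComp L ρ ι hι z) := by
  conv_lhs => rw [← conjMor_map₂ (ρ := ρ) g z]
  exact realComp_map₂ _ hι hι' e z

theorem realComp_conj_eq_zero {g ι ι' : G} (hι : ι * ι = 1) (hι' : ι' * ι' = 1)
    (e : g * ι' * g⁻¹ = ι) {z : H2 L ρ} (hz : realComp L ρ ι hι z = 0) :
    realComp L ρ ι' hι' z = 0 := by
  rw [realComp_conj hι hι' e, hz, map_zero]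

section Sum

variable {X : Type} [MulAction G X]

open Classical in
/-- Only the fixed points contribute to the sum. -/
theorem tateMk_sum [Fintype X] {ι : G} (hι : ι * ι = 1) {f : X → V}
    (hf : permRep ρ X ι f = f) :
    tateMk ρ ι (∑ x, f x) = ∑ x ∈ Finset.univ.filter (fun x => ι • x = x), tateMk ρ ι (f x) := by
  have hinv : ι⁻¹ = ι := inv_eq_of_mul_eq_one_right hι
  have hff : ∀ x, f (ι • x) = ρ ι (f x) := fun x => by
    have := congrFun hf (ι • x)
    rw [permRep_apply, inv_smul_smul] at this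
    exact this.symm
  rw [map_sum, ← Finset.sum_filter_add_sum_filter_not Finset.univ (fun x => ι • x = x)]
  simp only [add_eq_left]
  refine Finset.sum_involution (fun x _ => ι • x) (fun x _ => ?_) (fun x hx _ => ?_)
    (fun x hx => ?_) fun x _ => ?_
  · rw [← map_add, hff, add_comm (f x)]
    exact tateMk_add_act ι _
  · simpa using hx
  · simp only [Finset.mem_filter, Finset.mem_univ, true_and] at hx ⊢
    rw [smul_smul, hι, one_smul]
    exact fun h => hx h.symm
  · rw [smul_smul, hι, one_smul]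

open Classical in
/-- The component of a summed class. -/
theorem realComp_sum [Fintype X] {ι : G} (hι : ι * ι = 1) (z : H2 L (permRep ρ X)) :
    ∃ f : X → V, permRep ρ X ι f = f ∧
      realComp L (permRep ρ X) ι hι z = tateMk _ ι f ∧
      realComp L ρ ι hι ((Mor.ofMap L (sumMap ρ X)).map₂ z) =
        ∑ x ∈ Finset.univ.filter (fun x => ι • x = x), tateMk ρ ι (f x) := by
  obtain ⟨f, hf, e⟩ := exists_fixed_realComp ι hι z
  refine ⟨f, hf, e, ?_⟩
  rw [realComp_map₂ (Mor.ofMap L (sumMap ρ X)) hι hι (ι := ι) rfl, e, ← tateMk_sum hι hf,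
    ← sumMap_apply (ρ := ρ) f]
  rfl

/-- A summed class has no component at an involution without fixed points. -/
theorem realComp_sum_eq_zero [Fintype X] {ι : G} (hι : ι * ι = 1) (hfree : ∀ x : X, ι • x ≠ x)
    (z : H2 L (permRep ρ X)) :
    realComp L ρ ι hι ((Mor.ofMap L (sumMap ρ X)).map₂ z) = 0 := by
  classical
  obtain ⟨f, -, -, e⟩ := realComp_sum hι z
  rw [e]
  exact Finset.sum_eq_zero fun x hx => absurd (Finset.mem_filter.mp hx).2 (hfree x)

end Sum

section Delta

variable {k' : Type} [Field k'] {A B C : Type} [AddCommGroup A] [Module k' A] [AddCommGroup B]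
  [Module k' B] [AddCommGroup C] [Module k' C] {α : Representation k' G A}
  {β : Representation k' G B} {γ : Representation k' G C}

/-- The component of a connecting class. -/
theorem realComp_δ₁ (S : Ses α β γ) (hβ : IsCtsRep L β) (ι : G) (hι : ι * ι = 1)
    (c : ↥(Z1 L γ)) :
    realComp L α ι hι (S.δ₁ hβ (H1mk L γ c)) =
      tateMk α ι (S.r (β ι (S.s ((c : G → C) ι)) + S.s ((c : G → C) ι))) := by
  rw [Ses.δ₁_mk, realComp_mk]
  refine congrArg _ ?_
  show S.r (d1 β _ (ι, ι)) + S.r (d1 β _ (1, 1)) = _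
  rw [← map_add, d1_apply, d1_apply]
  refine congrArg _ ?_
  simp only [hι, mul_one, map_one, Z1.map_one c.2, map_zero]
  abel

end Delta

end Fermat.Agent.GalCoh
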