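import Fermat.Agent.GalCoh.Cochain
import Fermat.Agent.GalCoh.Descent.Inertia
import Fermat.Prelude.Def_GaloisRep_ComplexConjugation
import Mathlib.FieldTheory.PrimitiveElement

/-!
# Quadratic characters with prescribed signs

For an open subgroup `K` and a real place of its fixed field, a homomorphism `K → ZMod 2` with
open kernel which is nontrivial at that place only among the real ones.
-/

set_option autoImplicit false

noncomputable section

namespace Fermat.Agent.GalCoh

local notation "Ω" => AlgebraicClosure ℚ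
local notation "Γ" => (AlgebraicClosure ℚ ≃ₐ[ℚ] AlgebraicClosure ℚ)

local instance isAlgebraicQbar_signs : Algebra.IsAlgebraic ℚ (AlgebraicClosure ℚ) :=
  AlgebraicClosure.isAlgebraic ℚ
local instance isGaloisQbar_signs : IsGalois ℚ (AlgebraicClosure ℚ) :=
  have : IsAlgClosure ℚ (AlgebraicClosure ℚ) := ⟨inferInstance, inferInstance⟩
  have : Normal ℚ (AlgebraicClosure ℚ) := IsAlgClosure.normal ℚ (AlgebraicClosure ℚ)
  have : Algebra.IsSeparable ℚ (AlgebraicClosure ℚ) :=
    Algebra.IsAlgebraic.isSeparable_of_perfectField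
  IsGalois.mk

theorem fixingSubgroup_fixedField_of_mem {K : Subgroup Γ} (hK : fullLevels.mem K) :
    (IntermediateField.fixedField K).fixingSubgroup = K ∧
      FiniteDimensional ℚ (IntermediateField.fixedField K) := by
  obtain ⟨F₀, hF₀, hle⟩ := hK
  have hopen : IsOpen (K : Set Γ) := Subgroup.isOpen_mono hle F₀.fixingSubgroup_isOpen
  refine ⟨InfiniteGalois.fixingSubgroup_fixedField ⟨K, K.isClosed_of_isOpen hopen⟩, ?_⟩
  have hFle : IntermediateField.fixedField K ≤ F₀ := by
    rw [← InfiniteGalois.fixedField_fixingSubgroup F₀]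
    exact IntermediateField.fixedField_antitone hle
  exact FiniteDimensional.of_injective (IntermediateField.inclusion hFle).toLinearMap
    (IntermediateField.inclusion_injective hFle)

/-- An element with stabilizer `K`. -/
theorem exists_stabilizer_eq {K : Subgroup Γ} (hK : fullLevels.mem K) :
    ∃ α : Ω, ∀ σ : Γ, σ α = α ↔ σ ∈ K := by
  obtain ⟨hfix, hfin⟩ := fixingSubgroup_fixedField_of_mem hK
  let L := IntermediateField.fixedField K
  have : FiniteDimensional ℚ L := hfin
  obtain ⟨α, hα⟩ := Field.exists_primitive_element ℚ L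
  refine ⟨α, fun σ => ⟨fun h => ?_, fun h => α.2 ⟨σ, h⟩⟩⟩
  rw [← hfix, IntermediateField.mem_fixingSubgroup_iff]
  have hle : L ≤ IntermediateField.fixedField (Subgroup.zpowers σ) := by
    have hα' : (⊤ : IntermediateField ℚ L) ≤
        (IntermediateField.fixedField (Subgroup.zpowers σ)).comap L.val := by
      rw [← hα]
      refine IntermediateField.adjoin_le_iff.mpr (Set.singleton_subset_iff.mpr ?_)
      rintro ⟨τ, hτ⟩
      obtain ⟨n, rfl⟩ := Subgroup.mem_zpowers_iff.mp hτ
      have hs : σ ∈ MulAction.stabilizer Γ ((α : L) : Ω) := h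
      exact zpow_mem hs n
    exact fun x hx => hα' (IntermediateField.mem_top : (⟨x, hx⟩ : L) ∈ ⊤)
  exact fun x hx => hle hx ⟨σ, Subgroup.mem_zpowers σ⟩

theorem complexEmbedding_apply_eq_iff (x : Ω) :
    complexConjugation x = x ↔ starRingEnd ℂ (complexEmbedding x) = complexEmbedding x := by
  rw [← complexEmbedding_complexConjugation]
  exact ⟨fun h => by rw [h], fun h => (complexEmbedding : Ω →ₐ[ℚ] ℂ).toRingHom.injective h⟩

/-- `c` fixes a square root exactly when the real value of the square is not negative. -/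
theorem complexConjugation_sqrt {β : Ω} {e : ℝ} (he : complexEmbedding (β * β) = (e : ℂ))
    (h0 : e ≠ 0) : complexConjugation β = β ↔ 0 < e := by
  rw [complexEmbedding_apply_eq_iff, Complex.conj_eq_iff_im]
  rw [map_mul, Complex.ext_iff] at he
  simp only [Complex.mul_re, Complex.mul_im, Complex.ofReal_re, Complex.ofReal_im] at he
  obtain ⟨hre, him⟩ := he
  constructor
  · intro hi
    rw [hi] at hre
    rcases lt_or_gt_of_ne h0 with h | h
    · nlinarith [mul_self_nonneg (complexEmbedding β).re]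
    · exact h
  · intro h
    by_contra hi
    have : (complexEmbedding β).re = 0 := by
      have := mul_eq_zero.mp (show (complexEmbedding β).re * (complexEmbedding β).im = 0 by
        linarith)
      rcases this with h' | h'
      · exact h'
      · exact absurd h' hi
    rw [this] at hre
    nlinarith [mul_self_nonneg (complexEmbedding β).im]

/-- A sign character: nontrivial at the real place `x₀` of `K` only, among real places. -/
theorem exists_sign_character {K : Subgroup Γ} (hK : fullLevels.mem K) (g₀ : Γ)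
    (h₀ : g₀ * complexConjugation * g₀⁻¹ ∈ K) :
    ∃ S₀ : Finset Nat.Primes, ∀ S, S₀ ⊆ S →
      ∃ θ ∈ Z1 ((levelsS S).comap K.subtype) (Representation.trivial (ZMod 2) ↥K (ZMod 2)),
        θ ⟨_, h₀⟩ = 1 ∧
        ∀ (g : Γ) (h : g * complexConjugation * g⁻¹ ∈ K),
          ((g⁻¹ : Γ) : Γ ⧸ K) ≠ ((g₀⁻¹ : Γ) : Γ ⧸ K) → θ ⟨_, h⟩ = 0 := by
  classical
  obtain ⟨α, hα⟩ := exists_stabilizer_eq hK
  have : Finite (Γ ⧸ K) := by
    have := fullLevels.finiteIndex hK
    exact Subgroup.finite_quotient_of_finiteIndex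
  have : Fintype (Γ ⧸ K) := Fintype.ofFinite _
  have hout : ∀ (g : Γ) (x : Γ ⧸ K), ((g⁻¹ : Γ) : Γ ⧸ K) = x → g⁻¹ α = x.out α := by
    intro g x hx
    rw [← x.out_eq] at hx
    have := (hα _).mpr (QuotientGroup.eq.mp hx.symm)
    rw [AlgEquiv.mul_apply] at this
    simpa [AlgEquiv.aut_inv] using congrArg x.out this
  have hreal : ∀ g : Γ, g * complexConjugation * g⁻¹ ∈ K →
      complexEmbedding (g⁻¹ α) = ((complexEmbedding (g⁻¹ α)).re : ℂ) := by
    intro g hg
    refine (Complex.conj_eq_iff_re.mp ?_).symm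
    rw [← complexEmbedding_apply_eq_iff]
    have := (hα _).mpr hg
    rw [AlgEquiv.mul_apply, AlgEquiv.mul_apply] at this
    simpa [AlgEquiv.aut_inv] using congrArg (g⁻¹ : Γ) this
  have hne : ∀ g : Γ, g * complexConjugation * g⁻¹ ∈ K →
      ((g⁻¹ : Γ) : Γ ⧸ K) ≠ ((g₀⁻¹ : Γ) : Γ ⧸ K) →
      (complexEmbedding (g⁻¹ α)).re ≠ (complexEmbedding (g₀⁻¹ α)).re := by
    intro g hg hx he
    have h1 : g⁻¹ α = g₀⁻¹ α := (complexEmbedding : Ω →ₐ[ℚ] ℂ).toRingHom.injective (by
      show complexEmbedding (g⁻¹ α) = complexEmbedding (g₀⁻¹ α)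
      rw [hreal g hg, hreal g₀ h₀, he])
    refine hx (QuotientGroup.eq.mpr ((hα _).mp ?_))
    rw [AlgEquiv.mul_apply, ← h1]
    simp [AlgEquiv.aut_inv]
  set r₀ := (complexEmbedding (g₀⁻¹ α)).re with hr₀
  let B : Finset ℝ := (Finset.univ.image fun x : Γ ⧸ K =>
    |(complexEmbedding (x.out α)).re - r₀|).filter (fun d => 0 < d)
  obtain ⟨δ, hδ, hδB⟩ : ∃ δ : ℝ, 0 < δ ∧ ∀ d ∈ B, δ ≤ d := by
    rcases B.eq_empty_or_nonempty with h | h
    · exact ⟨1, one_pos, by simp [h]⟩
    · exact ⟨B.min' h, (Finset.mem_filter.mp (B.min'_mem h)).2, fun d hd => B.min'_le d hd⟩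
  obtain ⟨t₁, ht₁, ht₁'⟩ := exists_rat_btwn (show r₀ - δ < r₀ by linarith)
  obtain ⟨t₂, ht₂, ht₂'⟩ := exists_rat_btwn (show r₀ < r₀ + δ by linarith)
  let a : Ω := (α - algebraMap ℚ Ω t₁) * (α - algebraMap ℚ Ω t₂)
  obtain ⟨β, hβ⟩ := IsAlgClosed.exists_eq_mul_self a
  have hval : ∀ g : Γ, g * complexConjugation * g⁻¹ ∈ K →
      complexEmbedding (g⁻¹ β * g⁻¹ β) =
        ((((complexEmbedding (g⁻¹ α)).re - t₁) * ((complexEmbedding (g⁻¹ α)).re - t₂) : ℝ) : ℂ) := by
    intro g hg
    rw [← map_mul, ← hβ]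
    simp only [a, map_mul, map_sub, AlgEquiv.commutes]
    rw [hreal g hg]
    simp
  have ha0 : a ≠ 0 := by
    intro h
    have := hval g₀ h₀
    rw [← map_mul, ← hβ, h, map_zero, map_zero, eq_comm, Complex.ofReal_eq_zero] at this
    rcases mul_eq_zero.mp this with h' | h' <;> linarith
  have hβ0 : β ≠ 0 := fun h => ha0 (by rw [hβ, h, zero_mul])
  have hfixa : ∀ σ ∈ K, σ β = β ∨ σ β = -β := fun σ hσ => by
    have : σ β * σ β = β * β := by
      rw [← map_mul, ← hβ]
      simp [a, (hα σ).mpr hσ]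
    exact mul_self_eq_mul_self_iff.mp this
  obtain ⟨S₀, hS₀⟩ := Descent.exists_levelsS_mem (N := MulAction.stabilizer Γ β) (by
    refine ⟨IntermediateField.adjoin ℚ {β}, IntermediateField.adjoin.finiteDimensional
      (Algebra.IsIntegral.isIntegral β), fun σ hσ => ?_⟩
    exact (IntermediateField.mem_fixingSubgroup_iff _ _).mp hσ β
      (IntermediateField.mem_adjoin_simple_self ℚ β))
  refine ⟨S₀, fun S hS => ?_⟩
  let θ : ↥K → ZMod 2 := fun σ => if (σ : Γ) β = β then 0 else 1
  have hneg : (-β : Ω) ≠ β := fun h => hβ0 (CharZero.neg_eq_self_iff.mp h)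
  refine ⟨θ, mem_Z1_iff.mpr ⟨fun σ τ => ?_, ?_⟩, ?_, fun g hg hx => ?_⟩
  · rcases hfixa _ σ.2 with h1 | h1 <;> rcases hfixa _ τ.2 with h2 | h2 <;>
      simp [θ, h1, h2, hneg, AlgEquiv.mul_apply] <;> decide
  · obtain ⟨F, hF, hFle⟩ := hS₀
    refine ⟨(MulAction.stabilizer Γ β).comap K.subtype, ⟨_, ⟨F, hF.mono hS, hFle⟩,
      le_rfl⟩, fun σ s hs => ?_⟩
    have hs' : (s : Γ) β = β := hs
    simp [θ, AlgEquiv.mul_apply, hs']
  · have h := (complexConjugation_sqrt (hval g₀ h₀) (mul_ne_zero (by linarith) (by linarith)))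
    have hlt : ¬ 0 < (r₀ - t₁) * (r₀ - t₂) := by
      have : 0 < r₀ - t₁ := by linarith
      nlinarith
    simp only [θ]
    rw [if_neg]
    intro e
    refine hlt (h.mp ?_)
    simpa [AlgEquiv.mul_apply, AlgEquiv.aut_inv] using congrArg (g₀⁻¹ : Γ) e
  · have hd : δ ≤ |(complexEmbedding (g⁻¹ α)).re - r₀| := by
      refine hδB _ (Finset.mem_filter.mpr ⟨Finset.mem_image.mpr
        ⟨((g⁻¹ : Γ) : Γ ⧸ K), Finset.mem_univ _, ?_⟩, ?_⟩)
      · rw [← hout g _ rfl]
      · exact abs_pos.mpr (sub_ne_zero.mpr (hne g hg hx))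
    have hpos : 0 < ((complexEmbedding (g⁻¹ α)).re - t₁) *
        ((complexEmbedding (g⁻¹ α)).re - t₂) := by
      rcases le_abs'.mp hd with h' | h' <;> nlinarith
    have h := (complexConjugation_sqrt (hval g hg) hpos.ne').mpr hpos
    simp only [θ]
    rw [if_pos]
    simpa [AlgEquiv.mul_apply, AlgEquiv.aut_inv] using congrArg g h

end Fermat.Agent.GalCoh
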