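import Fermat.Agent.GalCoh.Corestrict
import Fermat.Agent.GalCoh.Involution
import Fermat.Agent.GalCoh.Signs

/-!
# Real components, and classes with coefficients `μ_p` that are corestrictions
-/

set_option autoImplicit false

noncomputable section

namespace Fermat.Agent.GalCoh

open ExtCitation Representation MulAction

local notation "Γ" => (AlgebraicClosure ℚ ≃ₐ[ℚ] AlgebraicClosure ℚ)

/-- The complex conjugation at `g`. -/
abbrev conjC (g : Γ) : Γ := g * complexConjugation * g⁻¹

theorem conjC_mul_self (g : Γ) : conjC g * conjC g = 1 :=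
  calc g * complexConjugation * g⁻¹ * (g * complexConjugation * g⁻¹)
      = g * (complexConjugation * complexConjugation) * g⁻¹ := by group
    _ = 1 := by rw [complexConjugation_mul_self, mul_one, mul_inv_cancel]

/-- The complex conjugation at `g`, in `K`. -/
abbrev realInv {K : Subgroup Γ} (g : Γ) (h : conjC g ∈ K) : ↥K := ⟨conjC g, h⟩

theorem realInv_mul_self {K : Subgroup Γ} (g : Γ) (h : conjC g ∈ K) :
    realInv g h * realInv g h = 1 :=
  Subtype.ext (conjC_mul_self g)

variable {p : ℕ} [Fact p.Prime] {S : Finset Nat.Primes} {K N : Subgroup Γ}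

section

variable {W : Type} [AddCommGroup W] [Module (ZMod p) W]

/-- All real components of a class vanish. -/
def RealVanish {L : Levels ↥K} (σ : Representation (ZMod p) ↥K W) (z : H2 L σ) : Prop :=
  ∀ (g : Γ) (h : conjC g ∈ K), realComp L σ (realInv g h) (realInv_mul_self g h) z = 0

theorem realVanish_of_ne_two (hp : p ≠ 2) {L : Levels ↥K} (σ : Representation (ZMod p) ↥K W)
    (z : H2 L σ) : RealVanish σ z := fun g h => by
  refine realComp_eq_zero_of_isUnit _ _ ((ne_of_apply_ne (ZMod.val) ?_).isUnit) z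
  have h2 : 2 < p := lt_of_le_of_ne (Fact.out : p.Prime).two_le (Ne.symm hp)
  rw [ZMod.val_zero, show ((2 : ZMod p)) = ((2 : ℕ) : ZMod p) by norm_num,
    ZMod.val_natCast_of_lt h2]
  norm_num

end

theorem arch_cases (u : Unit) (d : placeGroup (Sum.inl u)) :
    d = 1 ∨ placeLoc (Sum.inl u) d = complexConjugation := by
  obtain ⟨x, hx⟩ := d
  obtain ⟨n, rfl⟩ := Subgroup.mem_zpowers_iff.mp hx
  rcases Int.even_or_odd' n with ⟨m, rfl | rfl⟩
  · refine Or.inl (Subtype.ext ?_)
    show complexConjugation ^ (2 * m) = 1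
    rw [zpow_mul, zpow_two, complexConjugation_mul_self, one_zpow]
  · refine Or.inr ?_
    show complexConjugation ^ (2 * m + 1) = _
    rw [zpow_add_one, zpow_mul, zpow_two, complexConjugation_mul_self, one_zpow, one_mul]

theorem placeLoc_injective_inl (u : Unit) : Function.Injective (placeLoc (Sum.inl u)) :=
  Subtype.val_injective

/-- A real component vanishes with the component at the archimedean place. -/
theorem realComp_eq_zero_of_compS (u : Unit) (g : Γ) (h : conjC g ∈ K)
    {z : H2 (levelsSOn K S) (muOn p K)} (hz : compS p S K (Sum.inl u) g z = 0) :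
    realComp (levelsSOn K S) (muOn p K) (realInv g h) (realInv_mul_self g h) z = 0 := by
  let d : ↥(decompIn K (Sum.inl u) g) := ⟨archimedeanGen, h⟩
  have hd : d * d = 1 := Subtype.ext (placeLoc_injective_inl u (by
    show placeLoc (Sum.inl u) (d.1 * d.1) = placeLoc (Sum.inl u) 1
    rw [map_mul, map_one]
    exact complexConjugation_mul_self))
  have e := realComp_map₂ (Mor.res (levelsSOn K S) _ (muOn p K) (decompToH K (Sum.inl u) g)
    (compat_decompToH K S _ g)) (realInv_mul_self g h) hd rfl z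
  rw [← compS_eq_res, hz, map_zero] at e
  obtain ⟨v, -, hv⟩ := exists_fixed_realComp (realInv g h) (realInv_mul_self g h) z
  rw [hv]
  rw [hv] at e
  exact e.symm

/-- The component at an archimedean place vanishes if the real component does. -/
theorem compS_inl_eq_zero (hN : IsSplittingLevel p N) (u : Unit) (g : Γ)
    {z : H2 (levelsSOn K S) (muOn p K)}
    (hz : ∀ h : conjC g ∈ K,
      realComp (levelsSOn K S) (muOn p K) (realInv g h) (realInv_mul_self g h) z = 0) :
    compS p S K (Sum.inl u) g z = 0 := by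
  classical
  obtain ⟨F, rfl⟩ := H2mk_surjective z
  have hF := (mem_Z2_iff.mp F.2).1
  obtain ⟨w, hw⟩ : ∃ w : ZMod p, ∀ h : conjC g ∈ K,
      muOn p K (realInv g h) w + w =
        realVal (k := ZMod p) (realInv g h) (F : ↥K × ↥K → ZMod p) := by
    by_cases h : conjC g ∈ K
    · obtain ⟨w, hw⟩ := tateMk_eq_zero_iff.mp (hz h)
      exact ⟨w, fun _ => hw⟩
    · exact ⟨0, fun h' => absurd h' h⟩
  rw [compS_eq_res, Mor.map₂_mk, H2mk_eq_zero_iff, mem_B2_iff]
  let f := decompToH K (Sum.inl u) g
  have hf : ∀ d : ↥(decompIn K (Sum.inl u) g),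
      d = 1 ∨ ∃ h : conjC g ∈ K, f d = realInv g h ∧ d ≠ 1 := fun d => by
    rcases arch_cases u d.1 with h | h
    · exact Or.inl (Subtype.ext h)
    · have hd : g * placeLoc (Sum.inl u) d.1 * g⁻¹ ∈ K := d.2
      rw [h] at hd
      refine Or.inr ⟨hd, Subtype.ext ?_, fun h1 => ?_⟩
      · show g * placeLoc (Sum.inl u) d.1 * g⁻¹ = _
        rw [h]
      · rw [h1] at h
        exact hN.complex (h ▸ (map_one (placeLoc (Sum.inl u))).symm ▸ N.one_mem)
  have key : ∀ d d' : ↥(decompIn K (Sum.inl u) g), d ≠ 1 → d' ≠ 1 → d * d' = 1 := by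
    intro d d' hd hd'
    refine Subtype.ext (placeLoc_injective_inl u ?_)
    have e1 := (arch_cases u d.1).resolve_left fun h => hd (Subtype.ext h)
    have e2 := (arch_cases u d'.1).resolve_left fun h => hd' (Subtype.ext h)
    show placeLoc (Sum.inl u) (d.1 * d'.1) = placeLoc (Sum.inl u) 1
    rw [map_mul, map_one, e1, e2, complexConjugation_mul_self]
  let x : ↥(decompIn K (Sum.inl u) g) → ZMod p := fun d =>
    if d = 1 then (F : ↥K × ↥K → ZMod p) (1, 1) else w
  refine ⟨x, ⟨(N.subgroupOf K).comap f, ⟨N.subgroupOf K, ⟨N, hN.mem, le_rfl⟩, le_rfl⟩,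
    fun d s hs => ?_⟩, ?_⟩
  · rcases hf s with h | ⟨h, e, -⟩
    · rw [h, mul_one]
    · have : conjC g ∈ N := by
        have h' : (f s : Γ) ∈ N := hs
        rwa [e] at h'
      have := hN.normal.conj_mem _ this g⁻¹
      exact absurd (by simpa [mul_assoc] using this) hN.complex
  · funext ⟨a, b⟩
    show d1 _ x (a, b) = (F : ↥K × ↥K → ZMod p) (f a, f b)
    rw [d1_apply]
    show muOn p K (f a) (x b) - x (a * b) + x a = _
    rcases hf a with rfl | ⟨ha, ea, ha1⟩
    · rw [one_mul, map_one, map_one, Module.End.one_apply, sub_self, zero_add]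
      rcases hf b with rfl | ⟨hb, eb, hb1⟩
      · simp [x]
      · have h2 := hF 1 1 (f b)
        simp only [one_mul, map_one, Module.End.one_apply] at h2
        simp only [x, if_true]
        linear_combination (norm := abel) h2
    · rw [ea]
      rcases hf b with rfl | ⟨hb, eb, hb1⟩
      · have h3 := hF (realInv g ha) 1 1
        simp only [mul_one] at h3
        simp only [x, if_true, mul_one, map_one, if_neg ha1]
        linear_combination (norm := abel) -h3
      · rw [key a b ha1 hb1, eb]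
        simp only [x, if_true, if_neg ha1, if_neg hb1]
        have := hw ha
        rw [realVal_apply] at this
        linear_combination (norm := abel) this

/-- `S` is large for `N`, with sign characters. -/
structure VeryLarge (p : ℕ) [Fact p.Prime] (S : Finset Nat.Primes) (N : Subgroup Γ) : Prop where
  large : LargeS p S N
  sign : p = 2 → ∀ K : Subgroup Γ, N ≤ K → ∀ (g₀ : Γ) (h₀ : conjC g₀ ∈ K),
    ∃ θ ∈ Z1 (levelsSOn K S) (Representation.trivial (ZMod p) ↥K (ZMod p)),
      θ (realInv g₀ h₀) = 1 ∧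
      ∀ (g : Γ) (h : conjC g ∈ K), placePoint K g ≠ placePoint K g₀ → θ (realInv g h) = 0

theorem compS_eq_zero_of_samePlace {v v' : Place} {g g' : Γ}
    (hmu : ∀ σ ∈ K, cycloChar p σ = 1) (h : SamePlace K v g v' g')
    {z : H2 (levelsSOn K S) (muOn p K)} (hz : compS p S K v g z = 0) :
    compS p S K v' g' z = 0 := by
  obtain ⟨rfl, -⟩ := id h
  exact placeMor_eq_zero_of_samePlace hmu h hz

theorem samePlace_out (v : Place) (g : Γ) :
    SamePlace K v (placePoint K g).out⁻¹ v g := by
  obtain ⟨⟨k, hk⟩, e⟩ := QuotientGroup.mk_out_eq_mul K g⁻¹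
  exact ⟨rfl, k, hk, 1, by rw [show (placePoint K g).out = g⁻¹ * k from e, map_one]; group⟩

theorem placePoint_eq_of_samePlace_inl {u : Unit} {g g' : Γ} (h : conjC g ∈ K)
    (hs : SamePlace K (Sum.inl u) g (Sum.inl u) g') : placePoint K g = placePoint K g' := by
  obtain ⟨-, x, hx, d, rfl⟩ := hs
  rw [QuotientGroup.eq, inv_inv]
  rcases arch_cases u d with hd | hd
  · rw [hd, map_one]
    simpa [mul_assoc] using K.inv_mem hx
  · rw [hd]
    have := K.mul_mem h (K.inv_mem hx)
    simpa [mul_assoc, complexConjugation_inv] using this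

theorem exists_add_smul_eq {R A B : Type} [Ring R] [AddCommGroup A] [Module R A] [AddCommGroup B]
    [Module R B] (f : A →ₗ[R] B) (y y' : A) (z : B) (a : R) (h : f y' = z - a • f y) :
    ∃ x, f x = z :=
  ⟨y' + a • y, by rw [map_add, map_smul, h, sub_add_cancel]⟩

/-- A class of `K` with values in `μ_p` and no real component is a corestriction from `N`. -/
theorem exists_corNK_eq (h : LargeS p S N) (hC : CFTInputs p) (hK : N ≤ K)
    (hmu : ∀ σ ∈ K, cycloChar p σ = 1) (z : H2 (levelsSOn K S) (muOn p K))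
    (hz : RealVanish (muOn p K) z) : ∃ y, corNK h K y = z := by
  classical
  have := finite_quotient (h.mem_of_le hK)
  let : Fintype (Γ ⧸ K) := Fintype.ofFinite _
  obtain ⟨q₀, hq₀S, hq₀⟩ := h.split
  let bad : H2 (levelsSOn K S) (muOn p K) → Finset ({q // q ∈ S} × (Γ ⧸ K)) := fun z =>
    Finset.univ.filter fun i => ¬ SamePlace K (Sum.inr q₀) 1 (Sum.inr i.1.1) i.2.out⁻¹ ∧
      compS p S K (Sum.inr i.1.1) i.2.out⁻¹ z ≠ 0
  have hbad : ∀ z i, i ∈ bad z ↔ ¬ SamePlace K (Sum.inr q₀) 1 (Sum.inr i.1.1) i.2.out⁻¹ ∧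
      compS p S K (Sum.inr i.1.1) i.2.out⁻¹ z ≠ 0 := fun z i =>
    Finset.mem_filter.trans (and_iff_right (Finset.mem_univ i))
  clear_value bad
  suffices H : ∀ n z, (bad z).card ≤ n → (∀ u g, compS p S K (Sum.inl u) g z = 0) →
      ∃ y, corNK h K y = z from
    H _ z le_rfl fun u g => compS_inl_eq_zero h.split_level u g fun hg => hz g hg
  intro n
  induction n with
  | zero =>
    intro z hb hinf
    refine ⟨0, ?_⟩
    rw [map_zero]
    symm
    have hoff : ∀ v g, InPlaces S v → ¬ SamePlace K (Sum.inr q₀) 1 v g →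
        compS p S K v g z = 0 := by
      rintro (u | q) g hq hns
      · exact hinf u g
      · refine compS_eq_zero_of_samePlace hmu (samePlace_out _ g) ?_
        by_contra hne
        have : ((⟨q, hq⟩ : {q // q ∈ S}), placePoint K g) ∈ bad z :=
          (hbad _ _).mpr ⟨fun hs => hns (hs.trans (samePlace_out _ g)), hne⟩
        simp [Finset.card_eq_zero.mp (Nat.le_zero.mp hb)] at this
    refine (h.good K hK).eq_zero hC.hasseInjective z fun v g hv => ?_
    by_cases hs : SamePlace K (Sum.inr q₀) 1 v g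
    · exact compS_eq_zero_of_samePlace hmu hs
        (compS_split_eq_zero h hK hC.reciprocity hq₀S hq₀ 1 z hoff)
    · exact hoff v g hv hs
  | succ n ih =>
    intro z hb hinf
    rcases (bad z).eq_empty_or_nonempty with he | ⟨⟨⟨q, hq⟩, x⟩, hi⟩
    · exact ih z (by simp [he]) hinf
    obtain ⟨hns, hne⟩ := (hbad _ _).mp hi
    obtain ⟨y₀, hy2, hy3⟩ := (hC.twoPlaceClasses N h.split_level.mem h.split_level.normal
      h.split_level.mu h.split_level.complex q₀ hq₀ 1).1 q x.out⁻¹ fun hs => by
        obtain ⟨e, k, hk, d, hd⟩ := hs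
        exact hns ⟨e, k, hK hk, d, hd⟩
    obtain ⟨y, hy⟩ := (h.good N le_rfl).surj y₀ fun v g hv => by
      refine hy3 v g (fun hs => hv ?_) fun hs => hv ?_
      · obtain ⟨rfl, -⟩ := hs; exact hq₀S
      · obtain ⟨rfl, -⟩ := hs; exact hq
    have hyc : ∀ v g, compS p S N v g y = (placeMor p N v g).map₂ y₀ := fun v g => by
      rw [compS, LinearMap.comp_apply, hy]
    have lift : ∀ {v v' : Place} {g g' : Γ}, SamePlace N v g v' g' → SamePlace K v g v' g' :=
      fun ⟨e, k, hk, d, hd⟩ => ⟨e, k, hK hk, d, hd⟩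
    have hsupp : ∀ v g, ¬ SamePlace K (Sum.inr q) x.out⁻¹ v g →
        ¬ SamePlace K (Sum.inr q₀) 1 v g → compS p S K v g (corNK h K y) = 0 := by
      refine fun v g hw hs => compS_corNK_eq_zero h v g y fun g' hg' => ?_
      rw [hyc]
      exact hy3 v g' (fun h1 => hs ((lift h1).trans hg'.symm))
        fun h1 => hw ((lift h1).trans hg'.symm)
    have hs0 : compS p S K (Sum.inr q₀) 1 (corNK h K y) ≠ 0 := by
      refine compS_corNK_ne_zero h hK hq₀ 1 y (fun g hg hgn => ?_) (by rwa [hyc])
      rw [hyc]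
      exact hy3 _ g hgn fun h1 => hns (hg.trans (lift h1).symm)
    have hw0 : compS p S K (Sum.inr q) x.out⁻¹ (corNK h K y) ≠ 0 := fun h0 => by
      refine hs0 (compS_split_eq_zero h hK hC.reciprocity hq₀S hq₀ 1 _ fun v g hv hs => ?_)
      by_cases hw : SamePlace K (Sum.inr q) x.out⁻¹ v g
      · exact compS_eq_zero_of_samePlace hmu hw h0
      · exact hsupp v g hw hs
    obtain ⟨a, ha⟩ := hC.localH2Cyclic K (h.good K hK).full (Sum.inr q) x.out⁻¹ _
      (compS p S K (Sum.inr q) x.out⁻¹ z) hw0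
    have hsub : ∀ v g, compS p S K v g (z - a • corNK h K y) =
        compS p S K v g z - a • compS p S K v g (corNK h K y) := fun v g =>
      (map_sub _ _ _).trans (congrArg _ (map_smul _ _ _))
    have hzero : compS p S K (Sum.inr q) x.out⁻¹ (z - a • corNK h K y) = 0 :=
      (hsub _ _).trans (sub_eq_zero.mpr ha)
    have hcard : (bad (z - a • corNK h K y)).card ≤ n := by
      refine Nat.lt_succ_iff.mp (lt_of_lt_of_le (Finset.card_lt_card ?_) hb)
      rw [Finset.ssubset_iff_of_subset]
      · exact ⟨_, hi, fun hh => ((hbad _ _).mp hh).2 hzero⟩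
      · intro i hi'
        obtain ⟨hns', hne'⟩ := (hbad _ _).mp hi'
        refine (hbad _ _).mpr ⟨hns', fun h0 => hne' ?_⟩
        by_cases hw : SamePlace K (Sum.inr q) x.out⁻¹ (Sum.inr i.1.1) i.2.out⁻¹
        · exact compS_eq_zero_of_samePlace hmu hw hzero
        · refine (hsub _ _).trans ?_
          rw [h0, hsupp _ _ hw hns', smul_zero, sub_zero]
    have hinf' : ∀ u g, compS p S K (Sum.inl u) g (z - a • corNK h K y) = 0 := fun u g =>
      (hsub _ _).trans (by
        rw [hinf u g, hsupp (Sum.inl u) g (fun hs => Sum.inr_ne_inl hs.1)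
          fun hs => Sum.inr_ne_inl hs.1, smul_zero,
          sub_zero])
    obtain ⟨y', hy'⟩ := ih _ hcard hinf'
    exact exists_add_smul_eq (corNK h K) y y' z a hy'

/-- A class supported at one real place among the real ones. -/
theorem exists_real_class (h : LargeS p S N) (hC : CFTInputs p) (hp : p = 2) (hK : N ≤ K)
    (g₀ : Γ) (h₀ : conjC g₀ ∈ K) :
    ∃ z : H2 (levelsSOn K S) (muOn p K),
      realComp (levelsSOn K S) (muOn p K) (realInv g₀ h₀) (realInv_mul_self g₀ h₀) z ≠ 0 ∧
      ∀ (g : Γ) (hg : conjC g ∈ K), placePoint K g ≠ placePoint K g₀ →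
        realComp (levelsSOn K S) (muOn p K) (realInv g hg) (realInv_mul_self g hg) z = 0 := by
  obtain ⟨q₀, hq₀S, hq₀⟩ := h.split
  obtain ⟨z₀, h1, h3⟩ := (hC.twoPlaceClasses N h.split_level.mem h.split_level.normal
    h.split_level.mu h.split_level.complex q₀ hq₀ 1).2 hp K hK () g₀ h₀
  obtain ⟨z, hz⟩ := (h.good K hK).surj z₀ fun v g hv =>
    h3 v g (fun hs => hv (by obtain ⟨rfl, -⟩ := hs; trivial))
      fun hs => hv (by obtain ⟨rfl, -⟩ := hs; exact hq₀S)
  have hzc : ∀ v g, compS p S K v g z = (placeMor p K v g).map₂ z₀ := fun v g => by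
    rw [compS, LinearMap.comp_apply, hz]
  refine ⟨z, fun h0 => h1 ?_, fun g hg hne => ?_⟩
  · rw [← hzc]
    exact compS_inl_eq_zero h.split_level () g₀ fun _ => h0
  · refine realComp_eq_zero_of_compS () g hg ?_
    rw [hzc]
    exact h3 _ _ (fun hs => hne (placePoint_eq_of_samePlace_inl h₀ hs).symm)
      fun hs => nomatch hs.1

end Fermat.Agent.GalCoh
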