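import Fermat.Agent.GalCoh.Places

/-!
# Reciprocity at a split place, and corestriction of classes
-/

set_option autoImplicit false

noncomputable section

namespace Fermat.Agent.GalCoh

open ExtCitation Representation MulAction

local notation "Γ" => (AlgebraicClosure ℚ ≃ₐ[ℚ] AlgebraicClosure ℚ)

variable {p : ℕ} [Fact p.Prime] {S : Finset Nat.Primes} {K N : Subgroup Γ}

/-- `q` splits completely in the field fixed by the normal subgroup `N`. -/
def SplitIn (N : Subgroup Γ) (q : Nat.Primes) : Prop :=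
  ∀ d, placeLoc (Sum.inr q) d ∈ N

/-- `S` is large for the splitting level `N`. -/
structure LargeS (p : ℕ) [Fact p.Prime] (S : Finset Nat.Primes) (N : Subgroup Γ) : Prop where
  split_level : IsSplittingLevel p N
  level : (levelsS S).mem N
  p_mem : pPrime p ∈ S
  split : ∃ q ∈ S, SplitIn N q
  good : ∀ K : Subgroup Γ, N ≤ K → GoodFor p S K

theorem LargeS.mem_of_le (h : LargeS p S N) (hK : N ≤ K) : (levelsS S).mem K :=
  (levelsS S).mono h.level hK

theorem LargeS.isCtsRep_muRep (h : LargeS p S N) : IsCtsRep (levelsS S) (muRep p) :=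
  isCtsRep_muRep_of_mem h.level h.split_level.mu

theorem splitIn_smul_eq {q : Nat.Primes} (hq : SplitIn N q) (hN : N.Normal) (hK : N ≤ K)
    (d : placeGroup (Sum.inr q)) (x : Γ ⧸ K) : placeLoc (Sum.inr q) d • x = x :=
  smul_eq_self_of_normal hN hK (hq d) x

/-- From a component to the local group, when the place is split. -/
def fromSplit (p : ℕ) [Fact p.Prime] (K : Subgroup Γ) (v : Place) (g : Γ)
    (hg : ∀ d, d ∈ decompIn K v g) :
    Mor ((levelsOn K).comap (decompToH K v g)) (localLevels (placeLoc v))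
      ((muOn p K).comp (decompToH K v g)) ((muRep p).comp (placeLoc v)) where
  f := (MonoidHom.id _).codRestrict _ hg
  φ := muRep p g⁻¹
  comm d w := by
    simp only [MonoidHom.coe_comp, Function.comp_apply, decompToH, MonoidHom.codRestrict_apply,
      conjLoc, ← Module.End.mul_apply, ← map_mul, Subgroup.coe_subtype]
    simp [mul_assoc]
  compat := fun U ⟨V, ⟨V₀, hV₀, hVV⟩, hVU⟩ => by
    obtain ⟨M, hM, hMn, hMV⟩ := fullLevels.exists_normal hV₀
    refine ⟨M, hM, fun d hd => hVU (hVV (hMV ?_))⟩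
    simpa [decompToH, conjLoc, mul_assoc] using hMn.conj_mem _ hd g

/-- From the local group to a component. -/
def toSplit (p : ℕ) [Fact p.Prime] (K : Subgroup Γ) (v : Place) (g : Γ) :
    Mor (localLevels (placeLoc v)) ((levelsOn K).comap (decompToH K v g))
      ((muRep p).comp (placeLoc v)) ((muOn p K).comp (decompToH K v g)) where
  f := (decompIn K v g).subtype
  φ := muRep p g
  comm d w := by
    simp only [MonoidHom.coe_comp, Function.comp_apply, decompToH,
      MonoidHom.codRestrict_apply, conjLoc, ← Module.End.mul_apply, ← map_mul,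
      Subgroup.coe_subtype]
    simp [mul_assoc]
  compat := fun U ⟨V, hV, hVU⟩ => by
    obtain ⟨M, hM, hMn, hMV⟩ := fullLevels.exists_normal hV
    refine ⟨M.comap K.subtype, ⟨M, hM, le_rfl⟩, fun d hd => hVU (hMV ?_)⟩
    simpa [decompToH, conjLoc, mul_assoc] using hMn.conj_mem _ hd g⁻¹

/-- A class supported, among the places of `S`, at one split place vanishes there. -/
theorem compS_split_eq_zero (h : LargeS p S N) (hK : N ≤ K)
    (hR : Reciprocity p) {q : Nat.Primes} (hqS : q ∈ S) (hq : SplitIn N q) (g₀ : Γ)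
    (z : H2 (levelsSOn K S) (muOn p K))
    (hz : ∀ v g, InPlaces S v → ¬ SamePlace K (Sum.inr q) g₀ v g → compS p S K v g z = 0) :
    compS p S K (Sum.inr q) g₀ z = 0 := by
  classical
  obtain ⟨inv, hinj, hsum⟩ := hR
  have hN := h.split_level.normal
  have hKm := h.mem_of_le hK
  have : Finite (Γ ⧸ K) := finite_quotient hKm
  let : Fintype (Γ ⧸ K) := Fintype.ofFinite _
  have hρ := h.isCtsRep_muRep
  obtain ⟨W, hW⟩ := (evalMor_map₂_bijective (ρ := muRep p) hρ hKm).2 z
  have hcomp : ∀ v g, (pointLoc p (levelsS S) (compat_levelsS S) K v g).map₂ W =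
      compS p S K v g z := fun v g => by
    rw [← placeMor_evalMor, hW]
    rfl
  let Z : H2 (levelsS S) (muRep p) :=
    (Mor.ofMap (levelsS S) (sumMap (muRep p) (Γ ⧸ K))).map₂ W
  have hrec := hsum S h.p_mem Z
  have hrec' := (Finset.sum_eq_single (Sum.inr ⟨q, hqS⟩ : extArithIndex S)
    (fun u _ hu => ?_) (fun hh => absurd (Finset.mem_univ _) hh)).symm.trans hrec
  · have hloc := (injective_iff_map_eq_zero _).mp (hinj _) _ hrec'
    have hfix : ∀ x : Γ ⧸ K, ∀ d, placeLoc (Sum.inr q) d • x = x :=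
      fun x d => splitIn_smul_eq hq hN hK d x
    have hg : ∀ g d, d ∈ decompIn K (Sum.inr q) g := fun g d =>
      mem_decompIn_iff.mpr (hfix _ d)
    have hc := (compat_levelsS S).comp (fullLevels.compat_comap (placeLoc (Sum.inr q)))
    have key : (projMor (levelsS S) _ (muRep p) (Γ ⧸ K) _ hc (placePoint K g₀) (hfix _)).map₂ W
        = 0 := by
      refine (res_sumMap_eq_proj _ hc hfix (placePoint K g₀) W fun x hx => ?_).symm.trans hloc
      obtain ⟨a, rfl⟩ := QuotientGroup.mk_surjective x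
      have h0 : compS p S K (Sum.inr q) a⁻¹ z = 0 := by
        refine hz _ _ hqS fun hs => hx ?_
        obtain ⟨-, y, hy, d, hd⟩ := hs
        rw [← inv_inv a, hd, placePoint, QuotientGroup.eq]
        have hd' : g₀ * placeLoc (Sum.inr q) d * g₀⁻¹ ∈ K := hK (hN.conj_mem _ (hq d) g₀)
        have := K.mul_mem hy hd'
        simpa [mul_assoc] using this
      rw [← hcomp] at h0
      have h1 := congrArg (fromSplit p K _ a⁻¹ (hg a⁻¹)).map₂ h0
      rw [map_zero, Mor.map₂_map₂] at h1
      rw [← h1]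
      refine Mor.map₂_congr ?_ ?_ W
      · ext d; rfl
      · refine LinearMap.ext fun f => ?_
        show f ((a : Γ) : Γ ⧸ K) = muRep p a⁻¹⁻¹ (muRep p a⁻¹ (f (placePoint K a⁻¹)))
        rw [← Module.End.mul_apply, ← map_mul, inv_inv, mul_inv_cancel, map_one, placePoint,
          inv_inv]
        rfl
    rw [← hcomp]
    have h2 := congrArg (toSplit p K (Sum.inr q) g₀).map₂ key
    rw [map_zero, Mor.map₂_map₂] at h2
    rw [← h2]
    exact Mor.map₂_congr rfl rfl W
  · have : (Mor.res (levelsS S) (localLevels (placeLoc (toPlace u))) (muRep p)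
        (placeLoc (toPlace u)) ((compat_levelsS S).comp (fullLevels.compat_comap _))).map₂ Z
          = 0 := by
      refine res_sum_eq_zero (compat_levelsS S) hKm hρ (toPlace u) W fun g => ?_
      rw [hcomp]
      refine hz _ _ (by rcases u with u | u <;> simp [InPlaces, toPlace]) fun hs => hu ?_
      obtain ⟨he, -⟩ := hs
      rcases u with u | u
      · simp [toPlace] at he
      · simp only [toPlace, Sum.inr.injEq] at he
        exact congrArg Sum.inr (Subtype.ext he.symm)
    rw [this, map_zero]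

section Cor

/-- Inclusion of `N` in `K`, on cohomology. -/
def inclMor (p : ℕ) [Fact p.Prime] (S : Finset Nat.Primes) (N K : Subgroup Γ) :
    Mor (levelsSOn N S) ((levelsSOn K S).comap (N.subgroupOf K).subtype) (muOn p N)
      ((muOn p K).comp (N.subgroupOf K).subtype) where
  f := (K.subtype.comp (N.subgroupOf K).subtype).codRestrict N fun x => x.2
  φ := LinearMap.id
  comm _ _ := rfl
  compat := by
    unfold levelsSOn
    rw [Levels.comap_comap]
    exact (levelsS S).compat_of_comp_eq _ rfl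

theorem LargeS.mem_subgroupOf (h : LargeS p S N) (K : Subgroup Γ) :
    (levelsSOn K S).mem (N.subgroupOf K) :=
  ⟨N, h.level, le_rfl⟩

theorem LargeS.isCtsRep_muOn (h : LargeS p S N) (K : Subgroup Γ) :
    IsCtsRep (levelsSOn K S) (muOn p K) :=
  h.isCtsRep_muRep.comp ((levelsS S).compat_comap _)

/-- The induced class of a class of `N`, on `K`. -/
def inducedClass (h : LargeS p S N) (K : Subgroup Γ) :
    H2 (levelsSOn N S) (muOn p N) →ₗ[ZMod p]
      H2 (levelsSOn K S) (permRep (muOn p K) (↥K ⧸ N.subgroupOf K)) :=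
  (shapiro₂ (levelsSOn K S) (h.isCtsRep_muOn K) (h.mem_subgroupOf K)).symm.toLinearMap ∘ₗ
    (inclMor p S N K).map₂

theorem evalMor_inducedClass (h : LargeS p S N) (K : Subgroup Γ)
    (y : H2 (levelsSOn N S) (muOn p N)) :
    (evalMor (levelsSOn K S) (muOn p K) (N.subgroupOf K)).map₂ (inducedClass h K y) =
      (inclMor p S N K).map₂ y :=
  (shapiro₂ (levelsSOn K S) (h.isCtsRep_muOn K) (h.mem_subgroupOf K)).apply_symm_apply _

theorem LargeS.finite_quot (h : LargeS p S N) (K : Subgroup Γ) :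
    Finite (↥K ⧸ N.subgroupOf K) :=
  finite_quotient (h.mem_subgroupOf K)

/-- Corestriction from `N` to `K`. -/
def corNK (h : LargeS p S N) (K : Subgroup Γ) :
    H2 (levelsSOn N S) (muOn p N) →ₗ[ZMod p] H2 (levelsSOn K S) (muOn p K) :=
  have := h.finite_quot K
  letI : Fintype (↥K ⧸ N.subgroupOf K) := Fintype.ofFinite _
  (Mor.ofMap (levelsSOn K S) (sumMap (muOn p K) (↥K ⧸ N.subgroupOf K))).map₂ ∘ₗ inducedClass h K

/-- The restriction map to the place `(v, g₀)` of `K`. -/
theorem compat_decompToH (K : Subgroup Γ) (S : Finset Nat.Primes) (v : Place) (g₀ : Γ) :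
    (levelsSOn K S).Compat ((levelsOn K).comap (decompToH K v g₀)) (decompToH K v g₀) :=
  ((compat_levelsS S).comap K.subtype).comp ((levelsOn K).compat_comap _)

/-- The component is a restriction. -/
theorem compS_eq_res (K : Subgroup Γ) (v : Place) (g₀ : Γ) (z : H2 (levelsSOn K S) (muOn p K)) :
    compS p S K v g₀ z = (Mor.res (levelsSOn K S) _ (muOn p K) (decompToH K v g₀)
      (compat_decompToH K S v g₀)).map₂ z := by
  rw [compS, LinearMap.comp_apply, Mor.map₂_map₂]
  exact Mor.map₂_congr rfl rfl _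

theorem mem_decompIn_of_fix {a : ↥K} {v : Place} {g₀ : Γ} (d : ↥(decompIn K v g₀))
    (hd : decompToH K v g₀ d • ((a : ↥K) : ↥K ⧸ N.subgroupOf K) = ((a : ↥K) : _)) :
    (d : placeGroup v) ∈ decompIn N v ((a : Γ)⁻¹ * g₀) := by
  rw [MulAction.Quotient.smul_coe, eq_comm, QuotientGroup.eq, Subgroup.mem_subgroupOf] at hd
  show (a : Γ)⁻¹ * g₀ * placeLoc v d * ((a : Γ)⁻¹ * g₀)⁻¹ ∈ N
  simpa [decompToH, conjLoc, mul_assoc] using hd

/-- The stabilizer of a point of `K ⧸ N`, in the local group at `(v, g₀)`. -/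
def stabToDecomp (N : Subgroup Γ) {K : Subgroup Γ} (a : ↥K) (v : Place) (g₀ : Γ) :
    letI := pullAction (decompToH K v g₀) (↥K ⧸ N.subgroupOf K)
    ↥(stabilizer ↥(decompIn K v g₀) ((a : ↥K) : ↥K ⧸ N.subgroupOf K)) →*
      ↥(decompIn N v ((a : Γ)⁻¹ * g₀)) :=
  letI := pullAction (decompToH K v g₀) (↥K ⧸ N.subgroupOf K)
  { toFun := fun d => ⟨d.1.1, mem_decompIn_of_fix d.1 d.2⟩
    map_one' := rfl
    map_mul' := fun _ _ => rfl }

/-- From the component of `N` above to the stabilizer of the corresponding point. -/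
def upMor (p : ℕ) [Fact p.Prime] (N : Subgroup Γ) {K : Subgroup Γ} (a : ↥K) (v : Place) (g₀ : Γ) :
    letI := pullAction (decompToH K v g₀) (↥K ⧸ N.subgroupOf K)
    Mor ((levelsOn N).comap (decompToH N v ((a : Γ)⁻¹ * g₀)))
      (((levelsOn K).comap (decompToH K v g₀)).comap
        (stabilizer ↥(decompIn K v g₀) ((a : ↥K) : ↥K ⧸ N.subgroupOf K)).subtype)
      ((muOn p N).comp (decompToH N v ((a : Γ)⁻¹ * g₀)))
      (((muOn p K).comp (decompToH K v g₀)).comp
        (stabilizer ↥(decompIn K v g₀) ((a : ↥K) : ↥K ⧸ N.subgroupOf K)).subtype) :=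
  letI := pullAction (decompToH K v g₀) (↥K ⧸ N.subgroupOf K)
  { f := stabToDecomp N a v g₀
    φ := muRep p (a : Γ)
    comm := fun d w => by
      show muRep p (a : Γ) (muRep p ((a : Γ)⁻¹ * g₀ * placeLoc v d.1.1 * ((a : Γ)⁻¹ * g₀)⁻¹) w) =
        muRep p (g₀ * placeLoc v d.1.1 * g₀⁻¹) (muRep p (a : Γ) w)
      simp only [← Module.End.mul_apply, ← map_mul]
      simp [mul_assoc]
    compat := fun U ⟨V, ⟨V₀, hV₀, hVV⟩, hVU⟩ => by
      obtain ⟨M, hM, hMn, hMV⟩ := fullLevels.exists_normal hV₀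
      refine ⟨(M.comap K.subtype).comap (decompToH K v g₀),
        ⟨M.comap K.subtype, ⟨M, hM, le_rfl⟩, le_rfl⟩, fun d hd => hVU (hVV (hMV ?_))⟩
      have hd' : g₀ * placeLoc v d.1.1 * g₀⁻¹ ∈ M := hd
      have := hMn.conj_mem _ hd' (a : Γ)⁻¹
      show (a : Γ)⁻¹ * g₀ * placeLoc v d.1.1 * ((a : Γ)⁻¹ * g₀)⁻¹ ∈ M
      simpa [mul_assoc] using this }

/-- From the stabilizer in `K` to the stabilizer in the local group. -/
def stabRes (p : ℕ) [Fact p.Prime] (S : Finset Nat.Primes) (N : Subgroup Γ) {K : Subgroup Γ}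
    (a : ↥K) (v : Place) (g₀ : Γ) :
    letI := pullAction (decompToH K v g₀) (↥K ⧸ N.subgroupOf K)
    Mor ((levelsSOn K S).comap (stabilizer ↥K ((a : ↥K) : ↥K ⧸ N.subgroupOf K)).subtype)
      (((levelsOn K).comap (decompToH K v g₀)).comap
        (stabilizer ↥(decompIn K v g₀) ((a : ↥K) : ↥K ⧸ N.subgroupOf K)).subtype)
      ((muOn p K).comp (stabilizer ↥K ((a : ↥K) : ↥K ⧸ N.subgroupOf K)).subtype)
      (((muOn p K).comp (decompToH K v g₀)).comp
        (stabilizer ↥(decompIn K v g₀) ((a : ↥K) : ↥K ⧸ N.subgroupOf K)).subtype) :=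
  letI := pullAction (decompToH K v g₀) (↥K ⧸ N.subgroupOf K)
  { f :=
      { toFun := fun d => ⟨decompToH K v g₀ d.1, d.2⟩
        map_one' := Subtype.ext (map_one _)
        map_mul' := fun _ _ => Subtype.ext (map_mul _ _ _) }
    φ := LinearMap.id
    comm := fun _ _ => rfl
    compat := fun U ⟨V, hV, hVU⟩ => ⟨V.comap (decompToH K v g₀),
      ⟨V, by simpa using ((compat_levelsS S).comap K.subtype) hV, le_rfl⟩, fun d hd => hVU hd⟩ }

/-- The component of an induced class at a point of `K ⧸ N`. -/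
theorem pointMor_inducedClass_eq_zero (h : LargeS p S N) (v : Place) (g₀ : Γ)
    (a : ↥K) (y : H2 (levelsSOn N S) (muOn p N))
    (hy : compS p S N v ((a : Γ)⁻¹ * g₀) y = 0) :
    letI := pullAction (decompToH K v g₀) (↥K ⧸ N.subgroupOf K)
    (pointMor ((levelsOn K).comap (decompToH K v g₀)) ((muOn p K).comp (decompToH K v g₀))
        ((a : ↥K) : ↥K ⧸ N.subgroupOf K)).map₂
      ((permRes (levelsSOn K S) ((levelsOn K).comap (decompToH K v g₀)) (muOn p K)
        (↥K ⧸ N.subgroupOf K) (decompToH K v g₀) (compat_decompToH K S v g₀)).map₂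
          (inducedClass h K y)) = 0 := by
  let := pullAction (decompToH K v g₀) (↥K ⧸ N.subgroupOf K)
  have h1 : (upMor p N a v g₀).map₂ ((Mor.res (levelsSOn N S) _ (muOn p N)
      (decompToH N v ((a : Γ)⁻¹ * g₀)) (compat_decompToH N S v _)).map₂ y) = 0 :=
    (congrArg (upMor p N a v g₀).map₂ ((compS_eq_res N v _ y).symm.trans hy)).trans (map_zero _)
  refine (Mor.map₂_square _ _ (pointMor (levelsSOn K S) (muOn p K) _) (stabRes p S N a v g₀)
    ?_ ?_ _).trans ?_
  · rfl
  · rfl
  refine ((congrArg (stabRes p S N a v g₀).map₂ ((pointMor_coe_map₂ a _).trans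
    (congrArg _ (evalMor_inducedClass h K y)))).trans ?_).trans h1
  refine Eq.trans (congrArg _ (Mor.map₂_map₂ (inclMor p S N K) _ y)) ?_
  refine Mor.map₂_square _ _ _ _ ?_ ?_ y
  swap
  · rfl
  refine MonoidHom.ext fun d => Subtype.ext ?_
  show (a : Γ)⁻¹ * (g₀ * placeLoc v d.1.1 * g₀⁻¹) * (a : Γ)⁻¹⁻¹ =
    (a : Γ)⁻¹ * g₀ * placeLoc v d.1.1 * ((a : Γ)⁻¹ * g₀)⁻¹
  simp [mul_assoc]

/-- A corestricted class vanishes at a place if the class vanishes at all places above it. -/
theorem compS_corNK_eq_zero (h : LargeS p S N) (v : Place) (g₀ : Γ)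
    (y : H2 (levelsSOn N S) (muOn p N))
    (hy : ∀ g, SamePlace K v g₀ v g → compS p S N v g y = 0) :
    compS p S K v g₀ (corNK h K y) = 0 := by
  have := h.finite_quot K
  let : Fintype (↥K ⧸ N.subgroupOf K) := Fintype.ofFinite _
  rw [compS_eq_res, corNK, LinearMap.comp_apply]
  refine res_sumMap_eq_zero (decompToH K v g₀) (compat_decompToH K S v g₀) (h.isCtsRep_muOn K)
    (fun x => ?_) (inducedClass h K y) fun x => ?_
  · refine ⟨N.comap K.subtype, ⟨N, h.split_level.mem, le_rfl⟩, fun d hd => ?_⟩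
    exact smul_eq_self_of_normal (h.split_level.normal.comap K.subtype) le_rfl hd x
  · obtain ⟨a, rfl⟩ := QuotientGroup.mk_surjective x
    refine pointMor_inducedClass_eq_zero h v g₀ a y (hy _ ⟨rfl, (a : Γ)⁻¹, K.inv_mem a.2, 1, ?_⟩)
    simp

/-- A component of `N` from the component of `K` below it. -/
def downMor (p : ℕ) [Fact p.Prime] (hK : N ≤ K) (v : Place) (g₀ : Γ) :
    Mor ((levelsOn K).comap (decompToH K v g₀)) ((levelsOn N).comap (decompToH N v g₀))
      ((muOn p K).comp (decompToH K v g₀)) ((muOn p N).comp (decompToH N v g₀)) where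
  f := Subgroup.inclusion (H := decompIn N v g₀) (K := decompIn K v g₀) fun _ hd => hK hd
  φ := LinearMap.id
  comm _ _ := rfl
  compat := fun _ ⟨_, ⟨V₀, hV₀, hVV⟩, hVU⟩ =>
    ⟨V₀.comap N.subtype, ⟨V₀, hV₀, le_rfl⟩, fun _ hd => hVU (hVV hd)⟩

/-- From the base point of `K ⧸ N` to a component of `N`. -/
def baseMor (p : ℕ) [Fact p.Prime] (S : Finset Nat.Primes) (hK : N ≤ K) (v : Place) (g₀ : Γ) :
    Mor ((levelsSOn K S).comap (N.subgroupOf K).subtype)
      ((levelsOn N).comap (decompToH N v g₀)) ((muOn p K).comp (N.subgroupOf K).subtype)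
      ((muOn p N).comp (decompToH N v g₀)) where
  f := ((decompToH K v g₀).comp (downMor p hK v g₀).f).codRestrict (N.subgroupOf K)
    fun d => d.2
  φ := LinearMap.id
  comm _ _ := rfl
  compat := fun U ⟨V, ⟨V₀, hV₀, hVV⟩, hVU⟩ =>
    ⟨V₀.comap N.subtype, ⟨V₀, by simpa using compat_levelsS S hV₀, le_rfl⟩,
      fun d hd => hVU (hVV hd)⟩

theorem down_proj_one_inducedClass (h : LargeS p S N) (hK : N ≤ K) (v : Place) (g₀ : Γ)
    (hfix : ∀ d : ↥(decompIn K v g₀), decompToH K v g₀ d •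
      ((1 : ↥K) : ↥K ⧸ N.subgroupOf K) = ((1 : ↥K) : ↥K ⧸ N.subgroupOf K))
    (y : H2 (levelsSOn N S) (muOn p N)) :
    (downMor p hK v g₀).map₂ ((projMor (levelsSOn K S) _ (muOn p K) (↥K ⧸ N.subgroupOf K)
      (decompToH K v g₀) (compat_decompToH K S v g₀) ((1 : ↥K) : ↥K ⧸ N.subgroupOf K)
        hfix).map₂ (inducedClass h K y)) = compS p S N v g₀ y := by
  refine (Mor.map₂_square _ _ (evalMor (levelsSOn K S) (muOn p K) (N.subgroupOf K))
    (baseMor p S hK v g₀) ?_ ?_ _).trans ?_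
  · rfl
  · rfl
  refine (congrArg (baseMor p S hK v g₀).map₂ (evalMor_inducedClass h K y)).trans ?_
  rw [compS_eq_res]
  refine (Mor.map₂_map₂ (inclMor p S N K) (baseMor p S hK v g₀) y).trans ?_
  exact Mor.map₂_congr (MonoidHom.ext fun d => rfl) rfl y

/-- At a split place a corestricted class equals the class, when the latter has one component
above it. -/
theorem compS_corNK_ne_zero (h : LargeS p S N) (hK : N ≤ K) {q : Nat.Primes} (hq : SplitIn N q)
    (g₀ : Γ) (y : H2 (levelsSOn N S) (muOn p N))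
    (hy : ∀ g, SamePlace K (Sum.inr q) g₀ (Sum.inr q) g →
      ¬ SamePlace N (Sum.inr q) g₀ (Sum.inr q) g → compS p S N (Sum.inr q) g y = 0)
    (hne : compS p S N (Sum.inr q) g₀ y ≠ 0) :
    compS p S K (Sum.inr q) g₀ (corNK h K y) ≠ 0 := by
  intro h0
  apply hne
  have := h.finite_quot K
  let : Fintype (↥K ⧸ N.subgroupOf K) := Fintype.ofFinite _
  have hN := h.split_level.normal
  have hfix : ∀ (x : ↥K ⧸ N.subgroupOf K) (d : ↥(decompIn K (Sum.inr q) g₀)),
      decompToH K (Sum.inr q) g₀ d • x = x := fun x d =>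
    smul_eq_self_of_normal (hN.comap K.subtype) le_rfl
      (show decompToH K (Sum.inr q) g₀ d ∈ N.subgroupOf K from hN.conj_mem _ (hq d) g₀) x
  have hz : ∀ x, x ≠ ((1 : ↥K) : ↥K ⧸ N.subgroupOf K) →
      (projMor (levelsSOn K S) _ (muOn p K) _ (decompToH K (Sum.inr q) g₀)
        (compat_decompToH K S _ g₀) x (hfix x)).map₂ (inducedClass h K y) = 0 := by
    intro x hx
    obtain ⟨a, rfl⟩ := QuotientGroup.mk_surjective x
    refine projMor_eq_zero_of_pointMor _ _ _ _ _
      (pointMor_inducedClass_eq_zero h (Sum.inr q) g₀ a y (hy _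
        ⟨rfl, (a : Γ)⁻¹, K.inv_mem a.2, 1, by simp⟩ fun hs => hx ?_))
    obtain ⟨-, t, ht, d, hd⟩ := hs
    rw [QuotientGroup.eq, Subgroup.mem_subgroupOf]
    have : (a : Γ)⁻¹ = t * (g₀ * placeLoc (Sum.inr q) d * g₀⁻¹) := by
      have := congrArg (· * g₀⁻¹) hd
      simpa [mul_assoc] using this
    rw [mul_one, Subgroup.coe_inv, this]
    exact N.mul_mem ht (hN.conj_mem _ (hq d) g₀)
  have e := res_sumMap_eq_proj _ (compat_decompToH K S _ g₀) hfix _ (inducedClass h K y) hz
  rw [← down_proj_one_inducedClass h hK (Sum.inr q) g₀ (hfix _) y, ← e]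
  have h1 : (Mor.res (levelsSOn K S) _ (muOn p K) (decompToH K (Sum.inr q) g₀)
      (compat_decompToH K S _ g₀)).map₂ (corNK h K y) = 0 := by
    rw [← h0, compS_eq_res]
  rw [corNK, LinearMap.comp_apply] at h1
  rw [h1, map_zero]

end Cor

end Fermat.Agent.GalCoh
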