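import Fermat.Agent.GalCoh.Places
import Fermat.Agent.GalCoh.Descent.LocalImage
import Fermat.Agent.Frobenius.Exists
import Fermat.Agent.TameInertia.Frobenius
import Fermat.Agent.BigImage.RootsOfUnity

/-!
# An `S`-class is trivial at the places outside `S`

Pulled back to such a place it comes from a finite cyclic group generated by a Frobenius element,
and it dies in a cyclic group `p` times larger.
-/

set_option autoImplicit false

noncomputable section

namespace Fermat.Agent.GalCoh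

open ExtCitation
open scoped Pointwise

local notation "Ω" => AlgebraicClosure ℚ
local notation "Γ" => (AlgebraicClosure ℚ ≃ₐ[ℚ] AlgebraicClosure ℚ)

local instance isAlgebraicQbar_unr : Algebra.IsAlgebraic ℚ (AlgebraicClosure ℚ) :=
  AlgebraicClosure.isAlgebraic ℚ

/-- A cocycle on the powers of an element. -/
theorem cocycle_pow_eq {k G V : Type} [CommRing k] [Group G] [AddCommGroup V] [Module k V]
    (ρ : Representation k G V) {F : G × G → V}
    (hF : ∀ g h j, F (g * h, j) + F (g, h) = ρ g (F (h, j)) + F (g, h * j)) (φ : G) (i j : ℕ) :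
    F (φ ^ i, φ ^ j) = ρ (φ ^ i) (F (1, 1)) + ∑ t ∈ Finset.range (i + j), F (φ ^ t, φ)
      - ∑ t ∈ Finset.range i, F (φ ^ t, φ)
      - ρ (φ ^ i) (∑ t ∈ Finset.range j, F (φ ^ t, φ)) := by
  induction j with
  | zero =>
    have h := hF (φ ^ i) 1 1
    simp only [mul_one] at h
    simp only [pow_zero, Finset.range_zero, Finset.sum_empty, map_zero, sub_zero, add_zero]
    linear_combination (norm := abel) h
  | succ j ih =>
    have h := hF (φ ^ i) (φ ^ j) φ
    rw [← pow_add, ← pow_succ] at h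
    rw [Finset.sum_range_succ, ← add_assoc, Finset.sum_range_succ, map_add]
    linear_combination (norm := abel) ih - h

theorem sum_range_periodic {V : Type} [AddCommGroup V] (a : ℕ → V) (n : ℕ)
    (ha : ∀ t, a (t + n) = a t) (p j : ℕ) :
    ∑ t ∈ Finset.range (j + p * n), a t =
      ∑ t ∈ Finset.range j, a t + p • ∑ t ∈ Finset.range n, a t := by
  induction p with
  | zero => simp
  | succ p ih =>
    rw [add_mul, one_mul, ← add_assoc, Finset.sum_range_add, ih, succ_nsmul, ← add_assoc]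
    refine congrArg _ ?_
    have hper : ∀ m t, a (m * n + t) = a t := fun m t => by
      induction m with
      | zero => rw [zero_mul, zero_add]
      | succ m hm => rw [add_mul, one_mul, add_right_comm, ha, hm]
    have hshift : ∀ l, ∑ x ∈ Finset.range n, a (l + x) = ∑ x ∈ Finset.range n, a x := fun l => by
      induction l with
      | zero => simp
      | succ l hl =>
        rw [← hl]
        have e1 := Finset.sum_range_succ (fun x => a (l + x)) n
        rw [Finset.sum_range_succ'] at e1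
        simp only [add_zero, ha] at e1
        refine Eq.trans (Finset.sum_congr rfl fun x _ => ?_) (add_right_cancel e1)
        rw [add_assoc, add_comm 1 x]
    exact hshift _

variable {p : ℕ} [Fact p.Prime] {S : Finset Nat.Primes} {K : Subgroup Γ}

/-- The level of an element of the decomposition group: the exponent of Frobenius. -/
theorem modEq_of_zeta {q f P a b : ℕ} (hq : 2 ≤ q) (hP : 2 ≤ f * P) {ζ : Ω}
    (hζ : IsPrimitiveRoot ζ (q ^ (f * P) - 1)) (h : ζ ^ q ^ (f * a) = ζ ^ q ^ (f * b)) :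
    a ≡ b [MOD P] := by
  set m := q ^ (f * P) - 1 with hm
  have hpow : 1 ≤ q ^ (f * P) := Nat.one_le_pow _ _ (by omega)
  have hm1 : 1 < m := by
    have : 4 ≤ q ^ (f * P) :=
      le_trans (le_trans (by norm_num) (Nat.pow_le_pow_left hq 2)) (Nat.pow_le_pow_right (by omega) hP)
    omega
  have hmod : q ^ (f * a) ≡ q ^ (f * b) [MOD m] := by
    have h' := h
    rwa [(hζ.isOfFinOrder (by omega)).pow_eq_pow_iff_modEq, ← hζ.eq_orderOf] at h'
  have h1 : q ^ (f * P) ≡ 1 [MOD m] := (Nat.modEq_iff_dvd' hpow).mpr dvd_rfl |>.symm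
  have hred : ∀ e, q ^ (f * e) ≡ q ^ (f * (e % P)) [MOD m] := fun e => by
    conv_lhs => rw [← Nat.mod_add_div e P, mul_add, pow_add, ← mul_assoc, pow_mul q (f * P)]
    simpa using (Nat.ModEq.refl (q ^ (f * (e % P)))).mul (h1.pow (e / P))
  have hf : 0 < f ∧ 0 < P := ⟨Nat.pos_of_ne_zero fun h => by simp [h] at hP,
    Nat.pos_of_ne_zero fun h => by simp [h] at hP⟩
  have hlt : ∀ e, q ^ (f * (e % P)) < m := fun e => by
    have h' : f * (e % P) + 1 ≤ f * P := Nat.lt_iff_add_one_le.mp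
      ((Nat.mul_lt_mul_left hf.1).mpr (Nat.mod_lt _ hf.2))
    have h2 := Nat.pow_le_pow_right (show 1 ≤ q by omega) h'
    rw [pow_succ] at h2
    have h3 : q ^ (f * (e % P)) * 2 ≤ q ^ (f * (e % P)) * q := Nat.mul_le_mul_left _ hq
    have h4 : 2 ≤ q ^ (f * P) := by omega
    rcases Nat.eq_zero_or_pos (f * (e % P)) with h0 | h0
    · rw [h0, pow_zero]; omega
    · have := Nat.one_lt_pow h0.ne' (show 1 < q by omega)
      omega
  have := ((hred a).symm.trans hmod).trans (hred b)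
  have he := Nat.ModEq.eq_of_lt_of_lt this (hlt a) (hlt b)
  have := Nat.pow_right_injective hq he
  exact Nat.eq_of_mul_eq_mul_left hf.1 this

/-- An `S`-class has no component outside `S`. -/
theorem compS_eq_zero_of_notMem (hμ : IsCtsRep (levelsS S) (muRep p)) (hK : (levelsS S).mem K)
    (v : Place) (g : Γ)
    (hv : ¬ InPlaces S v) (z : H2 (levelsSOn K S) (muOn p K)) : compS p S K v g z = 0 := by
  classical
  rcases v with u | q
  · exact absurd trivial hv
  obtain ⟨F, rfl⟩ := H2mk_surjective z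
  obtain ⟨hF, hFc⟩ := mem_Z2_iff.mp F.2
  obtain ⟨U, ⟨U₀, hU₀, hU₀U⟩, hU⟩ := hFc
  obtain ⟨M, hM, hMμ⟩ := hμ
  obtain ⟨N, hN, hNn, hNle⟩ :=
    (levelsS S).exists_normal ((levelsS S).inf_mem ((levelsS S).inf_mem hU₀ hM) hK)
  have hFN : ∀ a b a' b' : ↥K, (a : Γ)⁻¹ * a' ∈ N → (b : Γ)⁻¹ * b' ∈ N →
      (F : ↥K × ↥K → ZMod p) (a', b') = (F : ↥K × ↥K → ZMod p) (a, b) := fun a b a' b' ha hb => by
    have := hU a b (a⁻¹ * a') (hU₀U (hNle ha).1.1) (b⁻¹ * b') (hU₀U (hNle hb).1.1)
    simpa using this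
  set A : ValuationSubring Ω := g • primeLocalPlace q with hAdef
  have hA : A.LiesOverPrime (q : ℕ) :=
    liesOverPrime_smul (Descent.primeLocalPlace_liesOver q) g
  have hIN : A.inertiaSubgroupIn ℚ ≤ N := by
    obtain ⟨E, hE, hEN⟩ := hN
    exact (hE.2 q hv A hA).trans hEN
  obtain ⟨Φ, hΦ⟩ := Frobenius.exists_isFrobeniusAt_qbar q.2 hA
  have hNK : N ≤ K := fun x hx => (hNle hx).2
  have := (levelsS S).finiteIndex hN
  have hn0 : 0 < N.index := Nat.pos_of_ne_zero Subgroup.FiniteIndex.index_ne_zero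
  have hex : ∃ i, 0 < i ∧ Φ ^ i ∈ K := ⟨N.index, hn0, hNK (Subgroup.pow_index_mem N Φ)⟩
  set f := Nat.find hex with hfdef
  obtain ⟨hf0, hfK⟩ := Nat.find_spec hex
  have hdvd : ∀ i, Φ ^ i ∈ K → f ∣ i := fun i hi => by
    by_contra hni
    have hr : 0 < i % f := Nat.pos_of_ne_zero fun h => hni (Nat.dvd_of_mod_eq_zero h)
    refine Nat.find_min hex (Nat.mod_lt i hf0) ⟨hr, ?_⟩
    have := K.mul_mem (K.pow_mem (K.inv_mem hfK) (i / f)) hi
    have e : Φ ^ i = Φ ^ (f * (i / f)) * Φ ^ (i % f) := by rw [← pow_add, Nat.div_add_mod]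
    rwa [inv_pow, ← pow_mul, e, inv_mul_cancel_left] at this
  let φ : ↥K := ⟨Φ ^ f, hfK⟩
  let P := p * N.index
  have hp2 := (Fact.out : p.Prime).two_le
  have hP2 : 2 ≤ f * P := le_trans hp2 (le_trans (Nat.le_mul_of_pos_right _ hn0)
    (Nat.le_mul_of_pos_left _ hf0))
  set m := (q : ℕ) ^ (f * P) - 1 with hmdef
  have hm0 : m ≠ 0 := by
    have := Nat.one_lt_pow (show f * P ≠ 0 by omega) q.2.one_lt
    omega
  have : NeZero m := ⟨hm0⟩
  have hqm : ¬ (q : ℕ) ∣ m := fun h => by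
    have h1 : (q : ℕ) ∣ (q : ℕ) ^ (f * P) := dvd_pow_self _ (by omega)
    have h2 := Nat.dvd_sub h1 h
    rw [hmdef, Nat.sub_sub_self (Nat.one_le_pow _ _ q.2.pos)] at h2
    exact q.2.one_lt.ne' (Nat.dvd_one.mp h2)
  obtain ⟨ζ, hζ⟩ : ∃ ζ : Ω, IsPrimitiveRoot ζ m := HasEnoughRootsOfUnity.exists_primitiveRoot Ω m
  obtain ⟨E, hE, hEN⟩ := hN
  have := hE.1
  let F₀ : IntermediateField ℚ Ω := E ⊔ IntermediateField.adjoin ℚ {ζ}
  have : FiniteDimensional ℚ (IntermediateField.adjoin ℚ {ζ} : IntermediateField ℚ Ω) :=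
    IntermediateField.adjoin.finiteDimensional (Algebra.IsIntegral.isIntegral ζ)
  have : FiniteDimensional ℚ F₀ := IntermediateField.finiteDimensional_sup _ _
  have hF₀ : ∀ σ ∈ F₀.fixingSubgroup, σ ∈ N ∧ σ ζ = ζ := fun σ hσ =>
    ⟨hEN (IntermediateField.fixingSubgroup_antitone le_sup_left hσ),
      (IntermediateField.mem_fixingSubgroup_iff _ _).mp hσ ζ
        ((le_sup_right : _ ≤ F₀) (IntermediateField.mem_adjoin_simple_self ℚ ζ))⟩
  let D := decompIn K (Sum.inr q) g
  let r : ↥D → ↥K := decompToH K (Sum.inr q) g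
  let IsExp : ↥D → ℕ → Prop := fun d j =>
    (φ ^ j : ↥K).1⁻¹ * (r d : Γ) ∈ N ∧ (r d : Γ) ζ = ζ ^ (q : ℕ) ^ (f * j)
  have hexp : ∀ d, ∃ j, IsExp d j := fun d => by
    have hσ : (r d : Γ) ∈ A.decompositionSubgroup ℚ :=
      Descent.conjLoc_mem_decomposition q g d.1
    obtain ⟨i, τ, hτ, hi⟩ := TameInertia.exists_eq_frobenius_pow_mul q.2 hA hΦ hσ F₀
    obtain ⟨hiN, hiζ⟩ := hF₀ _ hi
    have hmem : (Φ ^ i)⁻¹ * (r d : Γ) ∈ N := by
      have := N.mul_mem (hNn.conj_mem _ (hIN hτ) 1) hiN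
      simpa [mul_assoc] using this
    have hiK : Φ ^ i ∈ K := by
      have := K.mul_mem (r d).2 (K.inv_mem (hNK hmem))
      simpa [mul_assoc] using this
    obtain ⟨j, rfl⟩ := hdvd i hiK
    refine ⟨j, by simpa [φ, ← pow_mul] using hmem, ?_⟩
    have h := congrArg (Φ ^ (f * j) * τ) hiζ
    rw [← AlgEquiv.mul_apply, mul_inv_cancel_left, AlgEquiv.mul_apply,
      BigImage.inertia_root_of_unity q.2 hA hτ hqm hζ.pow_eq_one] at h
    rw [h, TameInertia.frobenius_pow_root_of_unity q.2 hA hΦ hqm hζ.pow_eq_one]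
  let s : ℕ → ZMod p := fun j => ∑ t ∈ Finset.range j, (F : ↥K × ↥K → ZMod p) (φ ^ t, φ)
  have hφn : (φ ^ N.index : ↥K).1 ∈ N := Subgroup.pow_index_mem N _
  have hper : ∀ i j, i ≡ j [MOD P] → s i = s j := by
    have hstep : ∀ j, s (j + P) = s j := fun j => by
      have := sum_range_periodic (fun t => (F : ↥K × ↥K → ZMod p) (φ ^ t, φ)) N.index (fun t => ?_) p j
      · simpa [s, P, nsmul_eq_mul] using this
      · refine hFN _ _ _ _ ?_ (by simp)
        simpa [pow_add] using hφn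
    have hmul : ∀ c j, s (j + P * c) = s j := fun c => by
      induction c with
      | zero => simp
      | succ c ih => intro j; rw [mul_add, mul_one, ← add_assoc, hstep, ih]
    intro i j hij
    rw [← Nat.mod_add_div i P, ← Nat.mod_add_div j P, hmul, hmul, hij]
  have huniq : ∀ d i j, IsExp d i → IsExp d j → s i = s j := fun d i j hi hj =>
    hper i j (modEq_of_zeta q.2.two_le hP2 hζ (hi.2.symm.trans hj.2))
  let c₀ : ZMod p := (F : ↥K × ↥K → ZMod p) (1, 1)
  let x : ↥D → ZMod p := fun d => c₀ - s (hexp d).choose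
  have hx : ∀ d j, IsExp d j → x d = c₀ - s j := fun d j hj => by
    show c₀ - _ = c₀ - _
    rw [huniq d _ j (hexp d).choose_spec hj]
  rw [compS, LinearMap.comp_apply, Mor.map₂_map₂, Mor.map₂_mk, H2mk_eq_zero_iff, mem_B2_iff]
  refine ⟨x, ⟨(F₀.fixingSubgroup.subgroupOf K).comap (decompToH K (Sum.inr q) g),
    ⟨F₀.fixingSubgroup.subgroupOf K, ⟨F₀.fixingSubgroup, ⟨F₀, inferInstance, le_rfl⟩, le_rfl⟩,
      le_rfl⟩, fun d u hu => ?_⟩, ?_⟩
  · obtain ⟨j, hj⟩ := hexp d
    obtain ⟨huN, huζ⟩ := hF₀ _ (show (r u : Γ) ∈ F₀.fixingSubgroup from hu)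
    rw [hx d j hj, hx (d * u) j ⟨?_, ?_⟩]
    · simpa [r, mul_assoc] using N.mul_mem hj.1 huN
    · show ((r (d * u) : ↥K) : Γ) ζ = _
      rw [show r (d * u) = r d * r u from map_mul (decompToH K (Sum.inr q) g) d u,
        Subgroup.coe_mul, AlgEquiv.mul_apply, huζ, hj.2]
  · funext ⟨a, b⟩
    show d1 _ x (a, b) = (F : ↥K × ↥K → ZMod p) (r a, r b)
    obtain ⟨i, hi⟩ := hexp a
    obtain ⟨j, hj⟩ := hexp b
    have hab : IsExp (a * b) (i + j) := by
      refine ⟨?_, ?_⟩
      · rw [show r (a * b) = r a * r b from map_mul (decompToH K (Sum.inr q) g) a b]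
        have h1 := N.mul_mem (hNn.conj_mem _ hi.1 ((φ ^ j : ↥K) : Γ)⁻¹) hj.1
        simpa [pow_add, mul_assoc] using h1
      · rw [show r (a * b) = r a * r b from map_mul (decompToH K (Sum.inr q) g) a b,
          Subgroup.coe_mul, AlgEquiv.mul_apply, hj.2, map_pow, hi.2, ← pow_mul, ← pow_add,
          mul_add]
    rw [d1_apply, hx a i hi, hx b j hj, hx (a * b) (i + j) hab,
      hFN (φ ^ i) (φ ^ j) (r a) (r b) hi.1 hj.1, cocycle_pow_eq (muOn p K) hF φ i j]
    have hact : ∀ w, muOn p K (r a) w = muOn p K (φ ^ i) w := fun w => by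
      have h1 := LinearMap.congr_fun (hMμ _ (hNle hi.1).1.2) w
      show muRep p (r a : Γ) w = muRep p ((φ ^ i : ↥K) : Γ) w
      conv_lhs => rw [← mul_inv_cancel_left ((φ ^ i : ↥K) : Γ) (r a : Γ), map_mul,
        Module.End.mul_apply, h1, Module.End.one_apply]
    show muOn p K (r a) (c₀ - s j) - _ + _ = _
    rw [hact, map_sub]
    simp only [s, c₀]
    abel

end Fermat.Agent.GalCoh
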