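import Fermat.Agent.GalCoh.Additive
import Fermat.Agent.GalCoh.Unramified
import Fermat.Agent.Chebotarev.Main

/-!
# Every splitting level has a very large set of places
-/

set_option autoImplicit false

noncomputable section

namespace Fermat.Agent.GalCoh

open ExtCitation
open scoped Pointwise

local notation "Ω" => AlgebraicClosure ℚ
local notation "Γ" => (AlgebraicClosure ℚ ≃ₐ[ℚ] AlgebraicClosure ℚ)

variable {p : ℕ} [Fact p.Prime]

theorem levelsS_mono_mem {S S' : Finset Nat.Primes} (h : S ⊆ S') {U : Subgroup Γ}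
    (hU : (levelsS S).mem U) : (levelsS S').mem U := by
  obtain ⟨F, hF, hle⟩ := hU
  exact ⟨F, hF.mono h, hle⟩

/-- There are only finitely many groups above an open normal subgroup. -/
theorem finite_setOf_le {N : Subgroup Γ} (hN : fullLevels.mem N) (hNn : N.Normal) :
    {K : Subgroup Γ | N ≤ K}.Finite := by
  have : Finite (Γ ⧸ N) := finite_quotient hN
  have hinj : Set.InjOn (fun K : Subgroup Γ => K.map (QuotientGroup.mk' N)) {K | N ≤ K} :=
    fun K hK K' hK' e => by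
      have h := congrArg (Subgroup.comap (QuotientGroup.mk' N)) e
      simpa [Subgroup.comap_map_eq, sup_eq_left.mpr (show N ≤ K from hK),
        sup_eq_left.mpr (show N ≤ K' from hK')] using h
  exact Set.Finite.of_finite_image (Set.toFinite _) hinj

/-- A prime splitting completely, outside a finite set where the level is ramified. -/
theorem exists_splitIn {N : Subgroup Γ} (hN : fullLevels.mem N) (hNn : N.Normal)
    {S₀ : Finset Nat.Primes} (hS₀ : (levelsS S₀).mem N) :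
    ∃ q : Nat.Primes, SplitIn N q := by
  obtain ⟨L, hL, hLN⟩ := hN
  have := hL
  obtain ⟨E, hE, hEN⟩ := hS₀
  obtain ⟨ℓ, hℓ, hℓS, A, hA, σ, hσ, hσL⟩ :=
    Chebotarev.exists_isFrobeniusAt_eqOn L 1 (S₀.image fun q : Nat.Primes => (q : ℕ))
  have hσN : σ ∈ N := hLN ((IntermediateField.mem_fixingSubgroup_iff _ _).mpr fun a ha => by
    simpa using hσL a ha)
  let q : Nat.Primes := ⟨ℓ, hℓ⟩
  have hqS : q ∉ S₀ := fun h => hℓS (Finset.mem_image.mpr ⟨q, h, rfl⟩)
  have hIN : A.inertiaSubgroupIn ℚ ≤ N := (hE.2 q hqS A hA).trans hEN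
  have hdec : A.decompositionSubgroup ℚ ≤ N := fun x hx => by
    obtain ⟨n, τ, hτ, h⟩ := TameInertia.exists_eq_frobenius_pow_mul hℓ hA hσ hx L
    have := N.mul_mem (N.mul_mem (N.pow_mem hσN n) (hIN hτ)) (hLN h)
    rwa [mul_inv_cancel_left] at this
  obtain ⟨h, hh⟩ := Frobenius.exists_smul_eq_of_liesOverPrime_qbar hℓ hA
    (Descent.primeLocalPlace_liesOver q)
  refine ⟨q, fun d => ?_⟩
  have hd := Descent.conjLoc_mem_decomposition q 1 d
  rw [one_smul, ← hh] at hd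
  have hd' : h⁻¹ * conjLoc (Sum.inr q) 1 d * h ∈ A.decompositionSubgroup ℚ := by
    show (h⁻¹ * conjLoc (Sum.inr q) 1 d * h) • A = A
    rw [mul_smul, mul_smul, show conjLoc (Sum.inr q) 1 d • h • A = h • A from hd, inv_smul_smul]
  have := hNn.conj_mem _ (hdec hd') h
  simpa [mul_assoc, conjLoc] using this

/-- Descent makes every large `S` very large. -/
theorem exists_veryLarge (hD : DescentS p) {N : Subgroup Γ} (hN : IsSplittingLevel p N) :
    ∃ S₁ : Finset Nat.Primes, ∀ S, S₁ ⊆ S → VeryLarge p S N := by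
  classical
  obtain ⟨Sram, hram⟩ := Descent.exists_levelsS_mem hN.mem
  have hle := finite_setOf_le hN.mem hN.normal
  have hfull : ∀ K ∈ hle.toFinset, fullLevels.mem K := fun K hK =>
    fullLevels.mono hN.mem (hle.mem_toFinset.mp hK)
  choose SD hSD using fun K : hle.toFinset => hD K.1 (hfull K.1 K.2)
  obtain ⟨q, hq⟩ := exists_splitIn hN.mem hN.normal hram
  have hsign : ∀ (K : hle.toFinset) (x : Γ ⧸ K.1), ∃ S₀ : Finset Nat.Primes, p = 2 →
      ∀ h : conjC x.out⁻¹ ∈ K.1, ∀ S, S₀ ⊆ S →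
        ∃ θ ∈ Z1 (levelsSOn K.1 S) (Representation.trivial (ZMod p) ↥K.1 (ZMod p)),
          θ (realInv x.out⁻¹ h) = 1 ∧ ∀ (g : Γ) (hg : conjC g ∈ K.1),
            placePoint K.1 g ≠ placePoint K.1 x.out⁻¹ → θ (realInv g hg) = 0 := by
    intro K x
    by_cases hp : p = 2 ∧ conjC x.out⁻¹ ∈ K.1
    · obtain ⟨rfl, hx⟩ := hp
      obtain ⟨S₀, hS₀⟩ := exists_sign_character (hfull K.1 K.2) x.out⁻¹ hx
      exact ⟨S₀, fun _ _ S hS => hS₀ S hS⟩
    · exact ⟨∅, fun h2 hx => absurd ⟨h2, hx⟩ hp⟩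
  choose SS hSS using hsign
  have hfin : ∀ K : hle.toFinset, Finite (Γ ⧸ K.1) := fun K => finite_quotient (hfull K.1 K.2)
  let : ∀ K : hle.toFinset, Fintype (Γ ⧸ K.1) := fun K => Fintype.ofFinite _
  refine ⟨Sram ∪ {pPrime p, q} ∪
    Finset.univ.biUnion (fun K : hle.toFinset => SD K ∪ Finset.univ.biUnion (SS K)),
    fun S hS => ?_⟩
  simp only [Finset.union_subset_iff, Finset.insert_subset_iff, Finset.singleton_subset_iff,
    Finset.biUnion_subset] at hS
  obtain ⟨⟨hS1, hpS, hqS⟩, hS2⟩ := hS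
  have hlevel : (levelsS S).mem N := levelsS_mono_mem hS1 hram
  refine ⟨⟨hN, hlevel, hpS, ⟨q, hqS, hq⟩, fun K hK => ?_⟩, fun hp K hK g₀ h₀ => ?_⟩
  · obtain ⟨hi, hs⟩ := hSD ⟨K, hle.mem_toFinset.mpr hK⟩ S (hS2 _ (Finset.mem_univ _)).1
    have hKm := (levelsS S).mono hlevel hK
    exact ⟨hKm, hi, hs, fun v g hv z =>
      compS_eq_zero_of_notMem (isCtsRep_muRep_of_mem hlevel hN.mu) hKm v g hv z⟩
  · set x := placePoint K g₀ with hxdef
    obtain ⟨⟨k, hk⟩, e⟩ := QuotientGroup.mk_out_eq_mul K g₀⁻¹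
    have hxe : x.out⁻¹ = k⁻¹ * g₀ := by
      rw [hxdef, show (placePoint K g₀).out = g₀⁻¹ * k from e]; group
    have hx : conjC x.out⁻¹ ∈ K := by
      rw [hxe]
      have := K.mul_mem (K.mul_mem (K.inv_mem hk) h₀) hk
      simpa [mul_assoc] using this
    obtain ⟨θ, hθ, h1, h0⟩ := hSS ⟨K, hle.mem_toFinset.mpr hK⟩ x hp hx S
      ((hS2 ⟨K, hle.mem_toFinset.mpr hK⟩ (Finset.mem_univ _)).2 x (Finset.mem_univ _))
    refine ⟨θ, hθ, ?_, fun g hg hne => h0 g hg ?_⟩
    · have hc : realInv g₀ h₀ = ⟨k, hk⟩ * realInv x.out⁻¹ hx * (⟨k, hk⟩ : ↥K)⁻¹ :=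
        Subtype.ext (by simp [hxe, mul_assoc])
      have hadd := (mem_Z1_iff.mp hθ).1
      simp only [Representation.trivial_apply] at hadd
      rw [hc, hadd, hadd, h1]
      have h' := hadd ⟨k, hk⟩ (⟨k, hk⟩ : ↥K)⁻¹
      rw [mul_inv_cancel, Z1.map_one hθ] at h'
      linear_combination -h'
    · rwa [show placePoint K x.out⁻¹ = placePoint K g₀ by
        rw [placePoint, inv_inv, QuotientGroup.out_eq']]

/-- The Euler defect is additive. -/
theorem eulerAdditive_of (hC : CFTInputs p) : EulerAdditive p := by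
  intro N hN
  obtain ⟨S₁, hS₁⟩ := exists_veryLarge hC.descentS hN
  exact ⟨S₁, fun S hS H hH A B C _ _ _ _ _ _ _ α β γ hβ Q hA hγ =>
    eulerDefect_additive (hS₁ S hS) hC hH hβ Q hA hγ⟩

end Fermat.Agent.GalCoh
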