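import Fermat.Agent.GalCoh.Lifting
import Mathlib.GroupTheory.Sylow

/-!
# Right exactness up to real components, and surjectivity onto them
-/

set_option autoImplicit false

noncomputable section

namespace Fermat.Agent.GalCoh

open Representation (IntertwiningMap)
open ExtCitation Module MulAction

local notation "Γ" => (AlgebraicClosure ℚ ≃ₐ[ℚ] AlgebraicClosure ℚ)

theorem zmod_two_eq_one : ∀ a : ZMod 2, a ≠ 0 → a = 1 := by decide

variable {p : ℕ} [Fact p.Prime] {S : Finset Nat.Primes} {H K N : Subgroup Γ}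
  {V : Type} [AddCommGroup V] [Module (ZMod p) V]

/-- Restriction from `H` to `K`. -/
def resToSub (S : Finset Nat.Primes) (hKH : K ≤ H) (σ : Representation (ZMod p) ↥H V) :
    Mor (levelsSOn H S) (levelsSOn K S) σ (σ.comp (Subgroup.inclusion hKH)) where
  f := Subgroup.inclusion hKH
  φ := LinearMap.id
  comm _ _ := rfl
  compat := (levelsS S).compat_of_comp_eq _ rfl

/-- From `K` to the subgroup `K` of `H`. -/
def backToSub (S : Finset Nat.Primes) (hKH : K ≤ H) (σ : Representation (ZMod p) ↥H V) :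
    Mor (levelsSOn K S) ((levelsSOn H S).comap (K.subgroupOf H).subtype)
      (σ.comp (Subgroup.inclusion hKH)) (σ.comp (K.subgroupOf H).subtype) where
  f := (H.subtype.comp (K.subgroupOf H).subtype).codRestrict K fun x => x.2
  φ := LinearMap.id
  comm _ _ := rfl
  compat := by
    unfold levelsSOn
    rw [Levels.comap_comap]
    exact (levelsS S).compat_of_comp_eq _ rfl

theorem TrivialOn.comp_inclusion {σ : Representation (ZMod p) ↥H V} (hσ : TrivialOn H σ N)
    (hKH : K ≤ H) : TrivialOn K (σ.comp (Subgroup.inclusion hKH)) N :=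
  fun x hx => hσ (Subgroup.inclusion hKH x) hx

theorem tateMk_of_comp {k G G' U : Type} [CommRing k] [Group G] [Group G'] [AddCommGroup U]
    [Module k U] {ρ : Representation k G U} {f : G' →* G} {d : G'} {ι : G} {v v' : U}
    (hd : f d = ι) (h : tateMk (ρ.comp f) d v = tateMk (ρ.comp f) d v') :
    tateMk ρ ι v = tateMk ρ ι v' := by
  subst hd
  exact h

section Sylow

variable {B C : Type} [AddCommGroup B] [Module (ZMod p) B] [AddCommGroup C] [Module (ZMod p) C]
  {β : Representation (ZMod p) ↥H B} {γ : Representation (ZMod p) ↥H C}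

/-- A surjection, over a subgroup. -/
def subMap (hKH : K ≤ H) (j : IntertwiningMap β γ) :
    IntertwiningMap (β.comp (Subgroup.inclusion hKH)) (γ.comp (Subgroup.inclusion hKH)) :=
  LinearMap.intertwiningMap_of_isIntertwiningMap _ _ j.toLinearMap fun g v => by
    exact Representation.IntertwiningMap.isIntertwining β γ j (Subgroup.inclusion hKH g) v

theorem mem_range_of_index (h : LargeS p S N) (hN : N ≤ K) (hKH : K ≤ H)
    (hγ : TrivialOn H γ N) (hβ : TrivialOn H β N) (j : IntertwiningMap β γ)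
    (hidx : ¬ p ∣ (K.subgroupOf H).index) (z : H2 (levelsSOn H S) γ)
    (w : H2 (levelsSOn K S) (β.comp (Subgroup.inclusion hKH)))
    (hw : (Mor.ofMap _ (subMap hKH j)).map₂ w = (resToSub S hKH γ).map₂ z) :
    z ∈ LinearMap.range (Mor.ofMap (levelsSOn H S) j).map₂ := by
  have hmem : (levelsSOn H S).mem (K.subgroupOf H) := ⟨N, h.level, fun x hx => hN hx⟩
  have := finite_quotient hmem
  let : Fintype (↥H ⧸ K.subgroupOf H) := Fintype.ofFinite _
  have hctsβ : IsCtsRep (levelsSOn H S) β := isCtsRep_of_trivialOn h.level hβ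
  have hctsγ : IsCtsRep (levelsSOn H S) γ := isCtsRep_of_trivialOn h.level hγ
  let X := ↥H ⧸ K.subgroupOf H
  obtain ⟨W, hW⟩ := (evalMor_map₂_bijective hctsβ hmem).2 ((backToSub S hKH β).map₂ w)
  have e : (Mor.ofMap (levelsSOn H S) (permMap j X)).map₂ W =
      (Mor.ofMap (levelsSOn H S) (constMap γ X)).map₂ z := by
    apply (evalMor_map₂_bijective hctsγ hmem).1
    let jK : IntertwiningMap (β.comp (K.subgroupOf H).subtype)
        (γ.comp (K.subgroupOf H).subtype) :=
      LinearMap.intertwiningMap_of_isIntertwiningMap _ _ j.toLinearMap fun g v => by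
        exact Representation.IntertwiningMap.isIntertwining β γ j ((K.subgroupOf H).subtype g) v
    have e1 : (evalMor (levelsSOn H S) γ (K.subgroupOf H)).map₂
        ((Mor.ofMap (levelsSOn H S) (permMap j X)).map₂ W) =
        (Mor.ofMap _ jK).map₂ ((evalMor (levelsSOn H S) β (K.subgroupOf H)).map₂ W) := by
      refine Mor.map₂_square _ _ _ _ ?_ ?_ W <;> rfl
    rw [e1, hW]
    have e2 : (Mor.ofMap _ jK).map₂ ((backToSub S hKH β).map₂ w) =
        (backToSub S hKH γ).map₂ ((Mor.ofMap _ (subMap hKH j)).map₂ w) := by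
      refine Mor.map₂_square _ _ _ _ ?_ ?_ w <;> rfl
    refine (e2.trans (congrArg (backToSub S hKH γ).map₂ hw)).trans ?_
    refine Mor.map₂_square _ _ _ _ ?_ ?_ z <;> rfl
  have e' : (Mor.ofMap (levelsSOn H S) (sumMap γ X)).map₂
      ((Mor.ofMap (levelsSOn H S) (constMap γ X)).map₂ z) = (Fintype.card X : ZMod p) • z := by
    obtain ⟨F, rfl⟩ := H2mk_surjective z
    rw [Mor.map₂_mk, Mor.map₂_mk, ← map_smul]
    refine congrArg _ (Subtype.ext (funext fun q => ?_))
    show sumMap γ X (constMap γ X _) = _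
    rw [sumMap_constMap, ← Nat.cast_smul_eq_nsmul (ZMod p)]
    rfl
  have e3 : (Mor.ofMap (levelsSOn H S) j).map₂ ((Mor.ofMap (levelsSOn H S) (sumMap β X)).map₂ W) =
      (Fintype.card X : ZMod p) • z := by
    refine Eq.trans ?_ ((congrArg (Mor.ofMap (levelsSOn H S) (sumMap γ X)).map₂ e).trans e')
    refine Mor.map₂_square _ _ _ _ ?_ ?_ W
    · rfl
    · refine LinearMap.ext fun f => ?_
      show j (sumMap β X f) = sumMap γ X (permMap j X f)
      simp [map_sum]
  have hc : (Fintype.card X : ZMod p) ≠ 0 := by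
    rwa [Ne, ZMod.natCast_eq_zero_iff, ← Nat.card_eq_fintype_card]
  refine ⟨(Fintype.card X : ZMod p)⁻¹ • (Mor.ofMap (levelsSOn H S) (sumMap β X)).map₂ W, ?_⟩
  rw [map_smul, e3, inv_smul_smul₀ hc]

/-- A Sylow layer. -/
theorem exists_sylow_layer (hN : IsSplittingLevel p N) (hNH : N ≤ H) :
    ∃ K : Subgroup Γ, N ≤ K ∧ K ≤ H ∧ ¬ p ∣ (K.subgroupOf H).index ∧
      ∀ x : ↥K, ∃ k : ℕ, (x : Γ) ^ p ^ k ∈ N := by
  have : (N.subgroupOf H).Normal := hN.normal.comap H.subtype
  have hfin : Finite (↥H ⧸ N.subgroupOf H) :=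
    finite_quotient (L := fullLevels.comap H.subtype) ⟨N, hN.mem, le_rfl⟩
  obtain ⟨P⟩ : Nonempty (Sylow p (↥H ⧸ N.subgroupOf H)) := inferInstance
  let Kh : Subgroup ↥H := (P : Subgroup _).comap (QuotientGroup.mk' (N.subgroupOf H))
  have hKh : (Kh.map H.subtype).subgroupOf H = Kh :=
    Subgroup.comap_map_eq_self_of_injective Subtype.val_injective Kh
  refine ⟨Kh.map H.subtype, fun x hx => ⟨⟨x, hNH hx⟩, ?_, rfl⟩, ?_, ?_, ?_⟩
  · show ((⟨x, hNH hx⟩ : ↥H) : ↥H ⧸ N.subgroupOf H) ∈ (P : Subgroup _)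
    rw [(QuotientGroup.eq_one_iff _).mpr (show (⟨x, hNH hx⟩ : ↥H) ∈ N.subgroupOf H from hx)]
    exact one_mem _
  · rintro _ ⟨x, -, rfl⟩
    exact x.2
  · rw [hKh, Subgroup.index_comap_of_surjective _ (QuotientGroup.mk'_surjective _)]
    exact P.not_dvd_index
  · rintro ⟨_, x, hx, rfl⟩
    obtain ⟨k, hk⟩ := P.isPGroup' ⟨_, hx⟩
    refine ⟨k, ?_⟩
    have := congrArg Subtype.val hk
    rw [SubgroupClass.coe_pow, OneMemClass.coe_one, ← map_pow] at this
    have h' : x ^ p ^ k ∈ N.subgroupOf H := (QuotientGroup.eq_one_iff _).mp this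
    simpa [Subgroup.mem_subgroupOf] using h'

/-- Right exactness up to real components. -/
theorem mem_range_of_realVanish (h : VeryLarge p S N) (hC : CFTInputs p) (hNH : N ≤ H)
    [FiniteDimensional (ZMod p) C] (hβ : TrivialOn H β N) (hγ : TrivialOn H γ N)
    (j : IntertwiningMap β γ) (hj : Function.Surjective j) (z : H2 (levelsSOn H S) γ)
    (hz : RealVanish γ z) :
    z ∈ LinearMap.range (Mor.ofMap (levelsSOn H S) j).map₂ := by
  obtain ⟨K, hNK, hKH, hidx, hpg⟩ := exists_sylow_layer h.large.split_level hNH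
  have hres : RealVanish (γ.comp (Subgroup.inclusion hKH)) ((resToSub S hKH γ).map₂ z) :=
    fun g hg => realComp_map₂_eq_zero (resToSub S hKH γ) _ _ rfl (hz g (hKH hg))
  obtain ⟨w, -, hw⟩ := (isSumClass_of_realVanish h hC hNK hpg _ C _ (hγ.comp_inclusion hKH)
    le_rfl _ hres).exists_lift (hβ.comp_inclusion hKH) (hγ.comp_inclusion hKH) (subMap hKH j) hj
  exact mem_range_of_index h.large hNK hKH hγ hβ j hidx z w hw

end Sylow

section Surj

variable (σ : Representation (ZMod p) ↥H V)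

/-- In characteristic two, `μ_2 / 2` is `μ_2`. -/
theorem eq_zero_of_tateMk_muOn (hp : p = 2) {ι : ↥K} {c : ZMod p}
    (hc : tateMk (muOn p K) ι c = 0) : c = 0 := by
  obtain ⟨w, hw⟩ := tateMk_eq_zero_iff.mp hc
  subst hp
  rw [← hw]
  show muRep 2 (ι : Γ) w + w = 0
  have h1 : (cycloChar 2 (ι : Γ) : ZMod 2) = 1 := by
    exact zmod_two_eq_one _ (Units.ne_zero _)
  rw [muRep_apply, h1, one_mul]
  exact CharTwo.add_self_eq_zero w

/-- The stabilizer of a vector, in the absolute Galois group. -/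
def vecStab (v : V) : Subgroup Γ :=
  Subgroup.map H.subtype
    { carrier := {x | σ x v = v}
      one_mem' := by simp
      mul_mem' := fun {a b} ha hb => by
        show σ (a * b) v = v
        rw [map_mul, Module.End.mul_apply, hb, ha]
      inv_mem' := fun {a} ha => by
        show σ a⁻¹ v = v
        conv_lhs => rw [← show σ a v = v from ha]
        rw [← Module.End.mul_apply, ← map_mul, inv_mul_cancel, map_one, Module.End.one_apply] }

theorem vecStab_le (v : V) : vecStab σ v ≤ H := by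
  rintro _ ⟨x, -, rfl⟩
  exact x.2

theorem mem_vecStab {v : V} {x : Γ} :
    x ∈ vecStab σ v ↔ ∃ hx : x ∈ H, σ ⟨x, hx⟩ v = v :=
  ⟨by rintro ⟨y, hy, rfl⟩; exact ⟨y.2, hy⟩, fun ⟨hx, h⟩ => ⟨⟨x, hx⟩, h, rfl⟩⟩

/-- A class with prescribed component at one real point, none at the others. -/
theorem exists_point_realComp (h : VeryLarge p S N) (hC : CFTInputs p) (hp : p = 2)
    (hNH : N ≤ H) (hσ : TrivialOn H σ N) (g₀ : Γ) (h₀ : conjC g₀ ∈ H) (v : V)
    (hv : σ (realInv g₀ h₀) v = v) :
    ∃ z : H2 (levelsSOn H S) σ,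
      realComp (levelsSOn H S) σ (realInv g₀ h₀) (realInv_mul_self g₀ h₀) z = tateMk σ _ v ∧
      ∀ (g : Γ) (hg : conjC g ∈ H), placePoint H g ≠ placePoint H g₀ →
        realComp (levelsSOn H S) σ (realInv g hg) (realInv_mul_self g hg) z = 0 := by
  classical
  have hNK : N ≤ vecStab σ v := fun x hx =>
    (mem_vecStab σ).mpr ⟨hNH hx, by rw [hσ _ hx]; rfl⟩
  have hKH := vecStab_le σ v
  generalize hK : vecStab σ v = K at hNK hKH
  have h₀K : conjC g₀ ∈ K := hK ▸ (mem_vecStab σ).mpr ⟨h₀, hv⟩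
  have hfixv : ∀ x : ↥K, σ (Subgroup.inclusion hKH x) v = v := fun x => by
    have hx : (x : Γ) ∈ vecStab σ v := hK.symm ▸ x.2
    exact ((mem_vecStab σ).mp hx).2
  obtain ⟨y, hy1, hy0⟩ := exists_real_class h.large hC hp hNK g₀ h₀K
  have hchi : ∀ x : Γ, (cycloChar p x : ZMod p) = 1 := fun x => by
    have : Fintype.card (ZMod p)ˣ ≤ 1 := by rw [ZMod.card_units, hp]
    rw [Fintype.card_le_one_iff.mp this (cycloChar p x) 1, Units.val_one]
  let vm : IntertwiningMap (muOn p K) (σ.comp (Subgroup.inclusion hKH)) :=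
    LinearMap.intertwiningMap_of_isIntertwiningMap _ _ (LinearMap.toSpanSingleton (ZMod p) V v)
      fun x a => by
        simp [muRep_apply, hchi, hfixv, map_smul]
  have hmem : (levelsSOn H S).mem (K.subgroupOf H) := ⟨N, h.large.level, fun x hx => hNK hx⟩
  have := finite_quotient hmem
  let : Fintype (↥H ⧸ K.subgroupOf H) := Fintype.ofFinite _
  have hcts : IsCtsRep (levelsSOn H S) σ := isCtsRep_of_trivialOn h.large.level hσ
  obtain ⟨W, hW⟩ := (evalMor_map₂_bijective hcts hmem).2
    ((backToSub S hKH σ).map₂ ((Mor.ofMap _ vm).map₂ y))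
  refine ⟨(Mor.ofMap (levelsSOn H S) (sumMap σ _)).map₂ W, ?_⟩
  have hpoint : ∀ (g : Γ) (hg : conjC g ∈ H) (a : ↥H) (f : ↥H ⧸ K.subgroupOf H → V),
      realComp (levelsSOn H S) (permRep σ _) (realInv g hg) (realInv_mul_self g hg) W =
        tateMk _ _ f →
      realInv g hg • ((a : ↥H) : ↥H ⧸ K.subgroupOf H) = ((a : ↥H) : _) →
      ∃ (hga : conjC ((a : Γ)⁻¹ * g) ∈ K) (c : ZMod p),
        realComp (levelsSOn K S) (muOn p K) (realInv _ hga) (realInv_mul_self _ hga) y =
            tateMk _ _ c ∧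
          tateMk σ (realInv g hg) (f (a : ↥H)) = tateMk σ _ (σ a (c • v)) := by
    intro g hg a f hf hfix
    let d : ↥(stabilizer ↥H ((a : ↥H) : ↥H ⧸ K.subgroupOf H)) := ⟨realInv g hg, hfix⟩
    have hd : d * d = 1 := Subtype.ext (realInv_mul_self g hg)
    have hga : conjC ((a : Γ)⁻¹ * g) ∈ K := by
      have h' := hfix
      rw [MulAction.Quotient.smul_coe, eq_comm, QuotientGroup.eq, Subgroup.mem_subgroupOf] at h'
      simpa [mul_assoc] using h'
    obtain ⟨c, -, hc⟩ := exists_fixed_realComp _ (realInv_mul_self _ hga) y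
    refine ⟨hga, c, hc, ?_⟩
    let M := (Mor.ofMap (levelsSOn K S) vm).comp
      ((backToSub S hKH σ).comp (translateMor (levelsSOn H S) σ (K.subgroupOf H) a))
    have hM : M.f d = realInv ((a : Γ)⁻¹ * g) hga := by
      refine Subtype.ext ?_
      show (a : Γ)⁻¹ * (g * complexConjugation * g⁻¹) * (a : Γ)⁻¹⁻¹ = _
      simp [mul_assoc]
    have hy' : (pointMor (levelsSOn H S) σ ((a : ↥H) : ↥H ⧸ K.subgroupOf H)).map₂ W = M.map₂ y :=
      (pointMor_coe_map₂ a W).trans ((congrArg _ hW).trans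
        ((Mor.map₂_map₂ (backToSub S hKH σ) (translateMor (levelsSOn H S) σ (K.subgroupOf H) a)
          _).trans (Mor.map₂_map₂ (Mor.ofMap (levelsSOn K S) vm) _ y)))
    have e1 := (realComp_map₂ (pointMor (levelsSOn H S) σ ((a : ↥H) : ↥H ⧸ K.subgroupOf H))
      (realInv_mul_self g hg) hd (ι := realInv g hg) rfl W).trans (congrArg _ hf)
    have e2 := (realComp_map₂ M (realInv_mul_self _ hga) hd hM y).trans (congrArg _ hc)
    have l1 := tateMap_mk (pointMor (levelsSOn H S) σ ((a : ↥H) : ↥H ⧸ K.subgroupOf H))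
      (ι := realInv g hg) (ι' := d) rfl f
    have l2 := tateMap_mk M hM c
    exact tateMk_of_comp (d := d) rfl
      ((l1.symm.trans (e1.symm.trans ((congrArg _ hy').trans e2))).trans l2)
  constructor
  · obtain ⟨f, -, hf, e⟩ := realComp_sum (realInv_mul_self g₀ h₀) W
    rw [e]
    rw [Finset.sum_eq_single ((1 : ↥H) : ↥H ⧸ K.subgroupOf H)]
    · obtain ⟨hga, c, hc, e1⟩ := hpoint g₀ h₀ 1 f hf (by
        rw [MulAction.Quotient.smul_coe, eq_comm, QuotientGroup.eq, Subgroup.mem_subgroupOf]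
        simpa using h₀K)
      have hι : realInv (((1 : ↥H) : Γ)⁻¹ * g₀) hga = realInv g₀ h₀K := Subtype.ext (by simp)
      rw [e1, map_one, Module.End.one_apply]
      have hc1 : c = 1 := by
        have key : ∀ g', g' = g₀ → ∀ hg' : conjC g' ∈ K,
            realComp (levelsSOn K S) (muOn p K) (realInv g' hg') (realInv_mul_self g' hg') y =
              tateMk _ _ c → c ≠ 0 := by
          rintro g' rfl hg' hc' h0
          exact hy1 (hc'.trans (by rw [h0, map_zero]))
        have hne : c ≠ 0 := key _ (by simp) hga hc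
        subst hp
        exact zmod_two_eq_one c hne
      rw [hc1, one_smul]
    · intro x hx hne
      obtain ⟨a, rfl⟩ := QuotientGroup.mk_surjective x
      obtain ⟨hga, c, hc, e1⟩ := hpoint g₀ h₀ a f hf (by simpa using hx)
      rw [hy0 _ hga fun e => hne ?_, eq_comm] at hc
      · rw [e1]
        have : c = 0 := eq_zero_of_tateMk_muOn hp hc
        rw [this, zero_smul, map_zero, map_zero]
      · rw [placePoint, placePoint, QuotientGroup.eq] at e
        rw [QuotientGroup.eq, Subgroup.mem_subgroupOf]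
        simpa using e
    · intro hh
      refine absurd ?_ hh
      simp only [Finset.mem_filter, Finset.mem_univ, true_and]
      rw [MulAction.Quotient.smul_coe, eq_comm, QuotientGroup.eq, Subgroup.mem_subgroupOf]
      simpa using h₀K
  · intro g hg hne
    obtain ⟨f, -, hf, e⟩ := realComp_sum (realInv_mul_self g hg) W
    rw [e]
    refine Finset.sum_eq_zero fun x hx => ?_
    obtain ⟨a, rfl⟩ := QuotientGroup.mk_surjective x
    obtain ⟨hga, c, hc, e1⟩ := hpoint g hg a f hf (by simpa using hx)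
    rw [hy0 _ hga fun e' => hne ?_, eq_comm] at hc
    · rw [e1]
      have : c = 0 := eq_zero_of_tateMk_muOn hp hc
      rw [this, zero_smul, map_zero, map_zero]
    · rw [placePoint, placePoint, QuotientGroup.eq] at e' ⊢
      have := H.mul_mem a.2 (hKH e')
      simpa [mul_assoc] using this

/-- Classes with prescribed real components. -/
theorem exists_realComp_eq (h : VeryLarge p S N) (hC : CFTInputs p) (hNH : N ≤ H)
    (hσ : TrivialOn H σ N) (a : Γ ⧸ H → V)
    (ha : ∀ (x : Γ ⧸ H) (hx : conjC x.out⁻¹ ∈ H), σ (realInv x.out⁻¹ hx) (a x) = a x) :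
    ∃ z : H2 (levelsSOn H S) σ, ∀ (x : Γ ⧸ H) (hx : conjC x.out⁻¹ ∈ H),
      realComp (levelsSOn H S) σ (realInv x.out⁻¹ hx) (realInv_mul_self _ hx) z =
        tateMk σ _ (a x) := by
  classical
  by_cases hp : p = 2
  · have : Finite (Γ ⧸ H) := finite_quotient (h.large.mem_of_le hNH)
    let : Fintype (Γ ⧸ H) := Fintype.ofFinite _
    have hex : ∀ x : Γ ⧸ H, ∃ z : H2 (levelsSOn H S) σ,
        ∀ (y : Γ ⧸ H) (hy : conjC y.out⁻¹ ∈ H),
          realComp (levelsSOn H S) σ (realInv y.out⁻¹ hy) (realInv_mul_self _ hy) z =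
            if y = x then tateMk σ _ (a y) else 0 := by
      intro x
      by_cases hx : conjC x.out⁻¹ ∈ H
      · obtain ⟨z, h1, h0⟩ := exists_point_realComp σ h hC hp hNH hσ _ hx _ (ha x hx)
        refine ⟨z, fun y hy => ?_⟩
        split_ifs with e
        · subst e
          exact h1
        · exact h0 _ hy (by simpa [placePoint] using e)
      · exact ⟨0, fun y hy => by rw [map_zero, if_neg]; rintro rfl; exact hx hy⟩
    choose z hz using hex
    exact ⟨∑ x, z x, fun y hy => by simp [map_sum, hz _ y hy]⟩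
  · refine ⟨0, fun x hx => ?_⟩
    rw [map_zero, eq_comm]
    refine tateMk_eq_zero_of_isUnit ?_ (ha x hx)
    refine (ne_of_apply_ne (ZMod.val) ?_).isUnit
    have h2 : 2 < p := lt_of_le_of_ne (Fact.out : p.Prime).two_le (Ne.symm hp)
    rw [ZMod.val_zero, show ((2 : ZMod p)) = ((2 : ℕ) : ZMod p) by norm_num,
      ZMod.val_natCast_of_lt h2]
    norm_num

end Surj

end Fermat.Agent.GalCoh
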