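import Fermat.Agent.GalCoh.Induced

/-!
# Conjugation invariance and the orbit decomposition of permutation modules
-/

set_option autoImplicit false

noncomputable section

namespace Fermat.Agent.GalCoh

open Representation (IntertwiningMap)

variable {k : Type} [CommRing k] {G : Type} [Group G] {V : Type} [AddCommGroup V] [Module k V]
  {L : Levels G} {ρ : Representation k G V}

/-- The morphism `(conjugation by g, action of g⁻¹)`. -/
def conjMor (L : Levels G) (ρ : Representation k G V) (g : G) : Mor L L ρ ρ where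
  f := (MulAut.conj g).toMonoidHom
  φ := ρ g⁻¹
  comm x v := by
    simp only [MulEquiv.coe_toMonoidHom, MulAut.conj_apply, ← Module.End.mul_apply, ← map_mul]
    simp [mul_assoc]
  compat := fun U hU => by
    obtain ⟨N, hN, hNn, hNU⟩ := L.exists_normal hU
    exact L.mono hN fun x hx => hNU (by simpa using hNn.conj_mem x hx g)

/-- Inner automorphisms act trivially on second cohomology. -/
theorem conjMor_map₂ (g : G) (z : H2 L ρ) : (conjMor L ρ g).map₂ z = z := by
  obtain ⟨F, rfl⟩ := H2mk_surjective z
  rw [Mor.map₂_mk, H2mk_eq_iff, mem_B2_iff]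
  have hF := mem_Z2_iff.mp F.2
  have hu : L.IsCts₁ (fun x => (F : G × G → V) (g⁻¹, g * x * g⁻¹) - (F : G × G → V) (x, g⁻¹)) := by
    obtain ⟨U, hU, h⟩ := hF.2
    obtain ⟨N, hN, hNn, hNU⟩ := L.exists_normal hU
    refine ⟨N, hN, fun x s hs => ?_⟩
    have h1 := h g⁻¹ (g * x * g⁻¹) 1 (Subgroup.one_mem _) (g * s * g⁻¹)
      (hNU (hNn.conj_mem s hs g))
    have h2 := h x g⁻¹ s (hNU hs) 1 (Subgroup.one_mem _)
    rw [mul_one] at h1 h2
    have e : g * (x * s) * g⁻¹ = g * x * g⁻¹ * (g * s * g⁻¹) := by group
    show (F : G × G → V) (g⁻¹, g * (x * s) * g⁻¹) - (F : G × G → V) (x * s, g⁻¹) = _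
    rw [e, h1, h2]
  refine ⟨_, hu, ?_⟩
  ext ⟨x, y⟩
  show _ = ρ g⁻¹ ((F : G × G → V) (g * x * g⁻¹, g * y * g⁻¹)) - (F : G × G → V) (x, y)
  have c1 := hF.1 x g⁻¹ (g * y * g⁻¹)
  have c2 := hF.1 x y g⁻¹
  have c3 := hF.1 g⁻¹ (g * x * g⁻¹) (g * y * g⁻¹)
  have e1 : g⁻¹ * (g * x * g⁻¹) = x * g⁻¹ := by group
  have e2 : g⁻¹ * (g * y * g⁻¹) = y * g⁻¹ := by group
  have e3 : g * x * g⁻¹ * (g * y * g⁻¹) = g * (x * y) * g⁻¹ := by group
  rw [e2] at c1
  rw [e1, e3] at c3
  simp only [d1_apply, map_sub]
  rw [← sub_eq_zero] at c1 c2 c3 ⊢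
  linear_combination (norm := abel) -c1 + c2 + c3

section Orbit

variable {X : Type} [MulAction G X]

/-- Restriction of a function on `X` to the orbit of `x`, on the cosets of the stabilizer. -/
def orbitPull (ρ : Representation k G V) (x : X) :
    IntertwiningMap (permRep ρ X) (permRep ρ (G ⧸ MulAction.stabilizer G x)) :=
  LinearMap.intertwiningMap_of_isIntertwiningMap _ _
    (LinearMap.pi fun y => LinearMap.proj (MulAction.ofQuotientStabilizer G x y)) fun g f => by
    ext y
    simp [MulAction.ofQuotientStabilizer_smul]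

@[simp] theorem orbitPull_apply (x : X) (f : X → V) (y : G ⧸ MulAction.stabilizer G x) :
    orbitPull ρ x f y = f (MulAction.ofQuotientStabilizer G x y) := rfl

/-- The orbit map as an equivariant map. -/
def orbitHom (x : X) : (G ⧸ MulAction.stabilizer G x) →[G] X where
  toFun := MulAction.ofQuotientStabilizer G x
  map_smul' g y := MulAction.ofQuotientStabilizer_smul G x g y

/-- Extension by zero from an orbit. -/
def orbitPush [Finite X] (ρ : Representation k G V) (x : X) :
    IntertwiningMap (permRep ρ (G ⧸ MulAction.stabilizer G x)) (permRep ρ X) :=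
  have : Finite (G ⧸ MulAction.stabilizer G x) :=
    Finite.of_injective _ (MulAction.injective_ofQuotientStabilizer G x)
  letI : Fintype (G ⧸ MulAction.stabilizer G x) := Fintype.ofFinite _
  pushMap ρ (orbitHom x)

open Classical in
theorem orbitPush_orbitPull [Finite X] (x : X) (f : X → V) (y : X) :
    orbitPush ρ x (orbitPull ρ x f) y = if y ∈ MulAction.orbit G x then f y else 0 := by
  have : Finite (G ⧸ MulAction.stabilizer G x) :=
    Finite.of_injective _ (MulAction.injective_ofQuotientStabilizer G x)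
  let : Fintype (G ⧸ MulAction.stabilizer G x) := Fintype.ofFinite _
  show pushMap ρ (orbitHom x) (orbitPull ρ x f) y = _
  rw [pushMap_apply]
  split_ifs with hy
  · obtain ⟨g, rfl⟩ := MulAction.mem_orbit_iff.mp hy
    rw [Finset.sum_eq_single ((g : G) : G ⧸ MulAction.stabilizer G x)]
    · simp
    · intro b hb hne
      simp only [Finset.mem_filter] at hb
      exact absurd (MulAction.injective_ofQuotientStabilizer G x
        (hb.2.trans (MulAction.ofQuotientStabilizer_mk G x g).symm)) hne
    · intro h
      refine (h ?_).elim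
      exact Finset.mem_filter.mpr ⟨Finset.mem_univ _, MulAction.ofQuotientStabilizer_mk G x g⟩
  · refine Finset.sum_eq_zero fun b hb => absurd ?_ hy
    rw [← (Finset.mem_filter.mp hb).2]
    exact MulAction.ofQuotientStabilizer_mem_orbit G x b

/-- The component at a point: restrict to the stabilizer and evaluate. -/
def pointMor (L : Levels G) (ρ : Representation k G V) (x : X) :
    Mor L (L.comap (MulAction.stabilizer G x).subtype) (permRep ρ X)
      (ρ.comp (MulAction.stabilizer G x).subtype) where
  f := (MulAction.stabilizer G x).subtype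
  φ := LinearMap.proj x
  comm h v := by
    have hx : (h : G)⁻¹ • x = x := inv_smul_eq_iff.mpr h.2.symm
    simp [hx]
  compat := L.compat_comap _

variable [Finite X]

omit [Finite X] in
theorem pointMor_map₂_eq (x : X) (z : H2 L (permRep ρ X)) :
    (pointMor L ρ x).map₂ z = (evalMor L ρ (MulAction.stabilizer G x)).map₂
      ((Mor.ofMap L (orbitPull ρ x)).map₂ z) := by
  obtain ⟨F, rfl⟩ := H2mk_surjective z
  rw [Mor.map₂_mk, Mor.map₂_mk, Mor.map₂_mk]
  refine congrArg _ (Subtype.ext (funext fun p => ?_))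
  show (F : G × G → X → V) _ x = (F : G × G → X → V) _ (MulAction.ofQuotientStabilizer G x _)
  rw [MulAction.ofQuotientStabilizer_mk, one_smul]
  rfl

omit [Finite X] in
theorem pointMor_map₁_eq (x : X) (z : H1 L (permRep ρ X)) :
    (pointMor L ρ x).map₁ z = (evalMor L ρ (MulAction.stabilizer G x)).map₁
      ((Mor.ofMap L (orbitPull ρ x)).map₁ z) := by
  obtain ⟨F, rfl⟩ := H1mk_surjective z
  rw [Mor.map₁_mk, Mor.map₁_mk, Mor.map₁_mk]
  refine congrArg _ (Subtype.ext (funext fun p => ?_))
  show (F : G → X → V) _ x = (F : G → X → V) _ (MulAction.ofQuotientStabilizer G x _)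
  rw [MulAction.ofQuotientStabilizer_mk, one_smul]
  rfl

open MulAction in
theorem sum_orbitPush_orbitPull [Fintype (orbitRel.Quotient G X)] (f : X → V) :
    ∑ o : orbitRel.Quotient G X, orbitPush ρ o.out (orbitPull ρ o.out f) = f := by
  classical
  ext y
  rw [Finset.sum_apply]
  simp only [orbitPush_orbitPull]
  rw [Finset.sum_eq_single (Quotient.mk'' y : orbitRel.Quotient G X)]
  · rw [if_pos]
    exact (orbitRel.Quotient.mem_orbit (x := (Quotient.mk'' y : orbitRel.Quotient G X))).mpr rfl
      |> fun h => by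
        rwa [orbitRel.Quotient.orbit_eq_orbit_out _ Quotient.out_eq'] at h
  · intro o _ ho
    rw [if_neg]
    intro hy
    refine ho ?_
    rw [← o.out_eq', Quotient.eq'']
    exact MulAction.orbit_eq_iff.mp (MulAction.orbit_eq_iff.mpr hy).symm
  · exact fun h => absurd (Finset.mem_univ _) h

open MulAction in
/-- A class of a permutation module is the sum of its orbit components. -/
theorem sum_map₂_orbit [Fintype (orbitRel.Quotient G X)] (z : H2 L (permRep ρ X)) :
    ∑ o : orbitRel.Quotient G X, (Mor.ofMap L (orbitPush ρ o.out)).map₂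
      ((Mor.ofMap L (orbitPull ρ o.out)).map₂ z) = z := by
  obtain ⟨F, rfl⟩ := H2mk_surjective z
  simp only [Mor.map₂_mk]
  rw [← map_sum]
  refine congrArg _ (Subtype.ext (funext fun p => ?_))
  rw [Submodule.coe_sum, Finset.sum_apply]
  exact sum_orbitPush_orbitPull (G := G) (ρ := ρ) (X := X) ((F : G × G → X → V) p)

open MulAction in
/-- A class of a permutation module with all components zero is zero. -/
theorem eq_zero_of_pointMor_eq_zero (hρ : IsCtsRep L ρ)
    (hX : ∀ x : X, L.mem (stabilizer G x)) (z : H2 L (permRep ρ X))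
    (h : ∀ o : orbitRel.Quotient G X, (pointMor L ρ o.out).map₂ z = 0) : z = 0 := by
  have : Fintype (orbitRel.Quotient G X) := Fintype.ofFinite _
  rw [← sum_map₂_orbit z]
  refine Finset.sum_eq_zero fun o _ => ?_
  have h' := h o
  rw [pointMor_map₂_eq] at h'
  rw [(evalMor_map₂_bijective hρ (hX o.out)).1 (h'.trans (map_zero _).symm), map_zero]

end Orbit

end Fermat.Agent.GalCoh
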